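/-
GATE-N / S48-(N2)-(B) BDD-ORBIT (helper67; claims key S48-N2-BDD): Northcott for `Aut(ℂ)`-orbits.

`finite_bdd_orbit r B` : the set of algebraic integers `x ∈ ℂ` lying in SOME finite `Aut(ℂ)`-stable
set `O` with at most `r` elements, all of norm `≤ B`, is FINITE (helper38's design 3317, leaf (B)).
No number field in the statement: the polynomial `∏_{y ∈ O} (X - y)` is `Aut(ℂ)`-invariant, hence
rational (`S23.exists_ringEquiv_apply_ne`), it kills `x`, so the conjugates of `x` lie in `O`, and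
`minpoly ℤ x` has degree `≤ r` and coefficients bounded in terms of `r`, `B`.
-/
import Mathlib
import Fermat.Agent.S23.AutC

set_option autoImplicit false

namespace Fermat.Agent.DS.N2

open Polynomial

/-- The product `∏_{y ∈ O} (X - y)` over a finite `Aut(ℂ)`-stable set is fixed by `Aut(ℂ)`. -/
theorem map_prod_X_sub_C_of_stable (O : Finset ℂ)
    (hO : ∀ σ : ℂ ≃+* ℂ, ∀ y ∈ O, σ y ∈ O) (σ : ℂ ≃+* ℂ) :
    (∏ y ∈ O, (X - C y)).map (σ : ℂ →+* ℂ) = ∏ y ∈ O, (X - C y) := by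
  classical
  have himg : O.image σ = O := by
    apply Finset.eq_of_subset_of_card_le
    · intro z hz
      obtain ⟨y, hy, rfl⟩ := Finset.mem_image.1 hz
      exact hO σ y hy
    · rw [Finset.card_image_of_injective _ σ.injective]
  rw [Polynomial.map_prod]
  conv_rhs => rw [← himg, Finset.prod_image (fun a _ b _ h => σ.injective h)]
  refine Finset.prod_congr rfl fun y _ => ?_
  simp

/-- The product `∏_{y ∈ O} (X - y)` over a finite `Aut(ℂ)`-stable set has rational coefficients. -/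
theorem exists_rat_poly_of_stable (O : Finset ℂ)
    (hO : ∀ σ : ℂ ≃+* ℂ, ∀ y ∈ O, σ y ∈ O) :
    ∃ Q : ℚ[X], Q.map (algebraMap ℚ ℂ) = ∏ y ∈ O, (X - C y) := by
  have h : (∏ y ∈ O, (X - C y)) ∈ Polynomial.lifts (algebraMap ℚ ℂ) := by
    rw [Polynomial.lifts_iff_coeff_lifts]
    intro n
    by_contra hn
    have hn' : (∏ y ∈ O, (X - C y)).coeff n ∉ Set.range ((↑) : ℚ → ℂ) := by
      rintro ⟨q, hq⟩
      exact hn ⟨q, by rw [← hq, eq_ratCast]⟩
    obtain ⟨σ, hσ⟩ := Fermat.Agent.S23.exists_ringEquiv_apply_ne _ hn'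
    apply hσ
    have := congrArg (fun p => p.coeff n) (map_prod_X_sub_C_of_stable O hO σ)
    simpa [coeff_map] using this
  exact h

/-- **Northcott for `Aut(ℂ)`-orbits** (leaf (B) of S48-(N2)): finitely many algebraic integers
have a finite `Aut(ℂ)`-stable set of at most `r` "conjugates" of norm at most `B`. -/
theorem finite_bdd_orbit (r : ℕ) (B : ℝ) :
    {x : ℂ | IsIntegral ℤ x ∧ ∃ O : Finset ℂ, x ∈ O ∧ O.card ≤ r ∧
      (∀ σ : ℂ ≃+* ℂ, ∀ y ∈ O, σ y ∈ O) ∧ ∀ y ∈ O, ‖y‖ ≤ B}.Finite := by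
  classical
  let Cb := Nat.ceil (max B 1 ^ r * r.choose (r / 2))
  have hfin := bUnion_roots_finite (algebraMap ℤ ℂ) r (Set.finite_Icc (-Cb : ℤ) Cb)
  refine hfin.subset fun x hx => ?_
  simp_rw [Set.mem_iUnion]
  obtain ⟨hxi, O, hxO, hcard, hstab, hbd⟩ := hx
  obtain ⟨Q, hQ⟩ := exists_rat_poly_of_stable O hstab
  have hPmonic : (∏ y ∈ O, (X - C y)).Monic := monic_prod_of_monic _ _ fun y _ => monic_X_sub_C y
  have hQx : aeval x Q = 0 := by
    rw [aeval_def, eval₂_eq_eval_map, hQ, eval_prod]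
    exact Finset.prod_eq_zero hxO (by simp)
  have hdvd : minpoly ℚ x ∣ Q := minpoly.dvd ℚ x hQx
  have h_map := minpoly.isIntegrallyClosed_eq_field_fractions' ℚ hxi
  have hmapC : (minpoly ℤ x).map (algebraMap ℤ ℂ) = (minpoly ℚ x).map (algebraMap ℚ ℂ) := by
    rw [h_map, Polynomial.map_map]
    congr 1
  have hdvdC : (minpoly ℤ x).map (algebraMap ℤ ℂ) ∣ ∏ y ∈ O, (X - C y) := by
    rw [hmapC, ← hQ]
    exact Polynomial.map_dvd _ hdvd
  have hroots : ∀ z ∈ ((minpoly ℤ x).map (algebraMap ℤ ℂ)).roots, z ∈ O := by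
    intro z hz
    have hle := Polynomial.roots.le_of_dvd hPmonic.ne_zero hdvdC
    have hz' := Multiset.mem_of_le hle hz
    rw [roots_prod_X_sub_C] at hz'
    simpa using hz'
  have hdeg : (minpoly ℤ x).natDegree ≤ r := by
    have h1 : ((minpoly ℤ x).map (algebraMap ℤ ℂ)).natDegree ≤
        (∏ y ∈ O, (X - C y)).natDegree := natDegree_le_of_dvd hdvdC hPmonic.ne_zero
    rw [(minpoly.monic hxi).natDegree_map, natDegree_prod_of_monic _ _ fun y _ => monic_X_sub_C y]
      at h1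
    simp only [natDegree_X_sub_C, Finset.sum_const, smul_eq_mul, mul_one] at h1
    exact h1.trans hcard
  refine ⟨minpoly ℤ x, ⟨hdeg, fun i => ?_⟩, ?_⟩
  · rw [Set.mem_Icc, ← abs_le, ← @Int.cast_le ℝ]
    have hb := coeff_bdd_of_roots_le (algebraMap ℤ ℂ) (minpoly.monic hxi)
      (IsAlgClosed.splits _) hdeg (fun z hz => hbd z (hroots z hz)) i
    refine (Eq.trans_le ?_ hb).trans (Nat.le_ceil _)
    rw [coeff_map, eq_intCast, Complex.norm_intCast, Int.cast_abs]
  · rw [Finset.mem_coe, Multiset.mem_toFinset,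
      mem_roots ((minpoly.monic hxi).map _).ne_zero, IsRoot.def, eval_map, ← aeval_def]
    exact minpoly.aeval ℤ x

end Fermat.Agent.DS.N2
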