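import Fermat.Agent.S22
import Fermat.Agent.S49.Basic

/-!
# S48 (N2): the coefficient module of a cusp form on `Γ₀(N)` is finitely generated

For every weight `k ≥ 1` and every cusp form `F` on `Γ₀(N)`, the `ℤ`-submodule of `ℂ` spanned by the
`q`-expansion coefficients of `F` is finitely generated: `aₙ(F) = a₁(tₙ F)` for a Hecke operator
`tₙ`, and the Hecke algebra is a finite `ℤ`-module (S22, all weights).

This is `Fermat/Agent/S23/HeckeCoeff.lean` + the first half of `S23/Final.exists_denominator`, with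
the weight `2` replaced by an arbitrary weight.
-/

set_option autoImplicit false

namespace Fermat.Agent.DS.N2

namespace CoeffFG

open ModularFormClass CongruenceSubgroup UpperHalfPlane Fermat.Agent.S49

variable {N : ℕ} [NeZero N] {k : ℕ}

/-- The space of weight `k` cusp forms of level `Gamma0 N`. -/
abbrev V (N k : ℕ) := CuspForm (Gamma0 N) (k : ℤ)

/-- The Hecke algebra away from no primes. -/
noncomputable abbrev TT (N k : ℕ) [NeZero N] : Subalgebra ℤ (Module.End ℂ (V N k)) :=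
  CuspForm.heckeAlgebra N (k : ℤ) (∅ : Set ℕ)

omit [NeZero N] in
theorem qCoeff_heckeTLin_nat (hk : 1 ≤ k) {ℓ : ℕ} (hℓ : ℓ.Prime) (hℓN : ¬ ℓ ∣ N) (f : V N k)
    (n : ℕ) :
    qCoeff ⇑(CuspForm.heckeTLin (k : ℤ) hℓ hℓN f) n =
      qCoeff ⇑f (n * ℓ) + if ℓ ∣ n then (((ℓ ^ (k - 1) : ℕ) : ℤ) : ℂ) * qCoeff ⇑f (n / ℓ) else 0 := by
  rw [CuspForm.coe_heckeTLin_apply, ModularFormClass.qCoeff_heckeT f (hΓ N) hℓ.ne_zero n,
    ModularForm.coeffHeckeT_apply]
  have h1 : ((k : ℤ) - 1) = ((k - 1 : ℕ) : ℤ) := by omega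
  rw [h1, zpow_natCast]
  push_cast
  rfl

theorem qCoeff_heckeULin_nat {q : ℕ} (hq : q.Prime) (hqN : q ∣ N) (f : V N k) (n : ℕ) :
    qCoeff ⇑(CuspForm.heckeULin (k : ℤ) hqN f) n = qCoeff ⇑f (n * q) := by
  rw [CuspForm.coe_heckeULin_apply, ModularFormClass.qCoeff_heckeU f (hΓ N) hq.ne_zero n,
    ModularForm.coeffHeckeU_apply]

/-- `Claim n`: some Hecke operator shifts the `q`-coefficients at indices prime to `n` by `n`. -/
def Claim (N k : ℕ) [NeZero N] (n : ℕ) : Prop :=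
  ∃ t ∈ TT N k, ∀ f : V N k, ∀ m : ℕ, m.Coprime n → qCoeff ⇑(t f) m = qCoeff ⇑f (m * n)

omit [NeZero N] in
theorem qCoeff_sub' (f g : V N k) (n : ℕ) :
    qCoeff ⇑(f - g) n = qCoeff ⇑f n - qCoeff ⇑g n := by
  have h : f - g = f + (-1 : ℤ) • g := by simp [sub_eq_add_neg]
  rw [h, qCoeff_add, qCoeff_zsmul]
  push_cast
  ring

theorem claim_one : Claim N k 1 :=
  ⟨1, Subalgebra.one_mem _, fun f m _ => by simp⟩

theorem claim_mul {a b : ℕ} (hab : a.Coprime b) (ha : Claim N k a) (hb : Claim N k b) :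
    Claim N k (a * b) := by
  obtain ⟨ta, hta, ha⟩ := ha
  obtain ⟨tb, htb, hb⟩ := hb
  refine ⟨ta * tb, Subalgebra.mul_mem _ hta htb, fun f m hm => ?_⟩
  have hma : m.Coprime a := Nat.Coprime.coprime_mul_right_right hm
  have hmb : m.Coprime b := Nat.Coprime.coprime_mul_left_right hm
  rw [Module.End.mul_apply, ha (tb f) m hma, hb f (m * a) (Nat.Coprime.mul_left hmb hab),
    mul_assoc]

/-- Powers of `U_p` for `p ∣ N`. -/
theorem claim_prime_pow_of_dvd {p : ℕ} (hp : p.Prime) (hpN : p ∣ N) (r : ℕ) :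
    Claim N k (p ^ r) := by
  refine ⟨(CuspForm.heckeULin (k : ℤ) hpN) ^ r,
    Subalgebra.pow_mem _ (CuspForm.heckeULin_mem_heckeAlgebra hp hpN (by simp)) r,
    fun f m _ => ?_⟩
  clear ‹m.Coprime (p ^ r)›
  induction r generalizing f with
  | zero => simp
  | succ r ih =>
    rw [pow_succ, Module.End.mul_apply, ih, qCoeff_heckeULin_nat hp hpN, pow_succ, mul_assoc]

/-- The operators `T_{p^r}` for `p ∤ N`, defined by the usual recursion. -/
noncomputable def tpow (k : ℕ) {p : ℕ} (hp : p.Prime) (hpN : ¬ p ∣ N) :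
    ℕ → Module.End ℂ (V N k)
  | 0 => 1
  | 1 => CuspForm.heckeTLin (k : ℤ) hp hpN
  | (r + 2) => tpow k hp hpN (r + 1) * CuspForm.heckeTLin (k : ℤ) hp hpN -
      ((p ^ (k - 1) : ℕ) : ℤ) • tpow k hp hpN r

theorem tpow_mem {p : ℕ} (hp : p.Prime) (hpN : ¬ p ∣ N) : ∀ r, tpow k hp hpN r ∈ TT N k
  | 0 => Subalgebra.one_mem _
  | 1 => CuspForm.heckeTLin_mem_heckeAlgebra hp hpN (by simp)
  | (r + 2) => by
    rw [tpow]
    exact Subalgebra.sub_mem _
      (Subalgebra.mul_mem _ (tpow_mem hp hpN (r + 1))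
        (CuspForm.heckeTLin_mem_heckeAlgebra hp hpN (by simp)))
      (Subalgebra.zsmul_mem _ (tpow_mem hp hpN r) _)

omit [NeZero N] in
theorem qCoeff_tpow (hk : 1 ≤ k) {p : ℕ} (hp : p.Prime) (hpN : ¬ p ∣ N) :
    ∀ (r : ℕ) (f : V N k) (m : ℕ), m.Coprime p →
      qCoeff ⇑(tpow k hp hpN r f) m = qCoeff ⇑f (m * p ^ r)
  | 0, f, m, _ => by simp [tpow]
  | 1, f, m, hm => by
    have hpm : ¬ p ∣ m := fun h => hp.one_lt.ne' (Nat.Coprime.eq_one_of_dvd hm.symm h)
    rw [tpow, qCoeff_heckeTLin_nat hk hp hpN, if_neg hpm, add_zero, pow_one]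
  | (r + 2), f, m, hm => by
    have hdiv : p ∣ m * p ^ (r + 1) := Dvd.intro_left _ (by rw [pow_succ, mul_assoc])
    have hquot : m * p ^ (r + 1) / p = m * p ^ r := by
      rw [pow_succ, ← mul_assoc]
      exact Nat.mul_div_cancel _ hp.pos
    rw [tpow, LinearMap.sub_apply, qCoeff_sub', Module.End.mul_apply,
      qCoeff_tpow hk hp hpN (r + 1) _ m hm, LinearMap.smul_apply, qCoeff_zsmul,
      qCoeff_tpow hk hp hpN r f m hm, qCoeff_heckeTLin_nat hk hp hpN, if_pos hdiv, hquot]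
    have : m * p ^ (r + 1) * p = m * p ^ (r + 2) := by ring
    rw [this]
    ring

theorem claim_prime_pow_of_not_dvd (hk : 1 ≤ k) {p : ℕ} (hp : p.Prime) (hpN : ¬ p ∣ N) {r : ℕ}
    (hr : 0 < r) : Claim N k (p ^ r) :=
  ⟨tpow k hp hpN r, tpow_mem hp hpN r, fun f m hm =>
    qCoeff_tpow hk hp hpN r f m ((Nat.coprime_pow_right_iff hr m p).1 hm)⟩

theorem claim_of_pos (hk : 1 ≤ k) : ∀ n : ℕ, 0 < n → Claim N k n := by
  intro n
  induction n using Nat.recOnPosPrimePosCoprime with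
  | prime_pow p r hp hr =>
    intro _
    by_cases hpN : p ∣ N
    · exact claim_prime_pow_of_dvd hp hpN r
    · exact claim_prime_pow_of_not_dvd hk hp hpN hr
  | zero => intro h; exact absurd h (lt_irrefl 0)
  | one => intro _; exact claim_one
  | coprime a b ha hb hab iha ihb =>
    intro _
    exact claim_mul hab (iha (by omega)) (ihb (by omega))

/-- Every `q`-coefficient functional `a_n` (`n ≥ 1`) is `a_1 ∘ t` for a Hecke operator `t`. -/
theorem exists_hecke_qCoeff (hk : 1 ≤ k) (n : ℕ) (hn : 1 ≤ n) :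
    ∃ t ∈ TT N k, ∀ f : V N k, qCoeff ⇑f n = qCoeff ⇑(t f) 1 := by
  obtain ⟨t, ht, h⟩ := claim_of_pos (N := N) hk n hn
  refine ⟨t, ht, fun f => ?_⟩
  rw [h f 1 (Nat.coprime_one_left n), one_mul]

/-- The `ℤ`-linear functional `t ↦ a₁(t f)` on the Hecke algebra. -/
noncomputable def heckeCoeffOne (f : V N k) : TT N k →ₗ[ℤ] ℂ where
  toFun t := qCoeff ⇑((t : Module.End ℂ (V N k)) f) 1
  map_add' s t := by
    show qCoeff ⇑(((s + t : TT N k) : Module.End ℂ (V N k)) f) 1 = _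
    rw [Subalgebra.coe_add, LinearMap.add_apply, qCoeff_add]
  map_smul' c t := by
    show qCoeff ⇑(((c • t : TT N k) : Module.End ℂ (V N k)) f) 1 = _
    rw [Subalgebra.coe_smul, LinearMap.smul_apply, qCoeff_zsmul]
    simp

end CoeffFG

open CoeffFG ModularFormClass CongruenceSubgroup in
/-- **The coefficient module of a cusp form on `Γ₀(N)` of weight `k ≥ 1` is finitely generated.** -/
theorem coeff_span_fg (N : ℕ) [NeZero N] (k : ℕ) (hk : 1 ≤ k)
    (F : CuspForm (Gamma0 N) (k : ℤ)) :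
    (Submodule.span ℤ (Set.range fun n : ℕ => qCoeff ⇑F n)).FG := by
  have hfin : Module.Finite ℤ (TT N k) := Fermat.Agent.S22.result N (k : ℤ) ∅
  have hle : Submodule.span ℤ (Set.range fun n : ℕ => qCoeff ⇑F n) ≤
      LinearMap.range (heckeCoeffOne F) := by
    rw [Submodule.span_le]
    rintro _ ⟨n, rfl⟩
    show qCoeff ⇑F n ∈ LinearMap.range (heckeCoeffOne F)
    rcases Nat.eq_zero_or_pos n with rfl | hn
    · rw [Fermat.Agent.S49.qCoeff_cusp_zero]
      exact Submodule.zero_mem _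
    · obtain ⟨t, ht, htf⟩ := exists_hecke_qCoeff (N := N) hk n hn
      exact ⟨⟨t, ht⟩, (htf F).symm⟩
  have hrfg : (LinearMap.range (heckeCoeffOne F)).FG := by
    rw [LinearMap.range_eq_map]
    exact (Module.Finite.fg_top).map _
  exact hrfg.of_le hle

end Fermat.Agent.DS.N2
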