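import Fermat.Agent.S23.Wiring

/-!
# S48 (N2): the abstract division step for conjugating cusp forms

`Γ` an arithmetic subgroup of `SL(2, ℤ)` (image in `GL(2, ℝ)`) with period `1`.  If `f` is a cusp
form of weight `k` on `Γ`, `B ≠ 0` a modular form of weight `w` on `Γ`, and the `σ`-conjugates of the
`q`-expansions of `B` and of `f * B` are `q`-expansions of modular forms `𝒟`, `𝒩` on `Γ`, then the
`σ`-conjugate of the `q`-expansion of `f` is the `q`-expansion of a cusp form on `Γ`.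

This is the second half of `Fermat.Agent.S23.cuspForm_conj_of`, for a general group.
-/

set_option autoImplicit false

open UpperHalfPlane ModularForm
open scoped MatrixGroups ModularForm Manifold

namespace Fermat.Agent.DS.N2

open Fermat.Agent.S23

variable {Γ : Subgroup (GL (Fin 2) ℝ)} {k w : ℤ} {F G : ℍ → ℂ}

/-- Forms on a group with strict period `1` have an analytic cusp function. -/
theorem nice_of_isMF (hΓ : (1 : ℝ) ∈ Γ.strictPeriods) (hF : IsMF Γ k F) : Nice F := by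
  obtain ⟨F', rfl⟩ := hF
  exact ModularFormClass.analyticAt_cuspFunction_zero F' one_pos hΓ

theorem eq_zero_of_qExp_eq_zero (hΓ : (1 : ℝ) ∈ Γ.strictPeriods) (hF : IsMF Γ k F)
    (h : qExpansion 1 F = 0) : F = 0 := by
  obtain ⟨F', rfl⟩ := hF
  have := (ModularForm.qExpansion_eq_zero_iff one_pos hΓ F').1 h
  rw [this]
  rfl

/-- **Division step.** -/
theorem cuspForm_conj_div [Γ.IsArithmetic] [Γ.HasDetOne]
    (hΓ : (1 : ℝ) ∈ Γ.strictPeriods) (hΓSL : Γ ≤ 𝒮ℒ) (σ : ℂ →+* ℂ)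
    {f B 𝒟 𝒩 : ℍ → ℂ}
    (hf : IsCF Γ k f) (hB : IsMF Γ w B) (h𝒟 : IsMF Γ w 𝒟) (h𝒩 : IsMF Γ (k + w) 𝒩)
    (hB0 : qExpansion 1 B ≠ 0)
    (hq𝒟 : qExpansion 1 𝒟 = (qExpansion 1 B).map σ)
    (hq𝒩 : qExpansion 1 𝒩 = (qExpansion 1 (f * B)).map σ) :
    ∃ g : ℍ → ℂ, IsCF Γ k g ∧ qExpansion 1 g = (qExpansion 1 f).map σ := by
  classical
  have hfMF : IsMF Γ k f := hf.isMF
  obtain ⟨μ, c, hc0, hc, hrel, hcz⟩ := exists_monic_relation (Γ := Γ) hfMF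
  have hL1 : L1Statement σ := l1Statement σ
  choose c₁ hc₁MF hc₁q using fun j => hL1 (hc j)
  set c' : ℕ → ℍ → ℂ := fun j => if j = 0 then 1 else c₁ j with hc'
  have hc'0 : c' 0 = 1 := by simp [hc']
  have hc'MF : ∀ j : ℕ, IsMF 𝒮ℒ ((j : ℤ) * k) (c' j) := by
    intro j
    by_cases hj : j = 0
    · subst hj
      simp only [hc', if_true]
      simpa using (IsMF.one (Γ := 𝒮ℒ))
    · simp only [hc', if_neg hj]
      exact hc₁MF j
  have hc'q : ∀ j : ℕ, qExpansion 1 (c' j) = (qExpansion 1 (c j)).map σ := by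
    intro j
    by_cases hj : j = 0
    · subst hj
      simp only [hc', if_true, hc0]
      rw [qExp_one, map_one]
    · simp only [hc', if_neg hj]
      exact hc₁q j
  have nf : Nice f := nice_of_isMF hΓ hfMF
  have nB : Nice B := nice_of_isMF hΓ hB
  have n𝒟 : Nice 𝒟 := nice_of_isMF hΓ h𝒟
  have n𝒩 : Nice 𝒩 := nice_of_isMF hΓ h𝒩
  have hq𝒩' : qExpansion 1 𝒩 = (qExpansion 1 f).map σ * qExpansion 1 𝒟 := by
    rw [hq𝒩, qExp_mul nf nB, map_mul, hq𝒟]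
  have hq𝒟0 : qExpansion 1 𝒟 ≠ 0 := by
    rw [hq𝒟]
    intro h0
    exact hB0 (map_injective σ (by rw [h0, map_zero]))
  have h𝒟0 : 𝒟 ≠ 0 := by
    intro h0
    apply hq𝒟0
    rw [h0, qExp_zero]
  have nrel : ∀ j ∈ Finset.range (μ + 1), Nice (c' j * 𝒩 ^ (μ - j) * 𝒟 ^ j) := fun j _ =>
    ((hc'MF j).nice_levelOne.mul (n𝒩.pow _)).mul (n𝒟.pow _)
  have nrel₀ : ∀ j ∈ Finset.range (μ + 1), Nice (c j * f ^ (μ - j)) := fun j _ =>
    (hc j).nice_levelOne.mul (nf.pow _)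
  have hrelMF : IsMF Γ ((μ : ℤ) * (k + w))
      (∑ j ∈ Finset.range (μ + 1), c' j * 𝒩 ^ (μ - j) * 𝒟 ^ j) := by
    refine IsMF.sum _ fun j hj => ?_
    have hj' : j ≤ μ := by simpa [Nat.lt_succ_iff] using hj
    refine (((hc'MF j).mono hΓSL).mul_cast (h𝒩.pow_cast (μ - j) rfl) rfl).mul_cast
      (h𝒟.pow_cast j rfl) ?_
    rw [Nat.cast_sub hj']; ring
  have hrelq : qExpansion 1 (∑ j ∈ Finset.range (μ + 1), c' j * 𝒩 ^ (μ - j) * 𝒟 ^ j) = 0 := by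
    have h1 : qExpansion 1 (∑ j ∈ Finset.range (μ + 1), c' j * 𝒩 ^ (μ - j) * 𝒟 ^ j) =
        qExpansion 1 𝒟 ^ μ *
          (qExpansion 1 (∑ j ∈ Finset.range (μ + 1), c j * f ^ (μ - j))).map σ := by
      rw [qExp_sum _ nrel, qExp_sum _ nrel₀, map_sum, Finset.mul_sum]
      refine Finset.sum_congr rfl fun j hj => ?_
      have hj' : j ≤ μ := by simpa [Nat.lt_succ_iff] using hj
      rw [qExp_mul ((hc'MF j).nice_levelOne.mul (n𝒩.pow _)) (n𝒟.pow _),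
        qExp_mul (hc'MF j).nice_levelOne (n𝒩.pow _), qExp_pow n𝒩, qExp_pow n𝒟,
        qExp_mul (hc j).nice_levelOne (nf.pow _), qExp_pow nf, map_mul, map_pow, hc'q j, hq𝒩']
      have hμ : qExpansion 1 𝒟 ^ μ = qExpansion 1 𝒟 ^ (μ - j) * qExpansion 1 𝒟 ^ j := by
        rw [← pow_add, Nat.sub_add_cancel hj']
      rw [hμ, mul_pow]
      ring
    rw [h1, hrel, qExp_zero, map_zero, mul_zero]
  have hrel' : ∑ j ∈ Finset.range (μ + 1), c' j * 𝒩 ^ (μ - j) * 𝒟 ^ j = 0 :=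
    eq_zero_of_qExp_eq_zero hΓ hrelMF hrelq
  obtain ⟨G, hGMF, hG𝒟, hGCF⟩ := exists_div_of_integral h𝒩 h𝒟 h𝒟0 c' hc'0 hc'MF hrel'
  have hc'z : ∀ j, 1 ≤ j → IsZeroAtImInfty (c' j) := by
    intro j hj
    refine isZeroAtImInfty_of_coeff_zero_levelOne (hc'MF j) ?_
    rw [hc'q j]
    simp [coeff_zero_of_isZeroAtImInfty (hcz hf j hj)]
  refine ⟨G, hGCF hc'z, ?_⟩
  have h2 : qExpansion 1 G * qExpansion 1 𝒟 = (qExpansion 1 f).map σ * qExpansion 1 𝒟 := by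
    rw [← qExp_mul (nice_of_isMF hΓ hGMF) n𝒟, hG𝒟, hq𝒩']
  exact mul_right_cancel₀ hq𝒟0 h2

end Fermat.Agent.DS.N2
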