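/-
S48 / (N2a) (helper44): the group `Γ₁(N)` inside `GL₂(ℝ)` — the level group of
`CuspForm (CongruenceSubgroup.Gamma1 N) k` — and its basic facts (`≤ SL₂(ℤ)`, period `1`,
membership in terms of the bottom row).
-/
import Fermat.Agent.S23.Unbundled

set_option autoImplicit false

open UpperHalfPlane ModularForm ModularFormClass CongruenceSubgroup
open scoped MatrixGroups ModularForm Manifold

namespace Fermat.Agent.DS.N2

open Fermat.Agent.S23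

/-- The image of `Γ₁(N)` in `GL(2, ℝ)`. -/
abbrev G1 (N : ℕ) : Subgroup (GL (Fin 2) ℝ) :=
  Subgroup.map (Matrix.SpecialLinearGroup.mapGL ℝ) (CongruenceSubgroup.Gamma1 N)

theorem G1_le_SL (N : ℕ) : G1 N ≤ 𝒮ℒ := Subgroup.map_le_range _ _

theorem one_mem_strictPeriods_G1 (N : ℕ) : (1 : ℝ) ∈ (G1 N).strictPeriods := by
  have hT : ModularGroup.T ∈ CongruenceSubgroup.Gamma1 N := by
    rw [CongruenceSubgroup.Gamma1_mem]
    simp [ModularGroup.T]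
  have h := Subgroup.strictPeriods_eq_zmultiples_one_of_T_mem hT
  rw [h]
  exact AddSubgroup.mem_zmultiples (1 : ℝ)

theorem mapGL_injective :
    Function.Injective (Matrix.SpecialLinearGroup.mapGL ℝ : SL(2, ℤ) →* GL (Fin 2) ℝ) := by
  intro a b h
  ext i j
  have h1 := congrArg (fun g : GL (Fin 2) ℝ => (g : Matrix (Fin 2) (Fin 2) ℝ) i j) h
  simp only [Matrix.SpecialLinearGroup.mapGL_coe_matrix] at h1
  have h2 : (((a : Matrix (Fin 2) (Fin 2) ℤ) i j : ℤ) : ℝ) = ((b : Matrix (Fin 2) (Fin 2) ℤ) i j : ℤ) := by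
    simpa [Matrix.map_apply] using h1
  exact_mod_cast h2

/-- `mapGL γ ∈ G1 N ↔ γ ∈ Γ₁(N)`. -/
theorem mapGL_mem_G1_iff (N : ℕ) (γ : SL(2, ℤ)) :
    (Matrix.SpecialLinearGroup.mapGL ℝ γ : GL (Fin 2) ℝ) ∈ G1 N ↔ γ ∈ Gamma1 N := by
  constructor
  · rintro ⟨γ', hγ', h⟩
    rwa [← mapGL_injective h]
  · exact fun h => ⟨γ, h, rfl⟩

/-- the `𝒮ℒ`-shape of a separation statement from its `SL(2, ℤ)`-shape. -/
theorem hdist_of_SL_G1 {N : ℕ} {w₀ : ℤ} {T : ℍ → ℂ}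
    (hsep : ∀ γ : SL(2, ℤ), γ ∉ Gamma1 N → T ∣[w₀] γ ≠ T) :
    ∀ γ ∈ 𝒮ℒ, γ ∉ G1 N → T ∣[w₀] γ ≠ T := by
  rintro _ ⟨γ, rfl⟩ hγ
  have hγ' : γ ∉ Gamma1 N := fun h => hγ (Subgroup.mem_map_of_mem _ h)
  exact hsep γ hγ'

end Fermat.Agent.DS.N2
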