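/-
S48 / (N2) leaf (D) of helper38's design (board 3317), written by helper44:
**nebentypus decomposition** of forms on `Γ₁(N)`.

* `exists_Gamma0_lower_right` : every unit `d` of `ZMod N` is the lower right entry of some
  `γ ∈ Γ₀(N)`;
* `conj_mem_Gamma1` : `Γ₁(N)` is normalised by `Γ₀(N)`;
* `isCF_slash_Gamma0`, `isMF_slash_Gamma0` : `f ∣[k] γ` is again a form on `Γ₁(N)` for
  `γ ∈ Γ₀(N)`;
* **`exists_nebentypus_decomp`** (cusp forms), `exists_nebentypus_decomp_MF` (modular forms):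
  `f = ∑ χ, c χ` with `c χ` a form on `Γ₁(N)` and `c χ ∣[k] γ = χ (γ 1 1) • c χ` for
  `γ ∈ Γ₀(N)`;
* **`isCF_G0_of_invariant`**, `isMF_G0_of_invariant` : a form on `Γ₁(N)` invariant under `Γ₀(N)`
  is a form on `Γ₀(N)`.
-/
import Fermat.Agent.DS.N2.Gamma1Group
import Mathlib.NumberTheory.DirichletCharacter.Orthogonality

set_option autoImplicit false

open UpperHalfPlane ModularForm ModularFormClass CongruenceSubgroup
open scoped MatrixGroups ModularForm Manifold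

namespace Fermat.Agent.DS.N2

open Fermat.Agent.S23

variable {N : ℕ} {k : ℤ}

/-! ### Group theory of `Γ₁(N) ⊴ Γ₀(N)` -/

/-- `δ ∈ Γ₁(N)` iff `δ ∈ Γ₀(N)` and its lower right entry is `1` mod `N`. -/
theorem mem_Gamma1_iff_Gamma0Map (δ : SL(2, ℤ)) :
    δ ∈ Gamma1 N ↔ ∃ h : δ ∈ Gamma0 N, Gamma0Map N ⟨δ, h⟩ = 1 := by
  constructor
  · intro hδ
    have h0 : δ ∈ Gamma0 N := Gamma1_in_Gamma0 N hδ
    refine ⟨h0, ?_⟩
    rw [← Gamma1_mem', Gamma1_to_Gamma0_mem]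
    exact (Gamma1_mem N δ).mp hδ
  · rintro ⟨h0, h1⟩
    rw [Gamma1_mem]
    have := (Gamma1_to_Gamma0_mem (N := N) ⟨δ, h0⟩).mp (Gamma1_mem'.mpr h1)
    exact this

theorem Gamma0Map_apply (γ : SL(2, ℤ)) (h : γ ∈ Gamma0 N) :
    Gamma0Map N ⟨γ, h⟩ = ((γ 1 1 : ℤ) : ZMod N) := rfl

/-- the lower right entry of an element of `Γ₀(N)` is a unit mod `N`. -/
theorem isUnit_Gamma0Map (γ : Gamma0 N) : IsUnit (Gamma0Map N γ) := by
  refine IsUnit.of_mul_eq_one (Gamma0Map N γ⁻¹) ?_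
  rw [← map_mul, mul_inv_cancel, map_one]

/-- two elements of `Γ₀(N)` with the same lower right entry differ by an element of `Γ₁(N)`. -/
theorem mul_inv_mem_Gamma1 {γ γ' : SL(2, ℤ)} (hγ : γ ∈ Gamma0 N) (hγ' : γ' ∈ Gamma0 N)
    (h : ((γ 1 1 : ℤ) : ZMod N) = ((γ' 1 1 : ℤ) : ZMod N)) : γ * γ'⁻¹ ∈ Gamma1 N := by
  rw [mem_Gamma1_iff_Gamma0Map]
  have hmem : γ * γ'⁻¹ ∈ Gamma0 N := (Gamma0 N).mul_mem hγ ((Gamma0 N).inv_mem hγ')
  refine ⟨hmem, ?_⟩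
  have e : (⟨γ * γ'⁻¹, hmem⟩ : Gamma0 N) = ⟨γ, hγ⟩ * (⟨γ', hγ'⟩ : Gamma0 N)⁻¹ := rfl
  rw [e, map_mul]
  have h' : Gamma0Map N ⟨γ, hγ⟩ = Gamma0Map N ⟨γ', hγ'⟩ := h
  rw [h', ← map_mul, mul_inv_cancel, map_one]

/-- `Γ₀(N)` normalises `Γ₁(N)`. -/
theorem conj_mem_Gamma1 {γ δ : SL(2, ℤ)} (hγ : γ ∈ Gamma0 N) (hδ : δ ∈ Gamma1 N) :
    γ * δ * γ⁻¹ ∈ Gamma1 N := by
  obtain ⟨hδ0, hδ1⟩ := (mem_Gamma1_iff_Gamma0Map δ).mp hδ
  rw [mem_Gamma1_iff_Gamma0Map]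
  have hmem : γ * δ * γ⁻¹ ∈ Gamma0 N :=
    (Gamma0 N).mul_mem ((Gamma0 N).mul_mem hγ hδ0) ((Gamma0 N).inv_mem hγ)
  refine ⟨hmem, ?_⟩
  have e : (⟨γ * δ * γ⁻¹, hmem⟩ : Gamma0 N) =
      ⟨γ, hγ⟩ * ⟨δ, hδ0⟩ * (⟨γ, hγ⟩ : Gamma0 N)⁻¹ := rfl
  rw [e, map_mul, map_mul, hδ1, mul_one, ← map_mul, mul_inv_cancel, map_one]

/-- every unit of `ZMod N` is the lower right entry of an element of `Γ₀(N)`. -/
theorem exists_Gamma0_lower_right [NeZero N] (d : (ZMod N)ˣ) :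
    ∃ γ : SL(2, ℤ), γ ∈ Gamma0 N ∧ ((γ 1 1 : ℤ) : ZMod N) = d := by
  have hcop : Nat.Coprime (d : ZMod N).val N := ZMod.val_coe_unit_coprime d
  have hcop' : IsCoprime (((d : ZMod N).val : ℕ) : ℤ) (N : ℤ) := Nat.isCoprime_iff_coprime.mpr hcop
  obtain ⟨a, b, hab⟩ := hcop'
  refine ⟨⟨!![a, -b; (N : ℤ), ((d : ZMod N).val : ℤ)], ?_⟩, ?_, ?_⟩
  · rw [Matrix.det_fin_two_of]
    linarith
  · rw [Gamma0_mem]
    simp
  · simp

/-! ### Slashing a form on `Γ₁(N)` by an element of `Γ₀(N)` -/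

open ConjAct Pointwise in
theorem conj_G1_eq {γ : SL(2, ℤ)} (hγ : γ ∈ Gamma0 N) :
    toConjAct ((Matrix.SpecialLinearGroup.mapGL ℝ γ : GL (Fin 2) ℝ))⁻¹ • G1 N = G1 N := by
  ext x
  rw [map_inv, Subgroup.mem_inv_pointwise_smul_iff, toConjAct_smul]
  constructor
  · rintro ⟨δ, hδ, hx⟩
    refine ⟨γ⁻¹ * δ * γ, ?_, ?_⟩
    · have := conj_mem_Gamma1 ((Gamma0 N).inv_mem hγ) hδ
      simpa using this
    · rw [map_mul, map_mul, hx, map_inv]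
      group
  · rintro ⟨δ, hδ, rfl⟩
    refine ⟨γ * δ * γ⁻¹, conj_mem_Gamma1 hγ hδ, ?_⟩
    rw [map_mul, map_mul, map_inv]

theorem isCF_slash_Gamma0 {f : ℍ → ℂ} (hf : IsCF (G1 N) k f) {γ : SL(2, ℤ)}
    (hγ : γ ∈ Gamma0 N) : IsCF (G1 N) k (f ∣[k] γ) := by
  obtain ⟨F, rfl⟩ := hf
  have h : IsCF _ k ((F : ℍ → ℂ) ∣[k] (Matrix.SpecialLinearGroup.mapGL ℝ γ : GL (Fin 2) ℝ)) :=
    ⟨CuspForm.translate F (Matrix.SpecialLinearGroup.mapGL ℝ γ : GL (Fin 2) ℝ), rfl⟩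
  rw [conj_G1_eq hγ] at h
  exact h

theorem isMF_slash_Gamma0 {f : ℍ → ℂ} (hf : IsMF (G1 N) k f) {γ : SL(2, ℤ)}
    (hγ : γ ∈ Gamma0 N) : IsMF (G1 N) k (f ∣[k] γ) := by
  obtain ⟨F, rfl⟩ := hf
  have h : IsMF _ k ((F : ℍ → ℂ) ∣[k] (Matrix.SpecialLinearGroup.mapGL ℝ γ : GL (Fin 2) ℝ)) :=
    ⟨ModularForm.translate F (Matrix.SpecialLinearGroup.mapGL ℝ γ : GL (Fin 2) ℝ), rfl⟩
  rw [conj_G1_eq hγ] at h
  exact h

/-- a `Γ₁(N)`-invariant function is slashed the same way by two elements of `Γ₀(N)` with the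
same lower right entry. -/
theorem slash_eq_of_lower_right_eq {f : ℍ → ℂ}
    (hinv : ∀ δ : SL(2, ℤ), δ ∈ Gamma1 N → f ∣[k] δ = f) {γ γ' : SL(2, ℤ)}
    (hγ : γ ∈ Gamma0 N) (hγ' : γ' ∈ Gamma0 N)
    (h : ((γ 1 1 : ℤ) : ZMod N) = ((γ' 1 1 : ℤ) : ZMod N)) : f ∣[k] γ = f ∣[k] γ' := by
  have hδ := mul_inv_mem_Gamma1 hγ hγ' h
  have e : γ = (γ * γ'⁻¹) * γ' := by group
  conv_lhs => rw [e, SlashAction.slash_mul, hinv _ hδ]

theorem IsMF.slash_eq_SL {f : ℍ → ℂ} (hf : IsMF (G1 N) k f) {δ : SL(2, ℤ)}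
    (hδ : δ ∈ Gamma1 N) : f ∣[k] δ = f :=
  hf.slash_eq (Subgroup.mem_map_of_mem _ hδ)

/-! ### The decomposition -/

section Decomp

variable [NeZero N]

/-- a chosen lift of a unit `d` to `Γ₀(N)`. -/
noncomputable def diamondLift (d : (ZMod N)ˣ) : SL(2, ℤ) :=
  Classical.choose (exists_Gamma0_lower_right d)

theorem diamondLift_mem (d : (ZMod N)ˣ) : diamondLift d ∈ Gamma0 N :=
  (Classical.choose_spec (exists_Gamma0_lower_right d)).1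

theorem diamondLift_lower_right (d : (ZMod N)ˣ) :
    ((diamondLift d 1 1 : ℤ) : ZMod N) = d :=
  (Classical.choose_spec (exists_Gamma0_lower_right d)).2

/-- the `χ`-component of `f`. -/
noncomputable def nebComp (k : ℤ) (f : ℍ → ℂ) (χ : DirichletCharacter ℂ N) : ℍ → ℂ :=
  ((N.totient : ℂ))⁻¹ • ∑ d : (ZMod N)ˣ, (χ (d : ZMod N))⁻¹ • (f ∣[k] diamondLift d)

/-- the unit of `ZMod N` given by the lower right entry of `γ ∈ Γ₀(N)`. -/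
noncomputable def lowerRightUnit {γ : SL(2, ℤ)} (hγ : γ ∈ Gamma0 N) : (ZMod N)ˣ :=
  (isUnit_Gamma0Map (⟨γ, hγ⟩ : Gamma0 N)).unit

omit [NeZero N] in
theorem coe_lowerRightUnit {γ : SL(2, ℤ)} (hγ : γ ∈ Gamma0 N) :
    ((lowerRightUnit hγ : (ZMod N)ˣ) : ZMod N) = ((γ 1 1 : ℤ) : ZMod N) := rfl

omit [NeZero N] in
theorem lower_right_mul {γ γ' : SL(2, ℤ)} (hγ : γ ∈ Gamma0 N) (hγ' : γ' ∈ Gamma0 N) :
    (((γ * γ') 1 1 : ℤ) : ZMod N) = ((γ 1 1 : ℤ) : ZMod N) * ((γ' 1 1 : ℤ) : ZMod N) := by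
  have := map_mul (Gamma0Map N) ⟨γ, hγ⟩ ⟨γ', hγ'⟩
  exact this

theorem nebComp_slash {f : ℍ → ℂ} (hinv : ∀ δ : SL(2, ℤ), δ ∈ Gamma1 N → f ∣[k] δ = f)
    (χ : DirichletCharacter ℂ N) {γ : SL(2, ℤ)} (hγ : γ ∈ Gamma0 N) :
    nebComp k f χ ∣[k] γ = χ ((γ 1 1 : ℤ) : ZMod N) • nebComp k f χ := by
  set e : (ZMod N)ˣ := lowerRightUnit hγ with he
  have hχe : χ ((γ 1 1 : ℤ) : ZMod N) = χ (e : ZMod N) := by rw [he, coe_lowerRightUnit]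
  have hstep : ∀ d : (ZMod N)ˣ, (f ∣[k] diamondLift d) ∣[k] γ = f ∣[k] diamondLift (d * e) := by
    intro d
    rw [← SlashAction.slash_mul]
    refine slash_eq_of_lower_right_eq hinv
      ((Gamma0 N).mul_mem (diamondLift_mem d) hγ) (diamondLift_mem _) ?_
    rw [lower_right_mul (diamondLift_mem d) hγ, diamondLift_lower_right, diamondLift_lower_right,
      Units.val_mul, he, coe_lowerRightUnit]
  unfold nebComp
  rw [SL_smul_slash, SlashAction.sum_slash, smul_comm]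
  congr 1
  have hL : ∑ d : (ZMod N)ˣ, ((χ (d : ZMod N))⁻¹ • (f ∣[k] diamondLift d)) ∣[k] γ =
      ∑ d : (ZMod N)ˣ, (χ (d : ZMod N))⁻¹ • (f ∣[k] diamondLift (d * e)) :=
    Finset.sum_congr rfl fun d _ => by rw [SL_smul_slash, hstep]
  have hR : χ ((γ 1 1 : ℤ) : ZMod N) •
        ∑ d : (ZMod N)ˣ, (χ (d : ZMod N))⁻¹ • (f ∣[k] diamondLift d) =
      ∑ d : (ZMod N)ˣ, (χ (d : ZMod N))⁻¹ • (f ∣[k] diamondLift (d * e)) := by
    rw [Finset.smul_sum, ← Equiv.sum_comp (Equiv.mulRight e)]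
    refine Finset.sum_congr rfl fun d _ => ?_
    rw [Equiv.coe_mulRight, smul_smul]
    congr 1
    have hne : χ (e : ZMod N) ≠ 0 := (IsUnit.map χ e.isUnit).ne_zero
    rw [hχe, Units.val_mul, map_mul, mul_inv, mul_comm (χ (d : ZMod N))⁻¹, ← mul_assoc,
      mul_inv_cancel₀ hne, one_mul]
  rw [hL, hR]

theorem sum_nebComp {f : ℍ → ℂ} (hinv : ∀ δ : SL(2, ℤ), δ ∈ Gamma1 N → f ∣[k] δ = f) :
    ∑ χ : DirichletCharacter ℂ N, nebComp k f χ = f := by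
  classical
  unfold nebComp
  rw [← Finset.smul_sum, Finset.sum_comm]
  have h1 : ∀ d : (ZMod N)ˣ,
      ∑ χ : DirichletCharacter ℂ N, (χ (d : ZMod N))⁻¹ • (f ∣[k] diamondLift d) =
        (if d = 1 then (N.totient : ℂ) else 0) • (f ∣[k] diamondLift d) := by
    intro d
    rw [← Finset.sum_smul]
    congr 1
    have h2 : ∀ χ : DirichletCharacter ℂ N, (χ (d : ZMod N))⁻¹ = χ ((d⁻¹ : (ZMod N)ˣ) : ZMod N) := by
      intro χ
      rw [eq_comm, ← mul_eq_one_iff_eq_inv₀ (IsUnit.map χ d.isUnit).ne_zero, ← map_mul,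
        ← Units.val_mul, inv_mul_cancel, Units.val_one, map_one]
    simp_rw [h2]
    rw [DirichletCharacter.sum_characters_eq]
    by_cases hd : d = 1
    · simp [hd]
    · have : ((d⁻¹ : (ZMod N)ˣ) : ZMod N) ≠ 1 := by
        intro h
        apply hd
        have : (d⁻¹ : (ZMod N)ˣ) = 1 := Units.ext h
        simpa using this
      simp [hd, this]
  simp_rw [h1]
  rw [Finset.sum_eq_single (1 : (ZMod N)ˣ) (fun d _ hd => by simp [hd]) (fun h => absurd (Finset.mem_univ _) h)]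
  simp only [if_true]
  rw [smul_smul, inv_mul_cancel₀, one_smul]
  · refine hinv _ ?_
    rw [mem_Gamma1_iff_Gamma0Map]
    refine ⟨diamondLift_mem 1, ?_⟩
    rw [Gamma0Map_apply, diamondLift_lower_right, Units.val_one]
  · have : 0 < N.totient := Nat.totient_pos.mpr (Nat.pos_of_ne_zero (NeZero.ne N))
    exact_mod_cast this.ne'

/-- **(D), cusp forms**: nebentypus decomposition of a cusp form on `Γ₁(N)`. -/
theorem exists_nebentypus_decomp (N : ℕ) [NeZero N] (k : ℤ) {f : ℍ → ℂ}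
    (hf : IsCF (G1 N) k f) :
    ∃ c : DirichletCharacter ℂ N → ℍ → ℂ, (∀ χ, IsCF (G1 N) k (c χ)) ∧
      (∀ χ, ∀ γ : SL(2, ℤ), γ ∈ Gamma0 N →
        c χ ∣[k] γ = χ ((γ 1 1 : ℤ) : ZMod N) • c χ) ∧
      f = ∑ χ, c χ := by
  have hinv : ∀ δ : SL(2, ℤ), δ ∈ Gamma1 N → f ∣[k] δ = f := fun δ hδ =>
    IsMF.slash_eq_SL hf.isMF hδ
  refine ⟨nebComp k f, fun χ => ?_, fun χ γ hγ => nebComp_slash hinv χ hγ, (sum_nebComp hinv).symm⟩
  unfold nebComp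
  refine IsCF.smul _ (IsCF.sum _ fun d _ => IsCF.smul _ ?_)
  exact isCF_slash_Gamma0 hf (diamondLift_mem d)

/-- **(D), modular forms**. -/
theorem exists_nebentypus_decomp_MF (N : ℕ) [NeZero N] (k : ℤ) {f : ℍ → ℂ}
    (hf : IsMF (G1 N) k f) :
    ∃ c : DirichletCharacter ℂ N → ℍ → ℂ, (∀ χ, IsMF (G1 N) k (c χ)) ∧
      (∀ χ, ∀ γ : SL(2, ℤ), γ ∈ Gamma0 N →
        c χ ∣[k] γ = χ ((γ 1 1 : ℤ) : ZMod N) • c χ) ∧
      f = ∑ χ, c χ := by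
  have hinv : ∀ δ : SL(2, ℤ), δ ∈ Gamma1 N → f ∣[k] δ = f := fun δ hδ =>
    IsMF.slash_eq_SL hf hδ
  refine ⟨nebComp k f, fun χ => ?_, fun χ γ hγ => nebComp_slash hinv χ hγ, (sum_nebComp hinv).symm⟩
  unfold nebComp
  refine IsMF.smul _ (IsMF.sum _ fun d _ => IsMF.smul _ ?_)
  exact isMF_slash_Gamma0 hf (diamondLift_mem d)

end Decomp

/-! ### Upgrade from `Γ₁(N)` to `Γ₀(N)` -/

/-- **upgrade (cusp forms)**: a cusp form on `Γ₁(N)` invariant under `Γ₀(N)` is a cusp form on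
`Γ₀(N)`. -/
theorem isCF_G0_of_invariant [NeZero N] {F : ℍ → ℂ} (hF : IsCF (G1 N) k F)
    (hinv : ∀ γ : SL(2, ℤ), γ ∈ Gamma0 N → F ∣[k] γ = F) : IsCF (G0 N) k F := by
  obtain ⟨F', rfl⟩ := hF
  refine ⟨{ toFun := F'
            slash_action_eq' := ?_
            holo' := F'.holo'
            zero_at_cusps' := fun {c} hc => ?_ }, rfl⟩
  · rintro _ ⟨γ, hγ, rfl⟩
    exact hinv γ hγ
  · have hc' := (Subgroup.IsArithmetic.isCusp_iff_isCusp_SL2Z (G0 N)).mp hc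
    exact F'.zero_at_cusps' ((Subgroup.IsArithmetic.isCusp_iff_isCusp_SL2Z (G1 N)).mpr hc')

/-- **upgrade (modular forms)**. -/
theorem isMF_G0_of_invariant [NeZero N] {F : ℍ → ℂ} (hF : IsMF (G1 N) k F)
    (hinv : ∀ γ : SL(2, ℤ), γ ∈ Gamma0 N → F ∣[k] γ = F) : IsMF (G0 N) k F := by
  obtain ⟨F', rfl⟩ := hF
  refine ⟨{ toFun := F'
            slash_action_eq' := ?_
            holo' := F'.holo'
            bdd_at_cusps' := fun {c} hc => ?_ }, rfl⟩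
  · rintro _ ⟨γ, hγ, rfl⟩
    exact hinv γ hγ
  · have hc' := (Subgroup.IsArithmetic.isCusp_iff_isCusp_SL2Z (G0 N)).mp hc
    exact F'.bdd_at_cusps' ((Subgroup.IsArithmetic.isCusp_iff_isCusp_SL2Z (G1 N)).mpr hc')

end Fermat.Agent.DS.N2
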