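import Fermat.Agent.DS.N2.Gamma1Group
import Mathlib.NumberTheory.DirichletCharacter.Basic

/-!
# S48 (N2): specification of the Eisenstein series with character

`EisSpec N k₀ ψ h` says that `h` is a modular form of weight `k₀` on `Γ₁(N)` with nebentypus `ψ`
(evaluated at the lower right entry) and `q`-expansion `∑_{n ≥ 1} (∑_{d ∣ n} ψ(n/d) d^{k₀-1}) qⁿ`.
`EisStmt` is the existence statement (leaf (E) of the N2 design, for `N > 1`, `k₀ ≥ 3`), consumed in
hypothesis form by the other leaves.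
-/

set_option autoImplicit false

open UpperHalfPlane ModularForm CongruenceSubgroup
open scoped MatrixGroups ModularForm Manifold

namespace Fermat.Agent.DS.N2

open Fermat.Agent.S23

/-- The `n`-th coefficient of the Eisenstein series with character `ψ` of weight `k₀`. -/
noncomputable def eisCoeff {N : ℕ} (k₀ : ℕ) (ψ : DirichletCharacter ℂ N) (n : ℕ) : ℂ :=
  ∑ d ∈ n.divisors, ψ ((n / d : ℕ) : ZMod N) * (d : ℂ) ^ (k₀ - 1)

/-- Specification of the Eisenstein series `h_ψ` of weight `k₀` and nebentypus `ψ` on `Γ₁(N)`. -/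
structure EisSpec (N k₀ : ℕ) (ψ : DirichletCharacter ℂ N) (h : ℍ → ℂ) : Prop where
  isMF : IsMF (G1 N) (k₀ : ℤ) h
  slash : ∀ γ : SL(2, ℤ), γ ∈ Gamma0 N →
    h ∣[(k₀ : ℤ)] γ = ψ (((γ 1 1 : ℤ)) : ZMod N) • h
  qexp : qExpansion 1 h = PowerSeries.mk (eisCoeff k₀ ψ)

/-- Leaf (E): existence of the Eisenstein series with character, for levels `N > 1` and weights
`k₀ ≥ 3`.  (At `N = 1` the statement would be false: `ZMod 1` is the zero ring, so `ψ 0 = 1` and the
`m = 0` row of the lattice sum contributes a constant term.) -/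
def EisStmt : Prop :=
  ∀ (N : ℕ) [NeZero N], 1 < N → ∀ (k₀ : ℕ), 3 ≤ k₀ → ∀ ψ : DirichletCharacter ℂ N,
    ψ (-1) = (-1) ^ k₀ → ∃ h : ℍ → ℂ, EisSpec N k₀ ψ h

variable {N : ℕ} {k₀ : ℕ} {ψ : DirichletCharacter ℂ N}

@[simp] theorem eisCoeff_zero : eisCoeff k₀ ψ 0 = 0 := by simp [eisCoeff]

@[simp] theorem eisCoeff_one : eisCoeff k₀ ψ 1 = 1 := by simp [eisCoeff]

/-- The coefficients lie in the ring generated by the values of `ψ`. -/
theorem eisCoeff_mem_adjoin (n : ℕ) :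
    eisCoeff k₀ ψ n ∈ Algebra.adjoin ℤ (Set.range ψ) := by
  unfold eisCoeff
  refine Subalgebra.sum_mem _ fun d _ => Subalgebra.mul_mem _ (Algebra.subset_adjoin ⟨_, rfl⟩) ?_
  exact Subalgebra.pow_mem _ (natCast_mem _ d) _

/-- Conjugating the coefficients by a ring endomorphism `σ` amounts to replacing `ψ` by `σ ∘ ψ`. -/
theorem map_eisCoeff (σ : ℂ →+* ℂ) (n : ℕ) :
    σ (eisCoeff k₀ ψ n) = eisCoeff k₀ (ψ.ringHomComp σ) n := by
  simp [eisCoeff, map_sum, MulChar.ringHomComp_apply]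

theorem map_mk_eisCoeff (σ : ℂ →+* ℂ) :
    (PowerSeries.mk (eisCoeff k₀ ψ)).map σ = PowerSeries.mk (eisCoeff k₀ (ψ.ringHomComp σ)) := by
  ext n
  simp [map_eisCoeff]

namespace EisSpec

variable {h : ℍ → ℂ}

theorem coeff_zero (hh : EisSpec N k₀ ψ h) : (qExpansion 1 h).coeff 0 = 0 := by
  rw [hh.qexp]; simp

theorem coeff_one (hh : EisSpec N k₀ ψ h) : (qExpansion 1 h).coeff 1 = 1 := by
  rw [hh.qexp]; simp

theorem coeff_mem (hh : EisSpec N k₀ ψ h) (n : ℕ) :
    (qExpansion 1 h).coeff n ∈ Algebra.adjoin ℤ (Set.range ψ) := by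
  rw [hh.qexp]; simpa using eisCoeff_mem_adjoin n

theorem qExpansion_ne_zero (hh : EisSpec N k₀ ψ h) : qExpansion 1 h ≠ 0 := by
  intro h0
  have := hh.coeff_one
  rw [h0] at this
  simp at this

/-- The Eisenstein series for `σ ∘ ψ` has the conjugate `q`-expansion. -/
theorem qexp_conj (hh : EisSpec N k₀ ψ h) (σ : ℂ →+* ℂ) {h' : ℍ → ℂ}
    (hh' : EisSpec N k₀ (ψ.ringHomComp σ) h') :
    qExpansion 1 h' = (qExpansion 1 h).map σ := by
  rw [hh'.qexp, hh.qexp, map_mk_eisCoeff]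

end EisSpec

/-- The parity condition is preserved by conjugation. -/
theorem ringHomComp_neg_one (σ : ℂ →+* ℂ) (hψ : ψ (-1) = (-1) ^ k₀) :
    (ψ.ringHomComp σ) (-1) = (-1) ^ k₀ := by
  rw [MulChar.ringHomComp_apply, hψ]
  simp

end Fermat.Agent.DS.N2
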