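import Fermat.Agent.DS.N0.Nebentypus
import Fermat.Agent.DS.N2.Diamond
import Fermat.Agent.DS.N2.EisSpec
import Fermat.Agent.DS.N2.CoeffFG
import Fermat.Agent.DS.N2.ConjDiv

/-!
# S48 (N2): the coefficients of the weight one form lie in a finitely generated `ℤ`-module

Under the hypotheses of S48 (`f ∈ S₁(Γ₁(N))` normalised, Hecke relations with character `ε` away from
`N`), the form `f` has nebentypus `ε` (N0).  Multiplying by the Eisenstein series `h` of weight `3`
and character `ε⁻¹` gives a cusp form `F = f h` of weight `4` on `Γ₀(N)` with trivial character, whose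
coefficient module is finitely generated (S22 via `coeff_span_fg`).  Since `h = q + …` has
coefficients in the finitely generated ring `ℤ[ε]`, the coefficients of `f = F / h` lie in a
finitely generated `ℤ`-module too.
-/

set_option autoImplicit false

open UpperHalfPlane ModularForm CongruenceSubgroup
open scoped MatrixGroups ModularForm Manifold

namespace Fermat.Agent.DS.N2

open Fermat.Agent.S23

namespace CoeffModule

/-! ### Power series division -/

open PowerSeries in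
/-- If `F = f * h` with `h = q + …` having coefficients in a subalgebra `A`, and the coefficients
of `F` lie in a submodule `Λ`, then the coefficients of `f` lie in `A * Λ`. -/
theorem coeff_mem_mul_of_mul_eq (A : Subalgebra ℤ ℂ) (Λ : Submodule ℤ ℂ) {f h F : PowerSeries ℂ}
    (hF : F = f * h) (h0 : coeff 0 h = 0) (h1 : coeff 1 h = 1) (hA : ∀ n, coeff n h ∈ A)
    (hΛ : ∀ n, coeff n F ∈ Λ) : ∀ n, coeff n f ∈ Subalgebra.toSubmodule A * Λ := by
  -- `h = X * u` with `u` a unit of `A⟦X⟧`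
  let uA : PowerSeries A := PowerSeries.mk fun n => ⟨coeff (n + 1) h, hA (n + 1)⟩
  have huA : IsUnit uA := by
    rw [PowerSeries.isUnit_iff_constantCoeff]
    have : constantCoeff uA = 1 := by
      rw [← PowerSeries.coeff_zero_eq_constantCoeff_apply]
      simp only [uA, PowerSeries.coeff_mk]
      exact Subtype.ext (by simpa using h1)
    rw [this]
    exact isUnit_one
  obtain ⟨⟨u', v', huv, hvu⟩, hu'⟩ := huA
  have hu'' : u' = uA := hu'
  set u : PowerSeries ℂ := uA.map A.val.toRingHom with hu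
  set v : PowerSeries ℂ := v'.map A.val.toRingHom with hv
  have huv' : u * v = 1 := by
    rw [hu, hv, ← map_mul, ← hu'', huv, map_one]
  have hh : h = PowerSeries.X * u := by
    ext n
    rcases n with _ | n
    · simp [h0]
    · rw [PowerSeries.coeff_succ_X_mul]
      simp [hu, uA]
  have hfX : f * PowerSeries.X = F * v := by
    rw [hF, hh]
    calc f * PowerSeries.X = f * PowerSeries.X * (u * v) := by rw [huv', mul_one]
      _ = f * (PowerSeries.X * u) * v := by ring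
  intro n
  have h2 : coeff n f = coeff (n + 1) (F * v) := by
    rw [← hfX, PowerSeries.coeff_succ_mul_X]
  rw [h2, PowerSeries.coeff_mul]
  refine Submodule.sum_mem _ fun ij _ => ?_
  rw [mul_comm (coeff ij.1 F)]
  refine Submodule.mul_mem_mul ?_ (hΛ _)
  have : coeff ij.2 v = ((coeff ij.2 v' : A) : ℂ) := by
    rw [hv, PowerSeries.coeff_map]
    rfl
  rw [this]
  exact (coeff ij.2 v').2

/-- The values of a Dirichlet character generate a finite `ℤ`-algebra. -/
theorem adjoin_range_fg {N : ℕ} [NeZero N] (ψ : DirichletCharacter ℂ N) :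
    (Subalgebra.toSubmodule (Algebra.adjoin ℤ (Set.range ψ))).FG := by
  refine fg_adjoin_of_finite (Set.finite_range _) ?_
  rintro _ ⟨a, rfl⟩
  by_cases ha : IsUnit a
  · obtain ⟨u, rfl⟩ := ha
    obtain ⟨n, hn, hun⟩ := isOfFinOrder_iff_pow_eq_one.mp (isOfFinOrder_of_finite u)
    refine IsIntegral.of_pow hn ?_
    rw [← map_pow, ← Units.val_pow_eq_pow_val, hun]
    simpa using isIntegral_one
  · rw [ψ.map_nonunit ha]
    exact isIntegral_zero

end CoeffModule

section Main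

open CoeffModule ModularFormClass

variable {N : ℕ} [NeZero N] (ε : DirichletCharacter ℂ N) (f : CuspForm (Gamma1 N) 1)

/-- Under the hypotheses of S48 the character `ε` is odd. -/
theorem eps_neg_one (hf₁ : qCoeff f 1 = 1)
    (hT : ∀ p : ℕ, p.Prime → ¬ p ∣ N → ∀ n : ℕ,
        qCoeff f (p * n) + ε (p : ZMod N) * (if p ∣ n then qCoeff f (n / p) else 0) =
          qCoeff f p * qCoeff f n) : ε (-1) = -1 := by
  have hmem : (-1 : SL(2, ℤ)) ∈ Gamma0 N := by
    rw [Gamma0_mem]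
    simp
  have h1 := Fermat.Agent.DS.N0.slash_eq_of_mem_Gamma0 ε f hT hmem
  have h2 : ∀ z : ℍ, ((f : ℍ → ℂ) ∣[(1 : ℤ)] Matrix.SpecialLinearGroup.mapGL ℝ (-1 : SL(2, ℤ))) z
      = - f z := by
    intro z
    have h := ModularForm.SL_slash_apply (f := (f : ℍ → ℂ)) (k := (1 : ℤ)) (-1 : SL(2, ℤ)) z
    have h' : ((f : ℍ → ℂ) ∣[(1 : ℤ)] Matrix.SpecialLinearGroup.mapGL ℝ (-1 : SL(2, ℤ))) z =
        ((f : ℍ → ℂ) ∣[(1 : ℤ)] (-1 : SL(2, ℤ))) z := rfl
    rw [h', h]
    simp [UpperHalfPlane.denom]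
  by_contra hne
  have hzero : ∀ z : ℍ, f z = 0 := by
    intro z
    have h3 := congrFun h1 z
    rw [h2 z] at h3
    simp only [Pi.smul_apply, smul_eq_mul] at h3
    have h4 : (ε (((-1 : SL(2, ℤ)) 1 1 : ℤ) : ZMod N) + 1) * f z = 0 := by
      linear_combination -h3
    have h5 : (((-1 : SL(2, ℤ)) 1 1 : ℤ) : ZMod N) = -1 := by simp
    rw [h5] at h4
    rcases mul_eq_zero.mp h4 with h6 | h6
    · exact absurd (eq_neg_of_add_eq_zero_left h6) hne
    · exact h6
  have hf0 : (f : ℍ → ℂ) = 0 := funext hzero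
  have : qCoeff (f : ℍ → ℂ) 1 = 0 := by
    rw [hf0, qCoeff, qExp_zero]
    simp
  rw [this] at hf₁
  exact zero_ne_one hf₁

/-- **(I2′)**: under the hypotheses of S48 (and the existence of Eisenstein series with
character), all `q`-coefficients of `f` lie in one finitely generated `ℤ`-submodule of `ℂ`. -/
theorem exists_fg_coeff (hE : EisStmt) (hf₁ : qCoeff f 1 = 1)
    (hT : ∀ p : ℕ, p.Prime → ¬ p ∣ N → ∀ n : ℕ,
        qCoeff f (p * n) + ε (p : ZMod N) * (if p ∣ n then qCoeff f (n / p) else 0) =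
          qCoeff f p * qCoeff f n) :
    ∃ Λ : Submodule ℤ ℂ, Λ.FG ∧ ∀ n, qCoeff f n ∈ Λ := by
  have hε : ε (-1) = -1 := eps_neg_one ε f hf₁ hT
  set ψ : DirichletCharacter ℂ N := ε⁻¹ with hψdef
  have hψ : ψ (-1) = (-1) ^ 3 := by
    rw [hψdef, MulChar.inv_apply_eq_inv', hε]
    norm_num
  have hN : 1 < N := by
    rcases Nat.lt_or_ge 1 N with hN | hN
    · exact hN
    · exfalso
      have hN1 : N = 1 := le_antisymm hN (Nat.one_le_iff_ne_zero.2 (NeZero.ne N))
      subst hN1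
      have h1 : ε (-1) = 1 := by
        rw [Subsingleton.elim (-1 : ZMod 1) 1, map_one]
      rw [h1] at hε
      norm_num at hε
  obtain ⟨h, hh⟩ := hE N hN 3 le_rfl ψ hψ
  have hfCF : IsCF (G1 N) 1 (f : ℍ → ℂ) := ⟨f, rfl⟩
  have hF1 : IsCF (G1 N) ((4 : ℕ) : ℤ) ((f : ℍ → ℂ) * h) :=
    hfCF.mul_isMF hh.isMF (by norm_num)
  have hinv : ∀ γ : SL(2, ℤ), γ ∈ Gamma0 N →
      ((f : ℍ → ℂ) * h) ∣[((4 : ℕ) : ℤ)] γ = (f : ℍ → ℂ) * h := by
    intro γ hγ
    have h1 : (f : ℍ → ℂ) ∣[(1 : ℤ)] γ = ε (((γ 1 1 : ℤ)) : ZMod N) • (f : ℍ → ℂ) :=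
      Fermat.Agent.DS.N0.slash_eq_of_mem_Gamma0 ε f hT hγ
    have h2 := hh.slash γ hγ
    have h4 : ((4 : ℕ) : ℤ) = 1 + ((3 : ℕ) : ℤ) := by norm_num
    have hunit : IsUnit (((γ 1 1 : ℤ)) : ZMod N) := isUnit_Gamma0Map (⟨γ, hγ⟩ : Gamma0 N)
    have hne : ε (((γ 1 1 : ℤ)) : ZMod N) ≠ 0 := (hunit.map ε).ne_zero
    rw [h4, ModularForm.mul_slash_SL2, h2, h1, hψdef, MulChar.inv_apply_eq_inv']
    funext z
    simp only [Pi.mul_apply, Pi.smul_apply, smul_eq_mul]
    field_simp
  have hF0 : IsCF (G0 N) ((4 : ℕ) : ℤ) ((f : ℍ → ℂ) * h) := isCF_G0_of_invariant hF1 hinv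
  obtain ⟨F', hF'⟩ := hF0
  have hfg := coeff_span_fg N 4 (by norm_num) F'
  have nf : Nice (f : ℍ → ℂ) := nice_of_isMF (one_mem_strictPeriods_G1 N) hfCF.isMF
  have nh : Nice h := nice_of_isMF (one_mem_strictPeriods_G1 N) hh.isMF
  have hq : qExpansion 1 (F' : ℍ → ℂ) = qExpansion 1 (f : ℍ → ℂ) * qExpansion 1 h := by
    rw [hF', qExp_mul nf nh]
  refine ⟨Subalgebra.toSubmodule (Algebra.adjoin ℤ (Set.range ψ)) *
    Submodule.span ℤ (Set.range fun n : ℕ => qCoeff ⇑F' n), (adjoin_range_fg ψ).mul hfg,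
    fun n => ?_⟩
  exact coeff_mem_mul_of_mul_eq _ _ hq hh.coeff_zero hh.coeff_one hh.coeff_mem
    (fun m => Submodule.subset_span (Set.mem_range_self m)) n

end Main

end Fermat.Agent.DS.N2
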