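import Fermat.Agent.DS.N2.Diamond
import Fermat.Agent.DS.N2.ConjDiv
import Fermat.Agent.DS.N2.EisSpec
import Fermat.Prelude.Def_FLTPrelim_Modularity

/-!
# S48 (N2), leaf (G): conjugates of cusp forms on `Γ₁(N)` via nebentypus components

Given the existence of the Eisenstein series with character at the levels `N > 1` (`ConjNeb.EisAll`,
leaf (E); at `N = 1` nothing is needed since `Γ₁(1) = Γ₀(1)`), every cusp form `f` of weight `k` on
`Γ₁(N)` has, for every ring endomorphism `σ` of `ℂ`, a `σ`-conjugate cusp form on `Γ₁(N)`: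

* `f = ∑_χ f_χ` (nebentypus decomposition, leaf (D));
* `f_χ = 0` unless `χ(-1) = (-1)^k`;
* otherwise `f_χ · h_{χ⁻¹}` is a cusp form of weight `k + k₀` on `Γ₀(N)` (`k₀ ∈ {3, 4}`, `k₀ ≡ k mod 2`),
  so S23 conjugates it; the conjugate of `h_{χ⁻¹}` is `h_{σ ∘ χ⁻¹}`; divide (`cuspForm_conj_div`).
-/

set_option autoImplicit false

open UpperHalfPlane ModularForm ModularFormClass CongruenceSubgroup
open scoped MatrixGroups ModularForm Manifold

namespace Fermat.Agent.DS.N2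

open Fermat.Agent.S23

namespace ConjNeb

/-- Slash by `-1 ∈ SL(2, ℤ)` is multiplication by `(-1)^k`. -/
theorem slash_neg_one_SL (k : ℤ) (f : ℍ → ℂ) :
    f ∣[k] (-1 : SL(2, ℤ)) = ((-1 : ℂ) ^ k) • f := by
  funext τ
  rw [SL_slash_apply]
  have h1 : ((-1 : SL(2, ℤ)) • τ) = τ := by
    simp
  have h2 : denom ((-1 : SL(2, ℤ)) : GL (Fin 2) ℝ) τ = -1 := by
    simp [denom]
  rw [h1]
  simp only [Pi.smul_apply, smul_eq_mul]
  rw [h2]
  rcases Int.even_or_odd k with hk | hk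
  · rw [hk.neg_one_zpow, hk.neg.neg_one_zpow]; ring
  · rw [hk.neg_one_zpow, hk.neg.neg_one_zpow]; ring

theorem neg_one_mem_Gamma0 (N : ℕ) : (-1 : SL(2, ℤ)) ∈ Gamma0 N := by
  rw [Gamma0_mem]
  simp

theorem G1_le_G0 (N : ℕ) : G1 N ≤ G0 N := Subgroup.map_mono (Gamma1_in_Gamma0 N)

/-- A nebentypus component of the wrong parity vanishes. -/
theorem eq_zero_of_parity {N : ℕ} {k : ℤ} {χ : DirichletCharacter ℂ N} {c : ℍ → ℂ}
    (hc : ∀ γ : SL(2, ℤ), γ ∈ Gamma0 N → c ∣[k] γ = χ ((γ 1 1 : ℤ) : ZMod N) • c)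
    (hpar : χ (-1) ≠ (-1) ^ k) : c = 0 := by
  have h := hc (-1) (neg_one_mem_Gamma0 N)
  rw [slash_neg_one_SL] at h
  have h11 : (((-1 : SL(2, ℤ)) 1 1 : ℤ) : ZMod N) = -1 := by simp
  rw [h11] at h
  funext τ
  have hτ := congrFun h τ
  simp only [Pi.smul_apply, smul_eq_mul, Pi.zero_apply] at hτ ⊢
  have : (χ (-1) - (-1) ^ k) * c τ = 0 := by linear_combination -hτ
  rcases mul_eq_zero.1 this with h0 | h0
  · exact absurd (sub_eq_zero.1 h0) hpar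
  · exact h0

/-- The product of a form of nebentypus `χ` and a form of nebentypus `χ⁻¹` is `Γ₀(N)`-invariant. -/
theorem mul_slash_of_nebentypus_inv {N : ℕ} [NeZero N] {k w : ℤ} {χ : DirichletCharacter ℂ N}
    {c B : ℍ → ℂ}
    (hc : ∀ γ : SL(2, ℤ), γ ∈ Gamma0 N → c ∣[k] γ = χ ((γ 1 1 : ℤ) : ZMod N) • c)
    (hB : ∀ γ : SL(2, ℤ), γ ∈ Gamma0 N → B ∣[w] γ = χ⁻¹ ((γ 1 1 : ℤ) : ZMod N) • B)
    (γ : SL(2, ℤ)) (hγ : γ ∈ Gamma0 N) : (c * B) ∣[k + w] γ = c * B := by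
  rw [mul_slash_SL2, hc γ hγ, hB γ hγ]
  have hu : IsUnit (((γ 1 1 : ℤ)) : ZMod N) := by
    rw [← coe_lowerRightUnit hγ]
    exact Units.isUnit _
  have h1 : χ ((γ 1 1 : ℤ) : ZMod N) * χ⁻¹ ((γ 1 1 : ℤ) : ZMod N) = 1 := by
    rw [MulChar.inv_apply_eq_inv', mul_inv_cancel₀]
    exact MulChar.apply_ne_zero_iff.2 hu
  funext τ
  simp only [Pi.mul_apply, Pi.smul_apply, smul_eq_mul]
  linear_combination (c τ * B τ) * h1

/-- Leaf (E) at one level `N`: existence of the Eisenstein series with character of every weight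
`k₀ ≥ 3` and every character of the right parity.  (`EisStmt` is FALSE at `N = 1`, where
`ψ = 1` has `ψ 0 = 1`; so the hypothesis of the main theorems only asks for `EisAt N` when `1 < N`.) -/
def EisAt (N : ℕ) : Prop :=
  ∀ k₀ : ℕ, 3 ≤ k₀ → ∀ ψ : DirichletCharacter ℂ N, ψ (-1) = (-1) ^ k₀ →
    ∃ h : ℍ → ℂ, EisSpec N k₀ ψ h

/-- Leaf (E) at all levels `N > 1`. -/
def EisAll : Prop := ∀ (N : ℕ) [NeZero N], 1 < N → EisAt N

theorem Gamma0_one_le_Gamma1_one : Gamma0 1 ≤ Gamma1 1 := by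
  intro γ _
  rw [Gamma1_mem]
  exact ⟨Subsingleton.elim _ _, Subsingleton.elim _ _, Subsingleton.elim _ _⟩

theorem G1_one_eq_G0_one : G1 1 = G0 1 :=
  le_antisymm (G1_le_G0 1) (Subgroup.map_mono Gamma0_one_le_Gamma1_one)

end ConjNeb

open ConjNeb

/-- **Conjugation of one nebentypus component.** -/
theorem cuspForm_conj_of_nebentypus {N : ℕ} [NeZero N] (hE : EisAt N) (k : ℤ) (σ : ℂ →+* ℂ)
    {χ : DirichletCharacter ℂ N} {c : ℍ → ℂ} (hcCF : IsCF (G1 N) k c)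
    (hc : ∀ γ : SL(2, ℤ), γ ∈ Gamma0 N → c ∣[k] γ = χ ((γ 1 1 : ℤ) : ZMod N) • c) :
    ∃ g : ℍ → ℂ, IsCF (G1 N) k g ∧ qExpansion 1 g = (qExpansion 1 c).map σ := by
  by_cases hpar : χ (-1) = (-1) ^ k
  · set k0 : ℕ := if Even k then 4 else 3 with hk0
    have hk03 : 3 ≤ k0 := by rw [hk0]; split_ifs <;> norm_num
    have hψ : χ⁻¹ (-1) = (-1) ^ k0 := by
      rw [MulChar.inv_apply_eq_inv', hpar, hk0]
      rcases Int.even_or_odd k with h | h
      · rw [if_pos h, h.neg_one_zpow]; norm_num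
      · rw [if_neg (Int.not_even_iff_odd.2 h), h.neg_one_zpow]; norm_num
    obtain ⟨B, hB⟩ := hE k0 hk03 χ⁻¹ hψ
    obtain ⟨D, hD⟩ := hE k0 hk03 (χ⁻¹.ringHomComp σ) (ringHomComp_neg_one σ hψ)
    have hF1 : IsCF (G1 N) (k + k0) (c * B) := hcCF.mul_isMF hB.isMF rfl
    have hF0 : IsCF (G0 N) (k + k0) (c * B) :=
      isCF_G0_of_invariant hF1 (mul_slash_of_nebentypus_inv hc hB.slash)
    obtain ⟨Nm, hNm, hNmq⟩ := cuspForm_conj_unbundled σ hF0
    exact cuspForm_conj_div (one_mem_strictPeriods_G1 N) (G1_le_SL N) σ hcCF hB.isMF hD.isMF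
      (hNm.mono (G1_le_G0 N)).isMF hB.qExpansion_ne_zero (hB.qexp_conj σ hD) hNmq
  · refine ⟨0, IsCF.zero, ?_⟩
    rw [eq_zero_of_parity hc hpar, qExp_zero, map_zero]

/-- Conjugation on `Γ₁(N)` given the Eisenstein series with character at level `N`. -/
theorem cuspForm_conj_G1_of_eisAt {N : ℕ} [NeZero N] (hE : EisAt N) (k : ℤ) (σ : ℂ →+* ℂ)
    {f : ℍ → ℂ} (hf : IsCF (G1 N) k f) :
    ∃ g : ℍ → ℂ, IsCF (G1 N) k g ∧ qExpansion 1 g = (qExpansion 1 f).map σ := by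
  classical
  obtain ⟨c, hcCF, hcslash, hsum⟩ := exists_nebentypus_decomp N k hf
  choose g hgCF hgq using fun χ : DirichletCharacter ℂ N =>
    cuspForm_conj_of_nebentypus hE k σ (hcCF χ) (hcslash χ)
  have hΓ := one_mem_strictPeriods_G1 N
  refine ⟨∑ χ, g χ, IsCF.sum _ fun χ _ => hgCF χ, ?_⟩
  rw [hsum, qExp_sum _ fun χ _ => nice_of_isMF hΓ (hgCF χ).isMF,
    qExp_sum _ fun χ _ => nice_of_isMF hΓ (hcCF χ).isMF, map_sum]
  exact Finset.sum_congr rfl fun χ _ => hgq χ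

/-- Level one: `Γ₁(1) = Γ₀(1)`, so S23 applies directly. -/
theorem cuspForm_conj_G1_level_one (k : ℤ) (σ : ℂ →+* ℂ) {f : ℍ → ℂ} (hf : IsCF (G1 1) k f) :
    ∃ g : ℍ → ℂ, IsCF (G1 1) k g ∧ qExpansion 1 g = (qExpansion 1 f).map σ := by
  rw [G1_one_eq_G0_one] at hf ⊢
  exact cuspForm_conj_unbundled σ hf

/-- **(G), any integer weight**: cusp forms on `Γ₁(N)` are stable under ring endomorphisms of `ℂ`
acting on `q`-expansion coefficients, given the Eisenstein series with character at levels `> 1`. -/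
theorem cuspForm_conj_G1_int (hE : EisAll) (N : ℕ) [NeZero N] (k : ℤ) (σ : ℂ →+* ℂ)
    {f : ℍ → ℂ} (hf : IsCF (G1 N) k f) :
    ∃ g : ℍ → ℂ, IsCF (G1 N) k g ∧ qExpansion 1 g = (qExpansion 1 f).map σ := by
  rcases Nat.lt_or_ge 1 N with hN | hN
  · exact cuspForm_conj_G1_of_eisAt (hE N hN) k σ hf
  · have hN1 : N = 1 := le_antisymm hN (Nat.one_le_iff_ne_zero.2 (NeZero.ne N))
    subst hN1
    exact cuspForm_conj_G1_level_one k σ hf

/-- **(G)** in the shape of the N2 design (helper38, board 3365), with the `N = 1` fix. -/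
theorem cuspForm_conj_G1 (hE : EisAll) (N : ℕ) [NeZero N] (k : ℕ) (_hk : 1 ≤ k) (σ : ℂ →+* ℂ)
    {f : ℍ → ℂ} (hf : IsCF (G1 N) (k : ℤ) f) :
    ∃ g : ℍ → ℂ, IsCF (G1 N) (k : ℤ) g ∧ qExpansion 1 g = (qExpansion 1 f).map σ :=
  cuspForm_conj_G1_int hE N k σ hf

/-- Bundled form, any integer weight. -/
theorem cuspForm_conj_Gamma1_qCoeff (hE : EisAll) (N : ℕ) [NeZero N] (k : ℤ) (σ : ℂ →+* ℂ)
    (f : CuspForm (Gamma1 N) k) :
    ∃ g : CuspForm (Gamma1 N) k, ∀ n, qCoeff g n = σ (qCoeff f n) := by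
  obtain ⟨g, ⟨G, rfl⟩, hg⟩ := cuspForm_conj_G1_int hE N k σ (f := (f : ℍ → ℂ)) ⟨f, rfl⟩
  refine ⟨G, fun n => ?_⟩
  have := congrArg (PowerSeries.coeff n) hg
  simpa [qCoeff] using this

/-- Bundled form in weight one (the case used by S48). -/
theorem cuspForm_conj_Gamma1_one (hE : EisAll) (N : ℕ) [NeZero N] (σ : ℂ →+* ℂ)
    (f : CuspForm (Gamma1 N) 1) :
    ∃ g : CuspForm (Gamma1 N) 1, ∀ n, qCoeff g n = σ (qCoeff f n) :=
  cuspForm_conj_Gamma1_qCoeff hE N 1 σ f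

end Fermat.Agent.DS.N2
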