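/-
GATE-N / S48-(N2)-(PS) PSDIV (helper67; claims key S48-N2-PSDIV): power-series division keeps a
finitely generated coefficient module (helper38's leaf (PS), board 3365).  Mathlib only.

* `coeff_mem_of_mul_eq` : `F = f * h`, `h = q + ⋯` with coefficients in a subring `A`, coefficients
  of `F` in a `ℤ`-submodule `L`  ⟹  every coefficient of `f` lies in the `ℤ`-span of `A · L`
  (`f_n = F_{n+1} - ∑_{i<n} f_i h_{n+1-i}`);
* `span_mul_fg` : `A` f.g. as a `ℤ`-module, `L` f.g. ⟹ that span is f.g.;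
* `adjoin_range_fg` : `ℤ[values of ψ]` is a f.g. `ℤ`-module for a Dirichlet character `ψ`
  (+ the `Subalgebra.toSubmodule` form `adjoin_range_fg'`);
* `exists_fg_coeff_of_mul_eq` : the three together.
-/
import Mathlib

set_option autoImplicit false

namespace Fermat.Agent.DS.N2

open PowerSeries

/-- The `ℤ`-span of the products `a * l`, `a ∈ A`, `l ∈ L`, is the product of submodules. -/
theorem span_mul_eq_mul (A : Subring ℂ) (L : Submodule ℤ ℂ) :
    Submodule.span ℤ {x | ∃ a ∈ A, ∃ l ∈ L, x = a * l} =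
      AddSubgroup.toIntSubmodule A.toAddSubgroup * L := by
  rw [Submodule.mul_eq_span_mul_set]
  congr 1
  ext x
  simp only [Set.mem_ofPred_eq, Set.mem_mul, SetLike.mem_coe]
  constructor
  · rintro ⟨a, ha, l, hl, rfl⟩
    exact ⟨a, ha, l, hl, rfl⟩
  · rintro ⟨a, ha, l, hl, rfl⟩
    exact ⟨a, ha, l, hl, rfl⟩

/-- `L` is contained in the span of `A · L`. -/
theorem le_span_mul (A : Subring ℂ) (L : Submodule ℤ ℂ) :
    L ≤ Submodule.span ℤ {x | ∃ a ∈ A, ∃ l ∈ L, x = a * l} := fun l hl =>
  Submodule.subset_span ⟨1, A.one_mem, l, hl, (one_mul l).symm⟩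

/-- The span of `A · L` is stable under multiplication by `A`. -/
theorem mul_mem_span_mul (A : Subring ℂ) (L : Submodule ℤ ℂ) {s b : ℂ}
    (hs : s ∈ Submodule.span ℤ {x | ∃ a ∈ A, ∃ l ∈ L, x = a * l}) (hb : b ∈ A) :
    s * b ∈ Submodule.span ℤ {x | ∃ a ∈ A, ∃ l ∈ L, x = a * l} := by
  induction hs using Submodule.span_induction with
  | mem x hx =>
    obtain ⟨a, ha, l, hl, rfl⟩ := hx
    exact Submodule.subset_span ⟨a * b, A.mul_mem ha hb, l, hl, by ring⟩
  | zero => rw [zero_mul]; exact Submodule.zero_mem _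
  | add x y _ _ hx hy => rw [add_mul]; exact Submodule.add_mem _ hx hy
  | smul c x _ hx => rw [smul_mul_assoc]; exact Submodule.smul_mem _ c hx

/-- **Power-series division keeps the coefficient module** (leaf (PS) of S48-(N2)): if `F = f * h`
with `h = q + ⋯` having coefficients in a subring `A` and `F` having coefficients in a
`ℤ`-submodule `L`, then the coefficients of `f` lie in the `ℤ`-span of `A · L`. -/
theorem coeff_mem_of_mul_eq (A : Subring ℂ) (L : Submodule ℤ ℂ) {f h F : PowerSeries ℂ}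
    (hF : F = f * h) (h0 : coeff 0 h = 0) (h1 : coeff 1 h = 1) (hA : ∀ n, coeff n h ∈ A)
    (hL : ∀ n, coeff n F ∈ L) :
    ∀ n, coeff n f ∈ Submodule.span ℤ {x | ∃ a ∈ A, ∃ l ∈ L, x = a * l} := by
  intro n
  induction n using Nat.strong_induction_on with
  | _ n ih =>
    have key : coeff (n + 1) F =
        ∑ k ∈ Finset.range n, coeff k f * coeff (n + 1 - k) h + coeff n f := by
      rw [hF, coeff_mul, Finset.Nat.sum_antidiagonal_eq_sum_range_succ_mk, Finset.sum_range_succ,
        Finset.sum_range_succ]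
      simp only [Nat.sub_self, h0, mul_zero, add_zero, Nat.add_sub_cancel_left, h1, mul_one]
    have hfn : coeff n f =
        coeff (n + 1) F - ∑ k ∈ Finset.range n, coeff k f * coeff (n + 1 - k) h := by
      rw [key]; ring
    rw [hfn]
    refine Submodule.sub_mem _ (le_span_mul A L (hL _)) (Submodule.sum_mem _ fun k hk => ?_)
    exact mul_mem_span_mul A L (ih k (Finset.mem_range.1 hk)) (hA _)

/-- If `A` and `L` are finitely generated `ℤ`-modules, so is the `ℤ`-span of `A · L`. -/
theorem span_mul_fg (A : Subring ℂ) (L : Submodule ℤ ℂ)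
    (hA : (AddSubgroup.toIntSubmodule A.toAddSubgroup).FG) (hL : L.FG) :
    (Submodule.span ℤ {x | ∃ a ∈ A, ∃ l ∈ L, x = a * l}).FG := by
  rw [span_mul_eq_mul]
  exact hA.mul hL

/-- The values of a Dirichlet character are integral over `ℤ`. -/
theorem isIntegral_dirichletCharacter {N : ℕ} (ψ : DirichletCharacter ℂ N) (a : ZMod N) :
    IsIntegral ℤ (ψ a) := by
  by_cases ha : IsUnit a
  · obtain ⟨u, rfl⟩ := ha
    have hpos : 0 < orderOf u := orderOf_pos u
    have hpow : ψ (u : ZMod N) ^ orderOf u = 1 := by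
      rw [← map_pow, ← Units.val_pow_eq_pow_val, pow_orderOf_eq_one, Units.val_one, map_one]
    refine ⟨Polynomial.X ^ orderOf u - Polynomial.C 1,
      Polynomial.monic_X_pow_sub_C 1 hpos.ne', ?_⟩
    simp [hpow]
  · rw [MulChar.map_nonunit ψ ha]
    exact isIntegral_zero

/-- The range of a Dirichlet character is finite. -/
theorem finite_range_dirichletCharacter {N : ℕ} (ψ : DirichletCharacter ℂ N) :
    (Set.range ψ).Finite := by
  have h : Set.range ψ ⊆ insert 0 (Set.range fun u : (ZMod N)ˣ => ψ (u : ZMod N)) := by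
    rintro _ ⟨a, rfl⟩
    by_cases ha : IsUnit a
    · obtain ⟨u, rfl⟩ := ha
      exact Set.mem_insert_of_mem _ ⟨u, rfl⟩
    · rw [MulChar.map_nonunit ψ ha]
      exact Set.mem_insert _ _
  exact ((Set.finite_range _).insert 0).subset h

/-- `ℤ[values of ψ]` is a finitely generated `ℤ`-module (`Subalgebra.toSubmodule` form). -/
theorem adjoin_range_fg' {N : ℕ} (ψ : DirichletCharacter ℂ N) :
    (Subalgebra.toSubmodule (Algebra.adjoin ℤ (Set.range ψ))).FG :=
  fg_adjoin_of_finite (finite_range_dirichletCharacter ψ) (by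
    rintro _ ⟨a, rfl⟩
    exact isIntegral_dirichletCharacter ψ a)

/-- `ℤ[values of ψ]` is a finitely generated `ℤ`-module (subring form, as consumed by
`span_mul_fg`). -/
theorem adjoin_range_fg {N : ℕ} (ψ : DirichletCharacter ℂ N) :
    (AddSubgroup.toIntSubmodule
      (Algebra.adjoin ℤ (Set.range ψ)).toSubring.toAddSubgroup).FG := by
  have h : AddSubgroup.toIntSubmodule (Algebra.adjoin ℤ (Set.range ψ)).toSubring.toAddSubgroup =
      Subalgebra.toSubmodule (Algebra.adjoin ℤ (Set.range ψ)) := by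
    ext x
    rfl
  rw [h]
  exact adjoin_range_fg' ψ

/-- **(PS) packaged**: `F = f * h`, `h = q + ⋯` with coefficients in `ℤ[values of ψ]`, coefficients
of `F` in a finitely generated `ℤ`-module `L` ⟹ the coefficients of `f` lie in ONE finitely
generated `ℤ`-submodule of `ℂ`. -/
theorem exists_fg_coeff_of_mul_eq {N : ℕ} (ψ : DirichletCharacter ℂ N) (L : Submodule ℤ ℂ)
    (hLfg : L.FG) {f h F : PowerSeries ℂ} (hF : F = f * h) (h0 : coeff 0 h = 0)
    (h1 : coeff 1 h = 1) (hA : ∀ n, coeff n h ∈ Algebra.adjoin ℤ (Set.range ψ))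
    (hL : ∀ n, coeff n F ∈ L) :
    ∃ L' : Submodule ℤ ℂ, L'.FG ∧ L ≤ L' ∧ ∀ n, coeff n f ∈ L' :=
  ⟨_, span_mul_fg (Algebra.adjoin ℤ (Set.range ψ)).toSubring L (adjoin_range_fg ψ) hLfg,
    le_span_mul _ L,
    coeff_mem_of_mul_eq (Algebra.adjoin ℤ (Set.range ψ)).toSubring L hF h0 h1 hA hL⟩

end Fermat.Agent.DS.N2
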