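/-
GATE-N / S48-(N2) INTEGRAL-OF-FG (helper67; claims key S48-N2-INTFG-HEDGE): the last step of
`GateInt` (helper38 board 3349, item 3 (a)(b)).  Mathlib + Prelude (`qCoeff`) + `DS/N2/PSDiv`.

Data of the frozen S48: `a n := qCoeff f n`, `a 1 = 1`,
`a (p n) + ε(p) [p ∣ n] a (n / p) = a p * a n` for the primes `p ∤ N`.  If all `a n` lie in ONE
finitely generated `ℤ`-submodule of `ℂ`, then

* (a) `isIntegral_qCoeff_of_fg` : every `a p` (`p ∤ N` prime) is integral over `ℤ`;
* (b) `finite_eigensystems_of_fg` : only finitely many systems `(σ (a p))_p`, `σ : ℂ →+* ℂ`.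

Proof: `M := ℤ[ε]`-span of the `a n` is a f.g. `ℤ`-module containing `1` and stable under
multiplication by the `a p`; so `ℤ[a p : p ∤ N] ⊆ M` is a f.g. `ℤ`-module, its elements are
integral, and a ring hom is determined on it by the images of finitely many module generators, each
a root of a fixed monic integer polynomial.
-/
import Mathlib
import Fermat.Prelude.Def_FLTPrelim_Modularity
import Fermat.Agent.DS.N2.PSDiv

set_option autoImplicit false
set_option linter.unusedSectionVars false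

namespace Fermat.Agent.DS.N2

open CongruenceSubgroup

section Abstract

variable {N : ℕ} (ε : DirichletCharacter ℂ N) (a : ℕ → ℂ)

/-- the `ℤ[ε]`-span of the coefficients -/
def coeffModule : Submodule ℤ ℂ :=
  Submodule.span ℤ {x | ∃ e ∈ (Algebra.adjoin ℤ (Set.range ε)).toSubring,
    ∃ l ∈ Submodule.span ℤ (Set.range a), x = e * l}

theorem coeffModule_fg (hfg : ∃ L : Submodule ℤ ℂ, L.FG ∧ ∀ n, a n ∈ L) :
    (coeffModule ε a).FG := by
  obtain ⟨L, hL, hmem⟩ := hfg
  refine span_mul_fg _ _ (adjoin_range_fg ε) (hL.of_le ?_)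
  rw [Submodule.span_le]
  rintro _ ⟨n, rfl⟩
  exact hmem n

theorem coeff_mem_coeffModule (n : ℕ) : a n ∈ coeffModule ε a :=
  le_span_mul _ _ (Submodule.subset_span ⟨n, rfl⟩)

theorem one_mem_coeffModule (h1 : a 1 = 1) : (1 : ℂ) ∈ coeffModule ε a := by
  rw [← h1]
  exact coeff_mem_coeffModule ε a 1

variable (hT : ∀ p : ℕ, p.Prime → ¬ p ∣ N → ∀ n : ℕ,
  a (p * n) + ε (p : ZMod N) * (if p ∣ n then a (n / p) else 0) = a p * a n)

include hT in
/-- `M` is stable under multiplication by `a p`. -/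
theorem mul_mem_coeffModule {p : ℕ} (hp : p.Prime) (hpN : ¬ p ∣ N) {m : ℂ}
    (hm : m ∈ coeffModule ε a) : a p * m ∈ coeffModule ε a := by
  have hε : ε (p : ZMod N) ∈ (Algebra.adjoin ℤ (Set.range ε)).toSubring :=
    Algebra.subset_adjoin ⟨_, rfl⟩
  -- first on the span of the coefficients
  have h1 : ∀ l ∈ Submodule.span ℤ (Set.range a), a p * l ∈ coeffModule ε a := by
    intro l hl
    induction hl using Submodule.span_induction with
    | mem x hx =>
      obtain ⟨n, rfl⟩ := hx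
      rw [← hT p hp hpN n]
      refine Submodule.add_mem _ (coeff_mem_coeffModule ε a _) ?_
      split_ifs
      · exact Submodule.subset_span ⟨_, hε, _, Submodule.subset_span ⟨n / p, rfl⟩, rfl⟩
      · rw [mul_zero]; exact Submodule.zero_mem _
    | zero => rw [mul_zero]; exact Submodule.zero_mem _
    | add x y _ _ hx hy => rw [mul_add]; exact Submodule.add_mem _ hx hy
    | smul c x _ hx => rw [mul_smul_comm]; exact Submodule.smul_mem _ c hx
  unfold coeffModule at hm
  induction hm using Submodule.span_induction with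
  | mem x hx =>
    obtain ⟨e, he, l, hl, rfl⟩ := hx
    have := mul_mem_span_mul _ _ (h1 l hl) he
    have e' : a p * (e * l) = a p * l * e := by ring
    rw [e']
    exact this
  | zero => rw [mul_zero]; exact Submodule.zero_mem _
  | add x y _ _ hx hy => rw [mul_add]; exact Submodule.add_mem _ hx hy
  | smul c x _ hx => rw [mul_smul_comm]; exact Submodule.smul_mem _ c hx

include hT in
/-- **(a), abstract form** -/
theorem isIntegral_of_fg (h1 : a 1 = 1) (hfg : ∃ L : Submodule ℤ ℂ, L.FG ∧ ∀ n, a n ∈ L)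
    {p : ℕ} (hp : p.Prime) (hpN : ¬ p ∣ N) : IsIntegral ℤ (a p) := by
  refine isIntegral_of_smul_mem_submodule (coeffModule ε a) ?_ (coeffModule_fg ε a hfg) (a p)
    (fun m hm => mul_mem_coeffModule ε a hT hp hpN hm)
  intro h
  have := one_mem_coeffModule ε a h1
  rw [h, Submodule.mem_bot] at this
  exact one_ne_zero this

/-- the ring `ℤ[a p : p ∤ N prime]` -/
def coeffRing (N : ℕ) (a : ℕ → ℂ) : Subalgebra ℤ ℂ :=
  Algebra.adjoin ℤ {x | ∃ p : ℕ, p.Prime ∧ ¬ p ∣ N ∧ x = a p}

include hT in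
theorem coeffRing_le (h1 : a 1 = 1) :
    Subalgebra.toSubmodule (coeffRing N a) ≤ coeffModule ε a := by
  have key : ∀ x ∈ coeffRing N a, ∀ m ∈ coeffModule ε a, x * m ∈ coeffModule ε a := by
    intro x hx
    unfold coeffRing at hx
    induction hx using Algebra.adjoin_induction with
    | mem x hx =>
      obtain ⟨p, hp, hpN, rfl⟩ := hx
      exact fun m hm => mul_mem_coeffModule ε a hT hp hpN hm
    | algebraMap r =>
      intro m hm
      have : (algebraMap ℤ ℂ r) * m = r • m := by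
        rw [Algebra.smul_def]
      rw [this]
      exact Submodule.smul_mem _ r hm
    | add x y _ _ hx hy =>
      intro m hm
      rw [add_mul]
      exact Submodule.add_mem _ (hx m hm) (hy m hm)
    | mul x y _ _ hx hy =>
      intro m hm
      rw [mul_assoc]
      exact hx _ (hy m hm)
  intro x hx
  have := key x hx 1 (one_mem_coeffModule ε a h1)
  rwa [mul_one] at this

include hT in
theorem coeffRing_fg (h1 : a 1 = 1) (hfg : ∃ L : Submodule ℤ ℂ, L.FG ∧ ∀ n, a n ∈ L) :
    (Subalgebra.toSubmodule (coeffRing N a)).FG :=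
  (coeffModule_fg ε a hfg).of_le (coeffRing_le ε a hT h1)

include hT in
/-- **(b), abstract form**: finitely many conjugate eigensystems. -/
theorem finite_eigensystems_abs (h1 : a 1 = 1)
    (hfg : ∃ L : Submodule ℤ ℂ, L.FG ∧ ∀ n, a n ∈ L) :
    {b : ℕ → ℂ | ∃ σ : ℂ →+* ℂ, (∀ p : ℕ, p.Prime → ¬ p ∣ N → b p = σ (a p)) ∧
      (∀ p : ℕ, ¬ (p.Prime ∧ ¬ p ∣ N) → b p = 0)}.Finite := by
  classical
  have hR := coeffRing_fg ε a hT h1 hfg
  obtain ⟨s, hs⟩ := hR
  -- every generator is integral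
  have hint : ∀ x ∈ s, IsIntegral ℤ x := fun x hx =>
    IsIntegral.of_mem_of_fg (coeffRing N a) ⟨s, hs⟩ x
      (by
        have : x ∈ Submodule.span ℤ (s : Set ℂ) := Submodule.subset_span hx
        rw [hs] at this
        exact this)
  -- the finite set of candidate images of the generators
  let T : Set (s → ℂ) := Set.pi Set.univ fun x => (minpoly ℤ (x : ℂ)).rootSet ℂ
  have hTfin : T.Finite := Set.Finite.pi fun x => Polynomial.rootSet_finite _ _
  -- coordinates of `a p` on the generators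
  have hcoord : ∀ p : ℕ, p.Prime → ¬ p ∣ N → ∃ c : s → ℤ, a p = ∑ x : s, c x • (x : ℂ) := by
    intro p hp hpN
    have hmem : a p ∈ Submodule.span ℤ (s : Set ℂ) := by
      rw [hs]
      exact Algebra.subset_adjoin ⟨p, hp, hpN, rfl⟩
    rw [Submodule.mem_span_finset'] at hmem
    obtain ⟨c, hc⟩ := hmem
    exact ⟨c, hc.symm⟩
  let c : ℕ → s → ℤ := fun p =>
    if h : p.Prime ∧ ¬ p ∣ N then (hcoord p h.1 h.2).choose else 0
  have hc : ∀ p : ℕ, p.Prime → ¬ p ∣ N → a p = ∑ x : s, c p x • (x : ℂ) := by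
    intro p hp hpN
    have : c p = (hcoord p hp hpN).choose := dif_pos ⟨hp, hpN⟩
    rw [this]
    exact (hcoord p hp hpN).choose_spec
  let g : (s → ℂ) → ℕ → ℂ := fun v p =>
    if p.Prime ∧ ¬ p ∣ N then ∑ x : s, c p x • v x else 0
  refine (hTfin.image g).subset ?_
  rintro b ⟨σ, hb1, hb2⟩
  refine ⟨fun x => σ (x : ℂ), ?_, ?_⟩
  · intro x _
    have hx := hint x x.2
    rw [Polynomial.mem_rootSet]
    refine ⟨minpoly.ne_zero hx, ?_⟩
    have h0 : Polynomial.aeval (x : ℂ) (minpoly ℤ (x : ℂ)) = 0 := minpoly.aeval ℤ _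
    have := Polynomial.aeval_algHom_apply σ.toIntAlgHom (x : ℂ) (minpoly ℤ (x : ℂ))
    rw [h0, map_zero] at this
    exact this
  · funext p
    by_cases hp : p.Prime ∧ ¬ p ∣ N
    · simp only [g, if_pos hp]
      rw [hb1 p hp.1 hp.2, hc p hp.1 hp.2, map_sum]
      refine Finset.sum_congr rfl fun x _ => ?_
      rw [zsmul_eq_mul, zsmul_eq_mul, map_mul, map_intCast]
    · simp only [g, if_neg hp]
      exact (hb2 p hp).symm

end Abstract

section Frozen

open ModularFormClass

variable (N : ℕ) [NeZero N] (ε : DirichletCharacter ℂ N) (f : CuspForm (Gamma1 N) 1)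
  (hf₁ : qCoeff f 1 = 1)
  (hT : ∀ p : ℕ, p.Prime → ¬ p ∣ N → ∀ n : ℕ,
    qCoeff f (p * n) + ε (p : ZMod N) * (if p ∣ n then qCoeff f (n / p) else 0) =
      qCoeff f p * qCoeff f n)
  (hfg : ∃ L : Submodule ℤ ℂ, L.FG ∧ ∀ n, qCoeff f n ∈ L)

include hf₁ hT hfg in
/-- **(a)** of helper38 3349 item 3: integrality of the `a_p`, `p ∤ N`, from ONE finitely
generated `ℤ`-module containing all coefficients (frozen-S48 binders). -/
theorem isIntegral_qCoeff_of_fg :
    ∀ p : ℕ, p.Prime → ¬ p ∣ N → IsIntegral ℤ (qCoeff f p) :=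
  fun _ hp hpN => isIntegral_of_fg ε (fun n => qCoeff f n) hT hf₁ hfg hp hpN

include hf₁ hT hfg in
/-- **(b)** of helper38 3349 item 3: finitely many conjugate eigensystems. -/
theorem finite_eigensystems_of_fg :
    {a : ℕ → ℂ | ∃ σ : ℂ →+* ℂ, (∀ p : ℕ, p.Prime → ¬ p ∣ N → a p = σ (qCoeff f p)) ∧
      (∀ p : ℕ, ¬ (p.Prime ∧ ¬ p ∣ N) → a p = 0)}.Finite :=
  finite_eigensystems_abs ε (fun n => qCoeff f n) hT hf₁ hfg

end Frozen

end Fermat.Agent.DS.N2
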