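import Fermat.Agent.DS.N1.CoeffBound
import Fermat.Agent.DS.N2.CoeffModule
import Fermat.Agent.DS.N2.ConjNeb
import Fermat.Agent.DS.N2.IntegralFG
import Fermat.Agent.DS.N2.BddOrbit

/-!
# S48 (N2): the gates `GateInt` and `GateSparse`

Under the hypotheses of S48 (`f ∈ S₁(Γ₁(N))` normalised, Hecke relations with character `ε` away from
`N`) and the existence of the Eisenstein series with character (`EisStmt`, leaf (E)):

* `gate_int` : every `a_p` (`p ∤ N`) is an algebraic integer;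
* `gate_int_field` : all `a_p` and `ε(p)` lie in one number field `E ⊆ ℂ`;
* `gate_sparse` : for every `eta > 0` there are a finite set `Y ⊆ ℂ` and a set `X` of primes of upper
  logarithmic density `≤ eta` such that `a_p ∈ Y` for all primes `p ∤ N` outside `X`.
-/

set_option autoImplicit false

open UpperHalfPlane ModularForm CongruenceSubgroup ModularFormClass
open scoped MatrixGroups ModularForm Manifold

namespace Fermat.Agent.DS.N2

section Gates

variable {N : ℕ} [NeZero N] (ε : DirichletCharacter ℂ N) (f : CuspForm (Gamma1 N) 1)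
  (hE : EisStmt) (hf₁ : qCoeff f 1 = 1)
  (hT : ∀ p : ℕ, p.Prime → ¬ p ∣ N → ∀ n : ℕ,
    qCoeff f (p * n) + ε (p : ZMod N) * (if p ∣ n then qCoeff f (n / p) else 0) =
      qCoeff f p * qCoeff f n)

include hE hf₁ hT in
/-- **GateInt**: the Hecke eigenvalues `a_p`, `p ∤ N`, are algebraic integers. -/
theorem gate_int : ∀ p : ℕ, p.Prime → ¬ p ∣ N → IsIntegral ℤ (qCoeff f p) :=
  isIntegral_qCoeff_of_fg N ε f hf₁ hT (exists_fg_coeff ε f hE hf₁ hT)

include hE hf₁ hT in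
/-- **GateInt, number field form**: all `a_p` and `ε(p)` (`p ∤ N`) lie in one subfield `E ⊆ ℂ` of
finite degree over `ℚ`. -/
theorem gate_int_field : ∃ E : IntermediateField ℚ ℂ, FiniteDimensional ℚ E ∧
    ∀ p : ℕ, p.Prime → ¬ p ∣ N → qCoeff f p ∈ E ∧ ε (p : ZMod N) ∈ E := by
  classical
  have hfg := exists_fg_coeff ε f hE hf₁ hT
  have hR := coeffRing_fg ε (fun n => qCoeff f n) hT hf₁ hfg
  obtain ⟨S, hS⟩ := hR
  have hSint : ∀ x ∈ S, IsIntegral ℤ x := fun x hx =>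
    IsIntegral.of_mem_of_fg (coeffRing N fun n => qCoeff f n) ⟨S, hS⟩ x (by
      have : x ∈ Submodule.span ℤ (S : Set ℂ) := Submodule.subset_span hx
      rw [hS] at this
      exact this)
  set S' : Set ℂ := (S : Set ℂ) ∪ Set.range ε with hS'
  have hfinS' : S'.Finite := S.finite_toSet.union (finite_range_dirichletCharacter ε)
  have hint : ∀ x ∈ S', IsIntegral ℚ x := by
    rintro x (hx | ⟨a, rfl⟩)
    · exact (hSint x hx).tower_top
    · exact (isIntegral_dirichletCharacter ε a).tower_top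
  have : Finite S' := hfinS'.to_subtype
  refine ⟨IntermediateField.adjoin ℚ S', IntermediateField.finiteDimensional_adjoin hint,
    fun p hp hpN => ⟨?_, IntermediateField.subset_adjoin ℚ S' (Or.inr ⟨_, rfl⟩)⟩⟩
  have hmem : qCoeff f p ∈ Submodule.span ℤ (S : Set ℂ) := by
    rw [hS]
    exact Algebra.subset_adjoin ⟨p, hp, hpN, rfl⟩
  have hall : ∀ z ∈ Submodule.span ℤ (S : Set ℂ), z ∈ IntermediateField.adjoin ℚ S' := by
    intro z hz
    induction hz using Submodule.span_induction with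
    | mem x hx => exact IntermediateField.subset_adjoin ℚ S' (Or.inl hx)
    | zero => exact zero_mem _
    | add x y _ _ hx hy => exact add_mem hx hy
    | smul c x _ hx =>
      rw [zsmul_eq_mul]
      exact mul_mem (intCast_mem _ c) hx
  exact hall _ hmem

/-- The set of conjugate eigensystems. -/
def eigSet : Set (ℕ → ℂ) :=
  {b : ℕ → ℂ | ∃ σ : ℂ →+* ℂ, (∀ p : ℕ, p.Prime → ¬ p ∣ N → b p = σ (qCoeff f p)) ∧
      (∀ p : ℕ, ¬ (p.Prime ∧ ¬ p ∣ N) → b p = 0)}

include hE hf₁ hT in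
theorem eigSet_finite : (eigSet f).Finite :=
  finite_eigensystems_of_fg N ε f hf₁ hT (exists_fg_coeff ε f hE hf₁ hT)

include hE hf₁ hT in
/-- N1(i) for the conjugate form attached to a conjugate eigensystem. -/
theorem eigSet_large_le {b : ℕ → ℂ} (hb : b ∈ eigSet f) :
    ∃ C : ℝ, 1 ≤ C ∧ ∀ s : ℝ, 1 < s → ∀ M : ℝ, 0 < M → ∀ T : Finset ℕ,
      (∀ p ∈ T, p.Prime ∧ ¬ p ∣ N ∧ M ≤ ‖b p‖ ^ 2 ∧ M ≤ (p : ℝ)) →
      M / 2 * ∑ p ∈ T, 1 / (p : ℝ) ^ s ≤ Real.log (C * (1 / (s - 1) + 1)) := by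
  obtain ⟨σ, hb1, -⟩ := hb
  obtain ⟨g, hg⟩ := cuspForm_conj_Gamma1_one hE N σ f
  have hg₁ : qCoeff g 1 = 1 := by rw [hg, hf₁, map_one]
  have hTg : ∀ p : ℕ, p.Prime → ¬ p ∣ N → ∀ n : ℕ,
      qCoeff g (p * n) + (ε.ringHomComp σ) (p : ZMod N) *
        (if p ∣ n then qCoeff g (n / p) else 0) = qCoeff g p * qCoeff g n := by
    intro p hp hpN n
    have h := congrArg σ (hT p hp hpN n)
    rw [map_add, map_mul, map_mul, apply_ite σ, map_zero] at h
    rw [hg, hg, hg, hg, MulChar.ringHomComp_apply]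
    exact h
  obtain ⟨C, hC1, hC⟩ := Fermat.Agent.DS.N1.weightOne_sum_primes_large_le N (ε.ringHomComp σ) g
    hg₁ hTg
  refine ⟨C, hC1, fun s hs M hM T hTp => hC s hs M hM T fun p hp => ?_⟩
  obtain ⟨h1, h2, h3, h4⟩ := hTp p hp
  refine ⟨h1, h2, ?_, h4⟩
  rw [hg, ← hb1 p h1 h2]
  exact h3

omit [NeZero N] in
/-- The identity eigensystem. -/
theorem self_mem_eigSet :
    (fun p : ℕ => if p.Prime ∧ ¬ p ∣ N then qCoeff f p else 0) ∈ eigSet f := by
  refine ⟨RingHom.id ℂ, fun p hp hpN => ?_, fun p hp => ?_⟩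
  · simp [hp, hpN]
  · simp only [if_neg hp]

omit [NeZero N] in
/-- Conjugate eigensystems are permuted by automorphisms of `ℂ`. -/
theorem conj_mem_eigSet {b : ℕ → ℂ} (hb : b ∈ eigSet f) (τ : ℂ ≃+* ℂ) :
    (fun p : ℕ => if p.Prime ∧ ¬ p ∣ N then τ (b p) else 0) ∈ eigSet f := by
  obtain ⟨σ, hb1, -⟩ := hb
  refine ⟨(τ : ℂ →+* ℂ).comp σ, fun p hp hpN => ?_, fun p hp => ?_⟩
  · simp [hp, hpN, hb1 p hp hpN]
  · simp only [if_neg hp]

include hE hf₁ hT in
/-- **GateSparse**: for every `eta > 0` there are a finite set `Y ⊆ ℂ` and a set `X` of natural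
numbers whose primes have upper logarithmic density `≤ eta` (finite-sum form: every finite set `T` of
primes in `X` has `∑_{p ∈ T} p^{-s} ≤ eta log (C (1/(s-1) + 1)) + C'`), such that `a_p ∈ Y` for all
primes `p ∤ N` outside `X`. -/
theorem gate_sparse (eta : ℝ) (heta : 0 < eta) :
    ∃ (Y : Finset ℂ) (X : Set ℕ),
      (∃ C : ℝ, 1 ≤ C ∧ ∃ C' : ℝ, ∀ s : ℝ, 1 < s → ∀ T : Finset ℕ,
        (∀ p ∈ T, p.Prime ∧ p ∈ X) →
          ∑ p ∈ T, 1 / (p : ℝ) ^ s ≤ eta * Real.log (C * (1 / (s - 1) + 1)) + C') ∧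
      ∀ p : ℕ, p.Prime → ¬ p ∣ N → p ∉ X → qCoeff f p ∈ Y := by
  classical
  have hfin : (eigSet f).Finite := eigSet_finite ε f hE hf₁ hT
  set E : Finset (ℕ → ℂ) := hfin.toFinset with hEdef
  have hEmem : ∀ b, b ∈ E ↔ b ∈ eigSet f := fun b => hfin.mem_toFinset
  have hEne : E.Nonempty := ⟨_, (hEmem _).2 (self_mem_eigSet f)⟩
  set r : ℕ := E.card with hr
  have hrpos : 0 < r := Finset.card_pos.2 hEne
  have hrR : (0 : ℝ) < r := by exact_mod_cast hrpos
  set M : ℝ := 2 * r / eta with hM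
  have hMpos : 0 < M := by positivity
  -- the constants from N1(i)
  have hex : ∀ b : E, ∃ C : ℝ, 1 ≤ C ∧ ∀ s : ℝ, 1 < s → ∀ M : ℝ, 0 < M → ∀ T : Finset ℕ,
      (∀ p ∈ T, p.Prime ∧ ¬ p ∣ N ∧ M ≤ ‖(b : ℕ → ℂ) p‖ ^ 2 ∧ M ≤ (p : ℝ)) →
      M / 2 * ∑ p ∈ T, 1 / (p : ℝ) ^ s ≤ Real.log (C * (1 / (s - 1) + 1)) := fun b =>
    eigSet_large_le ε f hE hf₁ hT ((hEmem _).1 b.2)
  choose Cb hCb1 hCb using hex
  set C : ℝ := ∑ b : E, Cb b with hC
  have hCle : ∀ b : E, Cb b ≤ C := fun b =>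
    Finset.single_le_sum (f := fun b : E => Cb b) (fun b _ => le_trans zero_le_one (hCb1 b))
      (Finset.mem_univ b)
  have hC1 : 1 ≤ C := by
    obtain ⟨b0, hb0⟩ := hEne
    exact le_trans (hCb1 ⟨b0, hb0⟩) (hCle ⟨b0, hb0⟩)
  set X : Set ℕ := {p : ℕ | (p : ℝ) < M ∨ ∃ b ∈ E, M ≤ ‖b p‖ ^ 2} with hX
  set Y : Finset ℂ := (finite_bdd_orbit r (Real.sqrt M)).toFinset with hY
  refine ⟨Y, X, ⟨C, hC1, M + 1, fun s hs T hTX => ?_⟩, fun p hp hpN hpX => ?_⟩
  · -- the density bound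
    set L : ℝ := Real.log (C * (1 / (s - 1) + 1)) with hL
    have hs1 : 0 < 1 / (s - 1) := by
      have : 0 < s - 1 := by linarith
      positivity
    have hpos : ∀ c : ℝ, 1 ≤ c → 0 < c * (1 / (s - 1) + 1) := fun c hc => by
      have : 0 < c := lt_of_lt_of_le zero_lt_one hc
      positivity
    have hg0 : ∀ p : ℕ, 0 ≤ 1 / (p : ℝ) ^ s := fun p => by positivity
    set T0 : Finset ℕ := T.filter fun p => (p : ℝ) < M with hT0
    set Tb : E → Finset ℕ := fun b => T.filter fun p => M ≤ (p : ℝ) ∧ M ≤ ‖(b : ℕ → ℂ) p‖ ^ 2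
      with hTb
    -- pointwise domination
    have hpt : ∀ p ∈ T, 1 / (p : ℝ) ^ s ≤
        (if (p : ℝ) < M then 1 / (p : ℝ) ^ s else 0) +
          ∑ b : E, (if M ≤ (p : ℝ) ∧ M ≤ ‖(b : ℕ → ℂ) p‖ ^ 2 then 1 / (p : ℝ) ^ s else 0) := by
      intro p hpT
      have hnn : 0 ≤ ∑ b : E,
          (if M ≤ (p : ℝ) ∧ M ≤ ‖(b : ℕ → ℂ) p‖ ^ 2 then 1 / (p : ℝ) ^ s else 0) :=
        Finset.sum_nonneg fun b _ => by split_ifs <;> [exact hg0 p; exact le_rfl]
      by_cases hpM : (p : ℝ) < M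
      · rw [if_pos hpM]
        linarith
      · rw [if_neg hpM, zero_add]
        rcases (hTX p hpT).2 with h | ⟨b, hbE, hb⟩
        · exact absurd h hpM
        · have hterm : (if M ≤ (p : ℝ) ∧ M ≤ ‖((⟨b, hbE⟩ : E) : ℕ → ℂ) p‖ ^ 2
              then 1 / (p : ℝ) ^ s else 0) = 1 / (p : ℝ) ^ s := if_pos ⟨not_lt.1 hpM, hb⟩
          refine le_trans (le_of_eq hterm.symm) ?_
          exact Finset.single_le_sum
            (f := fun b : E => if M ≤ (p : ℝ) ∧ M ≤ ‖(b : ℕ → ℂ) p‖ ^ 2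
              then 1 / (p : ℝ) ^ s else 0)
            (fun b _ => by split_ifs <;> [exact hg0 p; exact le_rfl]) (Finset.mem_univ _)
    have h1 : ∑ p ∈ T, 1 / (p : ℝ) ^ s ≤
        ∑ p ∈ T0, 1 / (p : ℝ) ^ s + ∑ b : E, ∑ p ∈ Tb b, 1 / (p : ℝ) ^ s := by
      refine (Finset.sum_le_sum hpt).trans (le_of_eq ?_)
      rw [Finset.sum_add_distrib, Finset.sum_comm, hT0, Finset.sum_filter]
      congr 1
      refine Finset.sum_congr rfl fun b _ => ?_
      rw [hTb, Finset.sum_filter]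
    -- small primes
    have h2 : ∑ p ∈ T0, 1 / (p : ℝ) ^ s ≤ M + 1 := by
      have hsub : T0 ⊆ Finset.range ⌈M⌉₊ := by
        intro p hp
        rw [hT0, Finset.mem_filter] at hp
        rw [Finset.mem_range]
        exact Nat.lt_ceil.2 hp.2
      have hle1 : ∀ p ∈ T0, 1 / (p : ℝ) ^ s ≤ 1 := by
        intro p hp
        rw [hT0, Finset.mem_filter] at hp
        have hp1 : (1 : ℝ) ≤ p := by exact_mod_cast (hTX p hp.1).1.one_lt.le
        have : (1 : ℝ) ≤ (p : ℝ) ^ s := Real.one_le_rpow hp1 (by linarith)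
        rw [div_le_one (by positivity)]
        exact this
      calc ∑ p ∈ T0, 1 / (p : ℝ) ^ s ≤ ∑ _p ∈ T0, (1 : ℝ) := Finset.sum_le_sum hle1
        _ = T0.card := by simp
        _ ≤ ⌈M⌉₊ := by
            have := Finset.card_le_card hsub
            rw [Finset.card_range] at this
            exact_mod_cast this
        _ ≤ M + 1 := (Nat.ceil_lt_add_one hMpos.le).le
    -- large coefficients
    have hL0 : 0 ≤ L := by
      rw [hL]
      refine Real.log_nonneg ?_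
      have : (1 : ℝ) ≤ 1 / (s - 1) + 1 := by linarith
      calc (1 : ℝ) = 1 * 1 := by ring
        _ ≤ C * (1 / (s - 1) + 1) := mul_le_mul hC1 this zero_le_one (le_trans zero_le_one hC1)
    have h3 : ∀ b : E, ∑ p ∈ Tb b, 1 / (p : ℝ) ^ s ≤ 2 / M * L := by
      intro b
      have hb := hCb b s hs M hMpos (Tb b) (fun p hp => by
        rw [hTb, Finset.mem_filter] at hp
        obtain ⟨hpT, hpM, hpb⟩ := hp
        have hpp := (hTX p hpT).1
        refine ⟨hpp, fun hdvd => ?_, hpb, hpM⟩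
        -- if `p ∣ N` then `b p = 0`
        obtain ⟨σ, -, hb0⟩ := (hEmem _).1 b.2
        have : (b : ℕ → ℂ) p = 0 := hb0 p fun h => h.2 hdvd
        rw [this] at hpb
        simp only [norm_zero, ne_eq, OfNat.ofNat_ne_zero, not_false_eq_true, zero_pow] at hpb
        linarith)
      have hlog : Real.log (Cb b * (1 / (s - 1) + 1)) ≤ L := by
        rw [hL]
        refine Real.log_le_log (hpos _ (hCb1 b)) ?_
        exact mul_le_mul_of_nonneg_right (hCle b) (by linarith)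
      have hb' : M / 2 * ∑ p ∈ Tb b, 1 / (p : ℝ) ^ s ≤ L := hb.trans hlog
      have h2M : 0 < 2 / M := by positivity
      calc ∑ p ∈ Tb b, 1 / (p : ℝ) ^ s = 2 / M * (M / 2 * ∑ p ∈ Tb b, 1 / (p : ℝ) ^ s) := by
            field_simp
        _ ≤ 2 / M * L := mul_le_mul_of_nonneg_left hb' h2M.le
    have h4 : ∑ b : E, ∑ p ∈ Tb b, 1 / (p : ℝ) ^ s ≤ eta * L := by
      calc ∑ b : E, ∑ p ∈ Tb b, 1 / (p : ℝ) ^ s ≤ ∑ _b : E, 2 / M * L :=
            Finset.sum_le_sum fun b _ => h3 b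
        _ = r * (2 / M * L) := by
            rw [Finset.sum_const, Finset.card_univ, Fintype.card_coe, nsmul_eq_mul]
        _ = eta * L := by
            rw [hM]
            field_simp
    linarith
  · -- the finite set of values
    rw [hY, Set.Finite.mem_toFinset]
    refine ⟨gate_int ε f hE hf₁ hT p hp hpN, E.image fun b => b p, ?_, Finset.card_image_le, ?_, ?_⟩
    · refine Finset.mem_image.2 ⟨_, (hEmem _).2 (self_mem_eigSet f), ?_⟩
      simp [hp, hpN]
    · intro τ y hy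
      obtain ⟨b, hbE, rfl⟩ := Finset.mem_image.1 hy
      refine Finset.mem_image.2 ⟨_, (hEmem _).2 (conj_mem_eigSet f ((hEmem _).1 hbE) τ), ?_⟩
      simp [hp, hpN]
    · intro y hy
      obtain ⟨b, hbE, rfl⟩ := Finset.mem_image.1 hy
      have hnot : ¬ M ≤ ‖b p‖ ^ 2 := fun h => hpX (Or.inr ⟨b, hbE, h⟩)
      rw [Real.le_sqrt (norm_nonneg _) hMpos.le]
      exact (not_le.1 hnot).le

end Gates

end Fermat.Agent.DS.N2
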