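import Fermat.Agent.DS.N2.EisChar
import Fermat.Agent.DS.N2.Gates

/-!
# S48 (N2): the gates `GateInt` and `GateSparse`, unconditionally

`Gates.lean` with the hypothesis `EisStmt` discharged by `EisChar.eisStmt` (leaf (E)).  Also the
unconditional conjugation theorem for cusp forms on `Γ₁(N)`.
-/

set_option autoImplicit false

open UpperHalfPlane ModularForm CongruenceSubgroup ModularFormClass
open scoped MatrixGroups ModularForm Manifold

namespace Fermat.Agent.DS.N2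

/-- Cusp forms on `Γ₁(N)` of any weight are stable under every ring endomorphism of `ℂ` acting on
`q`-expansion coefficients. -/
theorem cuspForm_conj_Gamma1_final (N : ℕ) [NeZero N] (k : ℤ) (σ : ℂ →+* ℂ)
    (f : CuspForm (Gamma1 N) k) :
    ∃ g : CuspForm (Gamma1 N) k, ∀ n, qCoeff g n = σ (qCoeff f n) :=
  cuspForm_conj_Gamma1_qCoeff EisChar.eisStmt N k σ f

section Final

variable {N : ℕ} [NeZero N] (ε : DirichletCharacter ℂ N) (f : CuspForm (Gamma1 N) 1)
  (hf₁ : qCoeff f 1 = 1)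
  (hT : ∀ p : ℕ, p.Prime → ¬ p ∣ N → ∀ n : ℕ,
    qCoeff f (p * n) + ε (p : ZMod N) * (if p ∣ n then qCoeff f (n / p) else 0) =
      qCoeff f p * qCoeff f n)

include hf₁ hT in
/-- **GateInt** (frozen-S48 binders): the `a_p`, `p ∤ N`, are algebraic integers. -/
theorem gateInt : ∀ p : ℕ, p.Prime → ¬ p ∣ N → IsIntegral ℤ (qCoeff f p) :=
  gate_int ε f EisChar.eisStmt hf₁ hT

include hf₁ hT in
/-- **GateInt, number field form**. -/
theorem gateIntField : ∃ E : IntermediateField ℚ ℂ, FiniteDimensional ℚ E ∧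
    ∀ p : ℕ, p.Prime → ¬ p ∣ N → qCoeff f p ∈ E ∧ ε (p : ZMod N) ∈ E :=
  gate_int_field ε f EisChar.eisStmt hf₁ hT

include hf₁ hT in
/-- **(I2′)**: all `q`-coefficients of `f` lie in one finitely generated `ℤ`-submodule of `ℂ`. -/
theorem coeff_fg : ∃ Λ : Submodule ℤ ℂ, Λ.FG ∧ ∀ n, qCoeff f n ∈ Λ :=
  exists_fg_coeff ε f EisChar.eisStmt hf₁ hT

include hf₁ hT in
/-- **GateSparse** (frozen-S48 binders; upper logarithmic density in finite-sum form). -/
theorem gateSparse (eta : ℝ) (heta : 0 < eta) :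
    ∃ (Y : Finset ℂ) (X : Set ℕ),
      (∃ C : ℝ, 1 ≤ C ∧ ∃ C' : ℝ, ∀ s : ℝ, 1 < s → ∀ T : Finset ℕ,
        (∀ p ∈ T, p.Prime ∧ p ∈ X) →
          ∑ p ∈ T, 1 / (p : ℝ) ^ s ≤ eta * Real.log (C * (1 / (s - 1) + 1)) + C') ∧
      ∀ p : ℕ, p.Prime → ¬ p ∣ N → p ∉ X → qCoeff f p ∈ Y :=
  gate_sparse ε f EisChar.eisStmt hf₁ hT eta heta

end Final

end Fermat.Agent.DS.N2
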