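import Fermat.Agent.DS.N2.CharSigma
import Mathlib.NumberTheory.DirichletCharacter.Bounds

/-!
# S48 (N2), leaf (E) support: `q`-expansion of the lattice sum with a weight on the first coordinate

For `k ≥ 3`, a bounded `ψ : ℤ → ℂ` with `ψ 0 = 0` and `ψ (-c) = (-1)^k ψ c`:
`∑_{v ∈ ℤ²} ψ(v₀) (v₀ z + v₁)^{-k} = 2 ((-2πi)^k/(k-1)!) ∑_{e ≥ 1} (∑_{x ∣ e} ψ(e/x) x^{k-1}) q^e`.
Mathlib only (twin of `tsum_eisSummand_eq_tsum_sigma_mul_cexp_pow`).
-/

set_option autoImplicit false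

open Filter Complex Nat Topology EisensteinSeries
open UpperHalfPlane hiding I
open scoped Real

namespace Fermat.Agent.DS.N2.CharSigma

/-- Summability of the weighted lattice sum. -/
theorem summable_char_eisSummand {k : ℕ} (hk : 3 ≤ k) (ψ : ℤ → ℂ) (hψ : ∀ n, ‖ψ n‖ ≤ 1) (z : ℍ) :
    Summable fun v : Fin 2 → ℤ => ψ (v 0) * eisSummand k v z := by
  have h := (summable_eisSummand hk z).norm
  refine Summable.of_norm_bounded h fun v => ?_
  rw [norm_mul]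
  calc ‖ψ (v 0)‖ * ‖eisSummand k v z‖ ≤ 1 * ‖eisSummand k v z‖ := by gcongr; exact hψ _
    _ = _ := one_mul _

theorem summable_prod_char_eisSummand {k : ℕ} (hk : 3 ≤ k) (ψ : ℤ → ℂ) (hψ : ∀ n, ‖ψ n‖ ≤ 1)
    (z : ℍ) : Summable fun x : ℤ × ℤ => ψ x.1 * eisSummand k ![x.1, x.2] z := by
  refine (finTwoArrowEquiv ℤ).summable_iff.mp <|
    (summable_char_eisSummand hk ψ hψ z).congr (fun v => ?_)
  simp [show ![v 0, v 1] = v from List.ofFn_inj.mp rfl]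

/-- **`q`-expansion of the weighted lattice sum.** -/
theorem tsum_char_eisSummand {k : ℕ} (hk : 3 ≤ k) (ψ : ℤ → ℂ) (hψ : ∀ n, ‖ψ n‖ ≤ 1)
    (h0 : ψ 0 = 0) (hpar : ∀ c, ψ (-c) = (-1) ^ k * ψ c) (z : ℍ) :
    ∑' v : Fin 2 → ℤ, ψ (v 0) * eisSummand k v z =
      2 * ((-2 * π * I) ^ k / (k - 1)!) *
        ∑' e : ℕ+, charSigma (k - 1) (fun n : ℕ => ψ n) e * cexp (2 * π * I * z) ^ (e : ℕ) := by
  have hsum := summable_prod_char_eisSummand hk ψ hψ z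
  have h1 : ∑' v : Fin 2 → ℤ, ψ (v 0) * eisSummand k v z =
      ∑' c : ℤ, ψ c * ∑' d : ℤ, eisSummand k ![c, d] z := by
    rw [← (finTwoArrowEquiv ℤ).symm.tsum_eq]
    simp only [finTwoArrowEquiv_symm_apply, Matrix.cons_val_zero]
    rw [hsum.tsum_prod]
    exact tsum_congr fun c => by simp only [tsum_mul_left]
  have houter : Summable fun c : ℤ => ψ c * ∑' d : ℤ, eisSummand k ![c, d] z := by
    have := hsum.prod
    refine this.congr fun c => ?_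
    simp only [tsum_mul_left]
  have heven : Function.Even fun c : ℤ => ψ c * ∑' d : ℤ, eisSummand k ![c, d] z := by
    intro c
    simp only
    rw [hpar c, ← tsum_comp_neg (fun d : ℤ => eisSummand k ![-c, d] z), mul_comm ((-1 : ℂ) ^ k),
      mul_assoc, ← tsum_mul_left]
    congr 1
    refine tsum_congr fun d => ?_
    simp only [eisSummand, Matrix.cons_val_zero, Matrix.cons_val_one, Int.cast_neg]
    rw [show (-(c : ℂ) * (z : ℂ) + -(d : ℂ)) = -((c : ℂ) * z + d) by ring]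
    rw [zpow_neg, zpow_neg, zpow_natCast, zpow_natCast, neg_pow ((c : ℂ) * (z : ℂ) + (d : ℂ)), mul_inv,
      ← mul_assoc, mul_inv_cancel₀ (pow_ne_zero _ (by norm_num)), one_mul]
  rw [h1, tsum_int_eq_zero_add_two_mul_tsum_pnat heven houter, h0, zero_mul, zero_add]
  have hψ' : ∀ n : ℕ, ‖(fun n : ℕ => ψ n) n‖ ≤ 1 := fun n => hψ n
  have hL := tsum_char_lipschitz (k := k - 1) (by omega) (fun n : ℕ => ψ n) hψ' z
  rw [show k - 1 + 1 = k by omega] at hL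
  rw [mul_assoc, ← hL, nsmul_eq_mul, Nat.cast_ofNat]
  congr 1
  refine tsum_congr fun d => ?_
  congr 1
  refine tsum_congr fun n => ?_
  simp [eisSummand]

@[simp] theorem charSigma_zero (k : ℕ) (ψ : ℕ → ℂ) : charSigma k ψ 0 = 0 := by
  simp [charSigma]

/-- Summability of the `q`-series with coefficients `charSigma`. -/
theorem summable_charSigma_mul_pow (k : ℕ) (ψ : ℕ → ℂ) (hψ : ∀ n, ‖ψ n‖ ≤ 1) {r : ℂ}
    (hr : ‖r‖ < 1) : Summable fun e : ℕ+ => charSigma k ψ e * r ^ (e : ℕ) := by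
  have hs := (summable_char_sigma_aux k ψ hψ hr).sigma
  refine hs.congr fun n => ?_
  rw [tsum_fintype, Finset.univ_eq_attach,
    (n : ℕ).divisorsAntidiagonal.sum_attach fun x : ℕ × ℕ => ψ x.1 * ((x.2 : ℂ) ^ k * r ^ (x.1 * x.2)),
    Nat.sum_divisorsAntidiagonal' fun x y => ψ x * ((y : ℂ) ^ k * r ^ (x * y)), charSigma,
    Finset.sum_mul]
  refine Finset.sum_congr rfl fun i hi => ?_
  rw [Nat.div_mul_cancel (Nat.dvd_of_mem_divisors hi)]
  ring

/-- The `q`-series with coefficients `charSigma`, indexed by `ℕ` (the `0`-th coefficient is `0`). -/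
theorem hasSum_charSigma_nat (k : ℕ) (ψ : ℕ → ℂ) (hψ : ∀ n, ‖ψ n‖ ≤ 1) {r : ℂ} (hr : ‖r‖ < 1) :
    HasSum (fun m : ℕ => charSigma k ψ m * r ^ m) (∑' e : ℕ+, charSigma k ψ e * r ^ (e : ℕ)) := by
  have hs := summable_charSigma_mul_pow k ψ hψ hr
  have hs' : Summable fun m : ℕ => charSigma k ψ (m + 1) * r ^ (m + 1) := by
    rwa [summable_pnat_iff_summable_succ (f := fun m : ℕ => charSigma k ψ m * r ^ m)] at hs
  rw [tsum_pnat_eq_tsum_succ (f := fun m : ℕ => charSigma k ψ m * r ^ m), ← hasSum_nat_add_iff' 1]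
  simpa using hs'.hasSum

/-- **HasSum form** of `tsum_char_eisSummand`, ready for `ModularFormClass.qExpansion_coeff_unique`:
the normalised weighted lattice sum has `q`-expansion `∑_{m ≥ 0} charSigma (k-1) ψ m qᵐ`. -/
theorem hasSum_char_eis {k : ℕ} (hk : 3 ≤ k) (ψ : ℤ → ℂ) (hψ : ∀ n, ‖ψ n‖ ≤ 1)
    (h0 : ψ 0 = 0) (hpar : ∀ c, ψ (-c) = (-1) ^ k * ψ c) (τ : ℍ) :
    HasSum (fun m : ℕ => charSigma (k - 1) (fun n : ℕ => ψ n) m • Function.Periodic.qParam (1 : ℝ) τ ^ m)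
      ((2 * ((-2 * π * I) ^ k / (k - 1)!))⁻¹ * ∑' v : Fin 2 → ℤ, ψ (v 0) * eisSummand k v τ) := by
  have hC : (2 * ((-2 * π * I) ^ k / (k - 1)! : ℂ)) ≠ 0 := by
    have hpi : (π : ℂ) ≠ 0 := by exact_mod_cast Real.pi_ne_zero
    have hfac : ((k - 1)! : ℂ) ≠ 0 := by exact_mod_cast (Nat.factorial_ne_zero _)
    refine mul_ne_zero two_ne_zero (div_ne_zero (pow_ne_zero _ ?_) hfac)
    simp [hpi, I_ne_zero]
  rw [tsum_char_eisSummand hk ψ hψ h0 hpar τ, ← mul_assoc, inv_mul_cancel₀ hC, one_mul]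
  have hq : ‖cexp (2 * π * I * τ)‖ < 1 := by
    simpa using UpperHalfPlane.norm_exp_two_pi_I_lt_one τ
  have hψ' : ∀ n : ℕ, ‖(fun n : ℕ => ψ n) n‖ ≤ 1 := fun n => hψ n
  have h := hasSum_charSigma_nat (k - 1) (fun n : ℕ => ψ n) hψ' hq
  convert h using 3 with m
  simp [Function.Periodic.qParam]

/-- **Dirichlet character form**: for `N > 1`, `k ≥ 3` and `ψ (-1) = (-1)^k`, the normalised lattice sum
`(2C)⁻¹ ∑_v ψ(v₀) (v₀ τ + v₁)^{-k}`, `C = (-2πi)^k/(k-1)!`, has the `q`-expansion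
`∑_{m ≥ 1} (∑_{x ∣ m} ψ(m/x) x^{k-1}) qᵐ` (the coefficients `eisCoeff k ψ m` of `EisSpec`). -/
theorem hasSum_dirichlet_eis {N : ℕ} (hN : 1 < N) {k : ℕ} (hk : 3 ≤ k)
    (ψ : DirichletCharacter ℂ N) (hpar : ψ (-1) = (-1) ^ k) (τ : ℍ) :
    HasSum (fun m : ℕ => (∑ x ∈ m.divisors, ψ ((m / x : ℕ) : ZMod N) * (x : ℂ) ^ (k - 1)) •
        Function.Periodic.qParam (1 : ℝ) τ ^ m)
      ((2 * ((-2 * π * I) ^ k / (k - 1)!))⁻¹ *
        ∑' v : Fin 2 → ℤ, ψ ((v 0 : ℤ) : ZMod N) * eisSummand k v τ) := by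
  have : Fact (1 < N) := ⟨hN⟩
  have h := hasSum_char_eis hk (fun c : ℤ => ψ (c : ZMod N)) (fun n => ψ.norm_le_one _)
    (by simp only [Int.cast_zero]; exact MulChar.map_zero ψ) (fun c => by
      simp only [Int.cast_neg]
      rw [← neg_one_mul, map_mul, hpar]) τ
  convert h using 3 with m
  simp only [charSigma, Int.cast_natCast]

end Fermat.Agent.DS.N2.CharSigma
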