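import Mathlib.NumberTheory.TsumDivisorsAntidiagonal
import Mathlib.NumberTheory.ModularForms.EisensteinSeries.QExpansion

/-!
# S48 (N2), leaf (E) support: character-weighted divisor sums

Mathlib's `tsum_prod_pow_eq_tsum_sigma` with a bounded weight `ψ` on the first factor:
`∑_{d, c ≥ 1} ψ(d) c^k r^{dc} = ∑_{e ≥ 1} (∑_{x ∣ e} ψ(e/x) x^k) r^e`,
and its combination with the Lipschitz formula `EisensteinSeries.qExpansion_identity_pnat`.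
-/

set_option autoImplicit false

open Filter Complex Nat Topology
open UpperHalfPlane hiding I
open scoped Real

namespace Fermat.Agent.DS.N2.CharSigma

/-- Summability of the weighted double series. -/
theorem summable_char_prod (k : ℕ) (ψ : ℕ → ℂ) (hψ : ∀ n, ‖ψ n‖ ≤ 1) {r : ℂ} (hr : ‖r‖ < 1) :
    Summable fun c : ℕ+ × ℕ+ => ψ c.1 * ((c.2 : ℂ) ^ k * r ^ (c.1 * c.2 : ℕ)) := by
  have h := (summable_prod_mul_pow (𝕜 := ℂ) k hr).norm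
  refine Summable.of_norm_bounded h fun c => ?_
  rw [norm_mul]
  calc ‖ψ c.1‖ * ‖(c.2 : ℂ) ^ k * r ^ (c.1 * c.2 : ℕ)‖
      ≤ 1 * ‖(c.2 : ℂ) ^ k * r ^ (c.1 * c.2 : ℕ)‖ := by gcongr; exact hψ _
    _ = _ := by rw [one_mul]

/-- The weighted divisor sum `∑_{x ∣ e} ψ(e/x) x^k`. -/
noncomputable def charSigma (k : ℕ) (ψ : ℕ → ℂ) (e : ℕ) : ℂ :=
  ∑ x ∈ e.divisors, ψ (e / x) * (x : ℂ) ^ k

theorem summable_char_sigma_aux (k : ℕ) (ψ : ℕ → ℂ) (hψ : ∀ n, ‖ψ n‖ ≤ 1) {r : ℂ}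
    (hr : ‖r‖ < 1) :
    Summable fun x : (Σ n : ℕ+, (n : ℕ).divisorsAntidiagonal) =>
      ψ x.2.1.1 * ((x.2.1.2 : ℂ) ^ k * r ^ (x.2.1.1 * x.2.1.2)) := by
  have h := sigmaAntidiagonalEquivProd.summable_iff.mpr (summable_char_prod k ψ hψ hr)
  refine h.congr fun x => ?_
  simp [sigmaAntidiagonalEquivProd, divisorsAntidiagonalFactors]

/-- **Weighted version of `tsum_prod_pow_eq_tsum_sigma`** (product form). -/
theorem tsum_char_prod_eq (k : ℕ) (ψ : ℕ → ℂ) (hψ : ∀ n, ‖ψ n‖ ≤ 1) {r : ℂ} (hr : ‖r‖ < 1) :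
    ∑' c : ℕ+ × ℕ+, ψ c.1 * ((c.2 : ℂ) ^ k * r ^ (c.1 * c.2 : ℕ)) =
      ∑' e : ℕ+, charSigma k ψ e * r ^ (e : ℕ) := by
  rw [← sigmaAntidiagonalEquivProd.tsum_eq]
  have hs := summable_char_sigma_aux k ψ hψ hr
  have hcongr : (fun x : (Σ n : ℕ+, (n : ℕ).divisorsAntidiagonal) =>
      ψ (sigmaAntidiagonalEquivProd x).1 * (((sigmaAntidiagonalEquivProd x).2 : ℂ) ^ k *
        r ^ ((sigmaAntidiagonalEquivProd x).1 * (sigmaAntidiagonalEquivProd x).2 : ℕ))) =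
      fun x => ψ x.2.1.1 * ((x.2.1.2 : ℂ) ^ k * r ^ (x.2.1.1 * x.2.1.2)) := by
    funext x
    simp [sigmaAntidiagonalEquivProd, divisorsAntidiagonalFactors]
  rw [hcongr, hs.tsum_sigma]
  refine tsum_congr fun n => ?_
  rw [tsum_fintype, Finset.univ_eq_attach,
    (n : ℕ).divisorsAntidiagonal.sum_attach fun x : ℕ × ℕ => ψ x.1 * ((x.2 : ℂ) ^ k * r ^ (x.1 * x.2)),
    Nat.sum_divisorsAntidiagonal' fun x y => ψ x * ((y : ℂ) ^ k * r ^ (x * y)), charSigma,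
    Finset.sum_mul]
  refine Finset.sum_congr rfl fun i hi => ?_
  rw [Nat.div_mul_cancel (Nat.dvd_of_mem_divisors hi)]
  ring

/-- **Weighted version of `tsum_prod_pow_eq_tsum_sigma`** (iterated form). -/
theorem tsum_char_prod_eq_tsum_sigma (k : ℕ) (ψ : ℕ → ℂ) (hψ : ∀ n, ‖ψ n‖ ≤ 1) {r : ℂ}
    (hr : ‖r‖ < 1) :
    ∑' d : ℕ+, ψ d * ∑' c : ℕ+, (c : ℂ) ^ k * r ^ (d * c : ℕ) =
      ∑' e : ℕ+, charSigma k ψ e * r ^ (e : ℕ) := by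
  rw [← tsum_char_prod_eq k ψ hψ hr, (summable_char_prod k ψ hψ hr).tsum_prod]
  refine tsum_congr fun d => ?_
  simp only [tsum_mul_left]

/-- **Lipschitz formula summed against a bounded weight**: for `z ∈ ℍ` and `k ≥ 1`,
`∑_{d ≥ 1} ψ(d) ∑_{n ∈ ℤ} (d z + n)^{-(k+1)} = ((-2πi)^{k+1}/k!) ∑_{e ≥ 1} (∑_{x ∣ e} ψ(e/x) x^k) q^e`. -/
theorem tsum_char_lipschitz {k : ℕ} (hk : 1 ≤ k) (ψ : ℕ → ℂ) (hψ : ∀ n, ‖ψ n‖ ≤ 1) (z : ℍ) :
    ∑' d : ℕ+, ψ d * ∑' n : ℤ, 1 / (((d : ℕ) : ℂ) * (z : ℂ) + n) ^ (k + 1) =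
      ((-2 * π * I) ^ (k + 1) / k !) *
        ∑' e : ℕ+, charSigma k ψ e * cexp (2 * π * I * z) ^ (e : ℕ) := by
  have hq : ‖cexp (2 * π * I * z)‖ < 1 := by
    simpa using UpperHalfPlane.norm_exp_two_pi_I_lt_one z
  rw [← tsum_char_prod_eq_tsum_sigma k ψ hψ hq, ← tsum_mul_left]
  refine tsum_congr fun d => ?_
  have hd : 0 < (((d : ℕ) : ℂ) * (z : ℂ)).im := by
    simpa using z.2
  have H := EisensteinSeries.qExpansion_identity_pnat hk ⟨((d : ℕ) : ℂ) * (z : ℂ), hd⟩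
  simp only at H
  rw [H]
  have hc : ∀ c : ℕ+, ((c : ℕ) : ℂ) ^ k * cexp (2 * π * I * (((d : ℕ) : ℂ) * (z : ℂ))) ^ (c : ℕ) =
      ((c : ℕ) : ℂ) ^ k * cexp (2 * π * I * z) ^ ((d : ℕ) * (c : ℕ)) := by
    intro c
    congr 1
    rw [← Complex.exp_nat_mul, ← Complex.exp_nat_mul]
    congr 1
    push_cast
    ring
  simp only [hc]
  ring

end Fermat.Agent.DS.N2.CharSigma
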