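import Mathlib
import Fermat.Agent.DS.N2.Gamma1Group
import Fermat.Agent.DS.N2.EisSpec

/-!
# S48 (N2), leaf (E): Eisenstein series with character in weight `k ≥ 3`

For a Dirichlet character `ψ` modulo `N > 1` with `ψ(-1) = (-1)^k`, `k ≥ 3`, the absolutely convergent
series `G_ψ(z) = ∑_{(m,n) ∈ ℤ²} ψ(m) (m z + n)^{-k}` is a modular form of weight `k` on `Γ₁(N)` with
nebentypus `ψ(γ₁₁)` on `Γ₀(N)` and `q`-expansion
`2 (-2πi)^k/(k-1)! ∑_{n ≥ 1} (∑_{d ∣ n} ψ(n/d) d^{k-1}) qⁿ`.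
Main results: `gChar_slash_Gamma0`, `gChar_mdifferentiable`, `isBoundedAtImInfty_gChar_slash`,
`hasSum_qExp`, `gCharMF`, `exists_eisChar`, `eisStmt : EisStmt`.
-/

set_option autoImplicit false
set_option linter.unusedSectionVars false

open UpperHalfPlane hiding I
open ModularForm EisensteinSeries CongruenceSubgroup Complex Matrix Filter Topology
open scoped MatrixGroups ModularForm Manifold Real Nat

namespace Fermat.Agent.DS.N2.EisChar

open Fermat.Agent.S23 Fermat.Agent.DS.N2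

variable {N : ℕ} [NeZero N]

/-- The general term of the Eisenstein series with character `ψ` on the coefficient of `z`. -/
noncomputable def gTerm (ψ : DirichletCharacter ℂ N) (k : ℤ) (v : Fin 2 → ℤ) (z : ℍ) : ℂ :=
  ψ ((v 0 : ℤ) : ZMod N) * eisSummand k v z

/-- `G_ψ(z) = ∑_{(m,n)} ψ(m) (m z + n)^{-k}`. -/
noncomputable def gChar (ψ : DirichletCharacter ℂ N) (k : ℤ) (z : ℍ) : ℂ :=
  ∑' v : Fin 2 → ℤ, gTerm ψ k v z

lemma norm_gTerm_le (ψ : DirichletCharacter ℂ N) (k : ℤ) (v : Fin 2 → ℤ) (z : ℍ) :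
    ‖gTerm ψ k v z‖ ≤ ‖eisSummand k v z‖ := by
  rw [gTerm, norm_mul]
  exact mul_le_of_le_one_left (norm_nonneg _) (DirichletCharacter.norm_le_one ψ _)

lemma summable_gTerm (ψ : DirichletCharacter ℂ N) {k : ℤ} (hk : 3 ≤ k) (z : ℍ) :
    Summable fun v : Fin 2 → ℤ => gTerm ψ k v z :=
  Summable.of_norm_bounded (summable_norm_eisSummand hk z) fun v => norm_gTerm_le ψ k v z

omit [NeZero N] in
lemma coe_mul_coe_inv (γ : SL(2, ℤ)) : (γ : Matrix (Fin 2) (Fin 2) ℤ) *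
    ((γ⁻¹ : SL(2, ℤ)) : Matrix (Fin 2) (Fin 2) ℤ) = 1 :=
  congrArg Subtype.val (mul_inv_cancel γ)

omit [NeZero N] in
lemma coe_inv_mul_coe (γ : SL(2, ℤ)) : ((γ⁻¹ : SL(2, ℤ)) : Matrix (Fin 2) (Fin 2) ℤ) *
    (γ : Matrix (Fin 2) (Fin 2) ℤ) = 1 :=
  congrArg Subtype.val (inv_mul_cancel γ)

/-- right multiplication by `γ ∈ SL(2, ℤ)` as a permutation of `ℤ²`. -/
def vecMulEquiv (γ : SL(2, ℤ)) : (Fin 2 → ℤ) ≃ (Fin 2 → ℤ) where
  toFun v := v ᵥ* (γ : Matrix (Fin 2) (Fin 2) ℤ)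
  invFun v := v ᵥ* ((γ⁻¹ : SL(2, ℤ)) : Matrix (Fin 2) (Fin 2) ℤ)
  left_inv v := by
    show (v ᵥ* (γ : Matrix (Fin 2) (Fin 2) ℤ)) ᵥ* ((γ⁻¹ : SL(2, ℤ)) : Matrix (Fin 2) (Fin 2) ℤ) = v
    rw [vecMul_vecMul, coe_mul_coe_inv, vecMul_one]
  right_inv v := by
    show (v ᵥ* ((γ⁻¹ : SL(2, ℤ)) : Matrix (Fin 2) (Fin 2) ℤ)) ᵥ* (γ : Matrix (Fin 2) (Fin 2) ℤ) = v
    rw [vecMul_vecMul, coe_inv_mul_coe, vecMul_one]

lemma gChar_slash_apply (ψ : DirichletCharacter ℂ N) (k : ℤ) (γ : SL(2, ℤ)) (z : ℍ) :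
    (gChar ψ k ∣[k] γ) z =
      ∑' v : Fin 2 → ℤ, ψ ((v 0 : ℤ) : ZMod N) *
        eisSummand k (v ᵥ* (γ : Matrix (Fin 2) (Fin 2) ℤ)) z := by
  rw [SL_slash_apply, gChar, ← tsum_mul_right]
  refine tsum_congr fun v => ?_
  rw [gTerm, eisSummand_SL2_apply, _root_.zpow_neg]
  have := denom_ne_zero γ z
  field_simp

/-- Nebentypus: `G_ψ ∣[k] γ = ψ(γ₁₁) G_ψ` for `γ ∈ Γ₀(N)`. -/
theorem gChar_slash_Gamma0 (ψ : DirichletCharacter ℂ N) (k : ℤ) (γ : SL(2, ℤ))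
    (hγ : γ ∈ Gamma0 N) :
    gChar ψ k ∣[k] γ = ψ (((γ 1 1 : ℤ)) : ZMod N) • gChar ψ k := by
  ext z
  rw [gChar_slash_apply, Pi.smul_apply, smul_eq_mul, gChar, ← tsum_mul_left]
  rw [← (vecMulEquiv γ).tsum_eq (fun w => ψ (((γ 1 1 : ℤ)) : ZMod N) * gTerm ψ k w z)]
  refine tsum_congr fun v => ?_
  simp only [vecMulEquiv, Equiv.coe_fn_mk, gTerm]
  rw [← mul_assoc]
  congr 1
  -- `ψ v₀ = ψ γ₁₁ * ψ (vγ)₀`
  have h10 : ((γ 1 0 : ℤ) : ZMod N) = 0 := Gamma0_mem.mp hγ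
  have hdet : (γ 0 0 : ℤ) * γ 1 1 - γ 0 1 * γ 1 0 = 1 := by
    have := γ.det_coe
    rwa [Matrix.det_fin_two] at this
  have hdet' : ((γ 0 0 : ℤ) : ZMod N) * ((γ 1 1 : ℤ) : ZMod N) = 1 := by
    have := congrArg (fun x : ℤ => (x : ZMod N)) hdet
    simpa [h10] using this
  have hv : (((v ᵥ* (γ : Matrix (Fin 2) (Fin 2) ℤ)) 0 : ℤ) : ZMod N) =
      ((v 0 : ℤ) : ZMod N) * ((γ 0 0 : ℤ) : ZMod N) := by
    simp [vecMul, vec2_dotProduct, h10]
  rw [hv, map_mul, ← mul_assoc, mul_comm (ψ _) (ψ ((v 0 : ℤ) : ZMod N)), mul_assoc, ← map_mul,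
    mul_comm ((γ 1 1 : ℤ) : ZMod N), hdet', map_one, mul_one]


/-! ### Holomorphy -/

theorem gChar_tendstoLocallyUniformly (ψ : DirichletCharacter ℂ N) {k : ℤ} (hk : 3 ≤ k) :
    TendstoLocallyUniformly (fun (s : Finset (Fin 2 → ℤ)) ↦ (∑ x ∈ s, gTerm ψ k x ·))
      (gChar ψ k ·) Filter.atTop := by
  have hk' : (2 : ℝ) < k := by norm_cast
  have p_sum : Summable fun x : Fin 2 → ℤ ↦ ‖x‖ ^ (-k) :=
    mod_cast (summable_one_div_norm_rpow hk')
  simp only [tendstoLocallyUniformly_iff_forall_isCompact, gChar]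
  intro K hK
  obtain ⟨A, B, hB, HABK⟩ := subset_verticalStrip_of_isCompact hK
  refine (tendstoUniformlyOn_tsum (hu := p_sum.mul_left <| r ⟨⟨A, B⟩, hB⟩ ^ (-k : ℝ))
    (fun p z hz ↦ ?_)).mono HABK
  refine (norm_gTerm_le ψ k p z).trans ?_
  simpa only [eisSummand, one_div, ← _root_.zpow_neg, norm_zpow, ← Real.rpow_intCast,
    Int.cast_neg] using summand_bound_of_mem_verticalStrip (by positivity) p hB hz

lemma gChar_tendstoLocallyUniformlyOn (ψ : DirichletCharacter ℂ N) {k : ℤ} (hk : 3 ≤ k) :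
    TendstoLocallyUniformlyOn (fun (s : Finset (Fin 2 → ℤ)) ↦
      (fun (z : ℍ) ↦ ∑ x ∈ s, gTerm ψ k x z) ∘ ofComplex) (gChar ψ k ∘ ofComplex)
        Filter.atTop {z : ℂ | 0 < z.im} := by
  rw [← upperHalfPlaneSet, ← range_coe, ← Set.image_univ]
  apply TendstoLocallyUniformlyOn.comp (s := ⊤) _ _ _ (OpenPartialHomeomorph.continuousOn_symm _)
  · simp only [Set.top_eq_univ, tendstoLocallyUniformlyOn_univ]
    apply gChar_tendstoLocallyUniformly ψ hk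
  · simp only [IsOpenEmbedding.toOpenPartialHomeomorph_target, Set.top_eq_univ,
      Set.mapsTo_range_iff, Set.mem_univ, forall_const]

lemma gTerm_extension_differentiableOn (ψ : DirichletCharacter ℂ N) (k : ℤ) (a : Fin 2 → ℤ) :
    DifferentiableOn ℂ ((gTerm ψ k a) ∘ ofComplex) {z : ℂ | 0 < z.im} := by
  have := (eisSummand_extension_differentiableOn k a).const_smul (ψ ((a 0 : ℤ) : ZMod N))
  refine this.congr fun z _ => ?_
  simp [gTerm, Function.comp]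

theorem gChar_mdifferentiable (ψ : DirichletCharacter ℂ N) {k : ℤ} (hk : 3 ≤ k) :
    MDiff (gChar ψ k) := by
  intro τ
  suffices DifferentiableAt ℂ (gChar ψ k ∘ ofComplex) τ.1 by
    convert!
      MDifferentiableAt.comp τ (DifferentiableAt.mdifferentiableAt this) τ.mdifferentiable_coe
    exact funext fun z ↦ (comp_ofComplex (gChar ψ k) z).symm
  refine DifferentiableOn.differentiableAt ?_ (isOpen_upperHalfPlaneSet.mem_nhds τ.2)
  refine (gChar_tendstoLocallyUniformlyOn ψ hk).differentiableOn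
    (Eventually.of_forall fun s ↦ ?_) isOpen_upperHalfPlaneSet
  have : ((fun (z : ℍ) ↦ ∑ x ∈ s, gTerm ψ k x z) ∘ ofComplex) =
      fun w => ∑ x ∈ s, (gTerm ψ k x ∘ ofComplex) w := by
    funext w; simp [Function.comp]
  rw [this]
  exact DifferentiableOn.fun_sum fun _ _ ↦ gTerm_extension_differentiableOn ψ k _

/-! ### Boundedness at the cusps -/

omit [NeZero N] in
/-- The full lattice sum of norms is invariant under `SL(2, ℤ)`-reindexing. -/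
lemma tsum_norm_eisSummand_vecMul (k : ℤ) (γ : SL(2, ℤ)) (z : ℍ) :
    ∑' v : Fin 2 → ℤ, ‖eisSummand k (v ᵥ* (γ : Matrix (Fin 2) (Fin 2) ℤ)) z‖ =
      ∑' v : Fin 2 → ℤ, ‖eisSummand k v z‖ :=
  (vecMulEquiv γ).tsum_eq (fun w => ‖eisSummand k w z‖)

omit [NeZero N] in
lemma tsum_norm_eisSummand_T_zpow (k : ℤ) (n : ℤ) (z : ℍ) :
    ∑' v : Fin 2 → ℤ, ‖eisSummand k v (ModularGroup.T ^ n • z)‖ =
      ∑' v : Fin 2 → ℤ, ‖eisSummand k v z‖ := by
  rw [← tsum_norm_eisSummand_vecMul k (ModularGroup.T ^ n) z]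
  refine tsum_congr fun v => ?_
  rw [eisSummand_SL2_apply]
  have h10 : (ModularGroup.T ^ n : SL(2, ℤ)) 1 0 = 0 := by
    have := congrFun (congrFun (ModularGroup.coe_T_zpow n) 1) 0
    simpa using this
  have h11 : (ModularGroup.T ^ n : SL(2, ℤ)) 1 1 = 1 := by
    have := congrFun (congrFun (ModularGroup.coe_T_zpow n) 1) 1
    simpa using this
  rw [ModularGroup.denom_apply, h10, h11]
  simp

theorem isBoundedAtImInfty_gChar_slash (ψ : DirichletCharacter ℂ N) {k : ℤ} (hk : 3 ≤ k)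
    (A : SL(2, ℤ)) : IsBoundedAtImInfty (gChar ψ k ∣[k] A) := by
  rw [UpperHalfPlane.isBoundedAtImInfty_iff]
  refine ⟨∑' (x : Fin 2 → ℤ), r ⟨⟨1, 2⟩, Nat.ofNat_pos⟩ ^ (-k) * ‖x‖ ^ (-k), 2, ?_⟩
  intro z hz
  obtain ⟨n, hn⟩ := (ModularGroup_T_zpow_mem_verticalStrip z (N := 1) one_pos)
  have hk' : (2 : ℝ) < k := by norm_cast
  have hsum : Summable fun v : Fin 2 → ℤ =>
      ‖eisSummand k (v ᵥ* (A : Matrix (Fin 2) (Fin 2) ℤ)) z‖ :=
    (vecMulEquiv A).summable_iff.mpr (summable_norm_eisSummand hk z)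
  calc ‖(gChar ψ k ∣[k] A) z‖
      = ‖∑' v : Fin 2 → ℤ, ψ ((v 0 : ℤ) : ZMod N) *
          eisSummand k (v ᵥ* (A : Matrix (Fin 2) (Fin 2) ℤ)) z‖ := by rw [gChar_slash_apply]
    _ ≤ ∑' v : Fin 2 → ℤ, ‖eisSummand k (v ᵥ* (A : Matrix (Fin 2) (Fin 2) ℤ)) z‖ := by
        refine tsum_of_norm_bounded hsum.hasSum fun v => ?_
        rw [norm_mul]
        exact mul_le_of_le_one_left (norm_nonneg _) (DirichletCharacter.norm_le_one ψ _)
    _ = ∑' v : Fin 2 → ℤ, ‖eisSummand k v z‖ := tsum_norm_eisSummand_vecMul k A z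
    _ = ∑' v : Fin 2 → ℤ, ‖eisSummand k v (ModularGroup.T ^ ((1 : ℕ) * n) • z)‖ :=
        (tsum_norm_eisSummand_T_zpow k _ z).symm
    _ ≤ _ := by
        apply (summable_norm_eisSummand hk _).tsum_le_tsum _
        · exact_mod_cast (summable_one_div_norm_rpow hk').mul_left <|
            r ⟨⟨1, 2⟩, Nat.ofNat_pos⟩ ^ (-k)
        · intro x
          simp_rw [eisSummand, norm_zpow]
          exact_mod_cast
            summand_bound_of_mem_verticalStrip (lt_trans two_pos hk').le x two_pos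
            (verticalStrip_anti_right 1 hz (by simpa using hn))

/-! ### The `q`-expansion -/

section QExp

variable (ψ : DirichletCharacter ℂ N)

omit [NeZero N] in
lemma summable_prod_gTerm {k : ℕ} (hk : 3 ≤ k) (z : ℍ) :
    Summable fun x : ℤ × ℤ ↦ ψ ((x.1 : ℤ) : ZMod N) * eisSummand k ![x.1, x.2] z := by
  refine Summable.of_norm_bounded (summable_norm_iff.mpr (summable_prod_eisSummand hk z))
    fun x => ?_
  rw [norm_mul]
  exact mul_le_of_le_one_left (norm_nonneg _) (DirichletCharacter.norm_le_one ψ _)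

omit [NeZero N] in
lemma gTerm_neg_neg {k : ℕ} (hψ : ψ (-1) = (-1) ^ k) (m n : ℤ) (z : ℍ) :
    ψ (((-m : ℤ)) : ZMod N) * eisSummand k ![-m, -n] z =
      ψ ((m : ℤ) : ZMod N) * eisSummand k ![m, n] z := by
  have h1 : ψ (((-m : ℤ)) : ZMod N) = (-1) ^ k * ψ ((m : ℤ) : ZMod N) := by
    rw [Int.cast_neg, ← neg_one_mul, map_mul, hψ]
  have h2 : eisSummand k ![-m, -n] z = (-1) ^ k * eisSummand k ![m, n] z := by
    simp only [eisSummand, Matrix.cons_val_zero, Matrix.cons_val_one, Int.cast_neg,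
      _root_.zpow_neg, zpow_natCast]
    rw [show (-(m : ℂ) * (z : ℂ) + -(n : ℂ)) = -((m : ℂ) * z + n) by ring, neg_pow, mul_inv]
    congr 1
    rcases Nat.even_or_odd k with h | h
    · simp [h.neg_one_pow]
    · simp [h.neg_one_pow]
  rw [h1, h2]
  have : ((-1 : ℂ) ^ k) * (-1) ^ k = 1 := by
    rw [← mul_pow]; simp
  calc (-1 : ℂ) ^ k * ψ ((m : ℤ) : ZMod N) * ((-1) ^ k * eisSummand k ![m, n] z)
      = ((-1 : ℂ) ^ k * (-1) ^ k) * (ψ ((m : ℤ) : ZMod N) * eisSummand k ![m, n] z) := by ring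
    _ = _ := by rw [this, one_mul]

lemma gChar_eq_tsum_pnat {k : ℕ} (hk : 3 ≤ k) (hN : 1 < N) (hψ : ψ (-1) = (-1) ^ k) (z : ℍ) :
    gChar ψ k z = 2 * ((-2 * π * I) ^ k / (k - 1)!) *
      ∑' m : ℕ+, ∑' d : ℕ+, ψ ((m : ℕ) : ZMod N) *
        ((d : ℕ) ^ (k - 1) * cexp (2 * π * I * z) ^ (m * d : ℕ)) := by
  have hψ0 : ψ (0 : ZMod N) = 0 := by
    have : Fact (1 < N) := ⟨hN⟩
    exact MulChar.map_zero ψ
  rw [gChar, ← (finTwoArrowEquiv ℤ).symm.tsum_eq]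
  simp only [gTerm, finTwoArrowEquiv_symm_apply, Matrix.cons_val_zero]
  rw [Summable.tsum_prod (summable_prod_gTerm ψ hk z),
    tsum_int_eq_zero_add_two_mul_tsum_pnat (fun n ↦ ?h₁)
      (by simpa using (summable_prod_gTerm ψ hk z).prod)]
  case h₁ =>
    nth_rewrite 1 [← tsum_comp_neg]
    exact tsum_congr fun y ↦ gTerm_neg_neg ψ hψ n y z
  have H (b : ℕ+) := qExpansion_identity_pnat (k := k - 1) (by omega) ⟨b * z, by simpa using z.2⟩
  simp_rw [show k - 1 + 1 = k by omega, one_div] at H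
  simp only [neg_mul] at H
  simp only [Int.cast_zero, hψ0, zero_mul, tsum_zero, zero_add, nsmul_eq_mul, Nat.cast_ofNat]
  rw [mul_assoc]
  congr 1
  rw [← tsum_mul_left]
  refine tsum_congr fun m => ?_
  rw [tsum_mul_left, tsum_mul_left]
  have hm : ∑' n : ℤ, eisSummand k ![(m : ℤ), n] z =
      ((-2 * π * I) ^ k / (k - 1)!) *
        ∑' d : ℕ+, ((d : ℕ) : ℂ) ^ (k - 1) * cexp (2 * π * I * z) ^ (m * d : ℕ) := by
    have := H m
    simp only [eisSummand, Matrix.cons_val_zero, Matrix.cons_val_one, _root_.zpow_neg,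
      zpow_natCast, Int.cast_natCast]
    simp only [neg_mul]
    rw [this]
    congr 1
    refine tsum_congr fun d => ?_
    congr 1
    rw [← Complex.exp_nat_mul, ← Complex.exp_nat_mul]
    congr 1
    push_cast
    ring
  rw [hm]
  simp only [Int.cast_natCast]
  ring

omit [NeZero N] in
lemma summable_prod_char_mul_pow (k : ℕ) {r : ℂ} (hr : ‖r‖ < 1) :
    Summable fun c : ℕ+ × ℕ+ ↦
      ψ ((c.1 : ℕ) : ZMod N) * (((c.2 : ℕ) : ℂ) ^ k * r ^ (c.1 * c.2 : ℕ)) := by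
  refine Summable.of_norm_bounded (summable_norm_iff.mpr (summable_prod_mul_pow k hr)) fun c => ?_
  rw [norm_mul]
  exact mul_le_of_le_one_left (norm_nonneg _) (DirichletCharacter.norm_le_one ψ _)

omit [NeZero N] in
lemma tsum_prod_char_eq_tsum_coeff (k : ℕ) {r : ℂ} (hr : ‖r‖ < 1) :
    ∑' m : ℕ+, ∑' d : ℕ+, ψ ((m : ℕ) : ZMod N) * (((d : ℕ) : ℂ) ^ k * r ^ (m * d : ℕ)) =
      ∑' e : ℕ+, (∑ d ∈ (e : ℕ).divisors, ψ (((e : ℕ) / d : ℕ) : ZMod N) * (d : ℂ) ^ k) *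
        r ^ (e : ℕ) := by
  have hs := summable_prod_char_mul_pow ψ k hr
  have hs' : Summable fun c : (n : ℕ+) × (n : ℕ).divisorsAntidiagonal =>
      ψ (((sigmaAntidiagonalEquivProd c).1 : ℕ) : ZMod N) *
        ((((sigmaAntidiagonalEquivProd c).2 : ℕ) : ℂ) ^ k *
          r ^ ((sigmaAntidiagonalEquivProd c).1 * (sigmaAntidiagonalEquivProd c).2 : ℕ)) :=
    sigmaAntidiagonalEquivProd.summable_iff.mpr hs
  rw [← hs.tsum_prod, ← sigmaAntidiagonalEquivProd.tsum_eq, hs'.tsum_sigma]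
  refine tsum_congr fun e => ?_
  rw [tsum_fintype, Finset.sum_mul]
  simp only [sigmaAntidiagonalEquivProd, divisorsAntidiagonalFactors, PNat.mk_coe, Equiv.coe_fn_mk,
    Finset.univ_eq_attach]
  rw [(e : ℕ).divisorsAntidiagonal.sum_attach
    fun x : ℕ × ℕ ↦ ψ ((x.1 : ℕ) : ZMod N) * (((x.2 : ℕ) : ℂ) ^ k * r ^ (x.1 * x.2)),
    Nat.sum_divisorsAntidiagonal' fun x y ↦ ψ ((x : ℕ) : ZMod N) * (((y : ℕ) : ℂ) ^ k * r ^ (x * y))]
  refine Finset.sum_congr rfl fun i hi => ?_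
  rw [Nat.div_mul_cancel (Nat.dvd_of_mem_divisors hi)]
  ring



omit [NeZero N] in
lemma norm_eisCoeff_le (k : ℕ) (n : ℕ) :
    ‖eisCoeff k ψ n‖ ≤ ‖((ArithmeticFunction.sigma (k - 1) n : ℕ) : ℂ)‖ := by
  unfold eisCoeff
  refine (norm_sum_le _ _).trans ?_
  rw [ArithmeticFunction.sigma_apply, Complex.norm_natCast]
  push_cast
  refine Finset.sum_le_sum fun d _ => ?_
  rw [norm_mul, norm_pow, Complex.norm_natCast]
  exact mul_le_of_le_one_left (by positivity) (DirichletCharacter.norm_le_one ψ _)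

omit [NeZero N] in
lemma summable_eisCoeff_mul_pow {k : ℕ} (hk : 1 ≤ k) (z : ℍ) :
    Summable fun n : ℕ => eisCoeff k ψ n * cexp (2 * π * I * z) ^ n := by
  refine Summable.of_norm_bounded
    (summable_norm_iff.mpr (EisensteinSeries.summable_sigma_mul_cexp_pow hk z)) fun n => ?_
  rw [norm_mul, norm_mul]
  exact mul_le_mul_of_nonneg_right (norm_eisCoeff_le ψ k n) (norm_nonneg _)

/-- The constant `2 (-2πi)^k / (k-1)!`. -/
noncomputable def eisConst (k : ℕ) : ℂ := 2 * ((-2 * π * I) ^ k / (k - 1)!)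

lemma eisConst_ne_zero (k : ℕ) : eisConst k ≠ 0 := by
  unfold eisConst
  have h1 : (-2 * π * I : ℂ) ≠ 0 := by
    simp [Real.pi_ne_zero, I_ne_zero]
  have h2 : (((k - 1)! : ℕ) : ℂ) ≠ 0 := by exact_mod_cast Nat.factorial_ne_zero _
  exact mul_ne_zero two_ne_zero (div_ne_zero (pow_ne_zero _ h1) h2)

theorem hasSum_qExp {k : ℕ} (hk : 3 ≤ k) (hN : 1 < N) (hψ : ψ (-1) = (-1) ^ k) (τ : ℍ) :
    HasSum (fun n : ℕ => eisCoeff k ψ n • Function.Periodic.qParam (1 : ℝ) τ ^ n)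
      ((eisConst k)⁻¹ * gChar ψ k τ) := by
  have hr := norm_exp_two_pi_I_lt_one τ
  have hq : Function.Periodic.qParam (1 : ℝ) τ = cexp (2 * π * I * τ) := by
    simp [Function.Periodic.qParam]
  rw [gChar_eq_tsum_pnat ψ hk hN hψ τ, ← eisConst, inv_mul_cancel_left₀ (eisConst_ne_zero k),
    tsum_prod_char_eq_tsum_coeff ψ (k - 1) hr]
  have hS := summable_eisCoeff_mul_pow ψ (by omega : 1 ≤ k) τ
  have h := hS.hasSum
  rw [← tsum_zero_pnat_eq_tsum_nat hS] at h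
  simp only [eisCoeff_zero, zero_mul, zero_add] at h
  simpa only [hq, smul_eq_mul, eisCoeff] using h

end QExp

/-! ### Packaging -/

/-- The Eisenstein series with character as a modular form on `Γ₁(N)`. -/
noncomputable def gCharMF (ψ : DirichletCharacter ℂ N) {k : ℕ} (hk : 3 ≤ k) :
    ModularForm (G1 N) (k : ℤ) where
  toFun := gChar ψ (k : ℤ)
  slash_action_eq' := by
    rintro _ ⟨γ, hγ, rfl⟩
    have h0 : γ ∈ Gamma0 N := Gamma1_in_Gamma0 N hγ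
    have h11 : ((γ 1 1 : ℤ) : ZMod N) = 1 := (Gamma1_mem N γ).mp hγ |>.2.1
    have := gChar_slash_Gamma0 ψ (k : ℤ) γ h0
    rw [h11, map_one, one_smul] at this
    exact this
  holo' := gChar_mdifferentiable ψ (by exact_mod_cast hk)
  bdd_at_cusps' {c} hc := by
    rw [Subgroup.IsArithmetic.isCusp_iff_isCusp_SL2Z] at hc
    rw [OnePoint.isBoundedAt_iff_forall_SL2Z hc]
    exact fun γ _ ↦ isBoundedAtImInfty_gChar_slash ψ (by exact_mod_cast hk) γ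

theorem exists_eisChar (hN : 1 < N) (k₀ : ℕ) (hk : 3 ≤ k₀) (ψ : DirichletCharacter ℂ N)
    (hψ : ψ (-1) = (-1) ^ k₀) : ∃ h : ℍ → ℂ, EisSpec N k₀ ψ h := by
  refine ⟨(eisConst k₀)⁻¹ • gChar ψ (k₀ : ℤ), ⟨⟨(eisConst k₀)⁻¹ • gCharMF ψ hk, rfl⟩, ?_, ?_⟩⟩
  · intro γ hγ
    rw [SL_smul_slash, gChar_slash_Gamma0 ψ (k₀ : ℤ) γ hγ, smul_comm]
  · ext n
    rw [PowerSeries.coeff_mk]
    have := ModularFormClass.qExpansion_coeff_unique (h := 1) (Γ := G1 N) (k := (k₀ : ℤ))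
      (f := (eisConst k₀)⁻¹ • gCharMF ψ hk) (c := eisCoeff k₀ ψ) one_pos
      (one_mem_strictPeriods_G1 N) (fun τ => hasSum_qExp ψ hk hN hψ τ) n
    rw [this]
    rfl

/-- Leaf (E) of the N2 design: the Eisenstein series with character exist at every level `N > 1`
and every weight `k₀ ≥ 3`. -/
theorem eisStmt : EisStmt := fun _ _ hN k₀ hk ψ hψ => exists_eisChar hN k₀ hk ψ hψ

end Fermat.Agent.DS.N2.EisChar
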