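import Fermat.Agent.DS.N2.ConjNeb
import Fermat.Agent.DS.N2.EisChar

/-!
# S48 (N2): conjugates of cusp forms on `Γ₁(N)`, unconditionally

Wiring of leaf (G) (`ConjNeb`) with leaf (E) (`EisChar.eisStmt`): for every level `N`, every integer
weight `k` and every ring endomorphism `σ` of `ℂ`, the `σ`-conjugate of the `q`-expansion of a cusp
form on `Γ₁(N)` is again the `q`-expansion of a cusp form on `Γ₁(N)`.
-/

set_option autoImplicit false

open UpperHalfPlane ModularForm ModularFormClass CongruenceSubgroup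
open scoped MatrixGroups ModularForm Manifold

namespace Fermat.Agent.DS.N2

open Fermat.Agent.S23

/-- Leaf (E) in the shape consumed by leaf (G). -/
theorem eisAll : ConjNeb.EisAll := fun N _ hN => EisChar.eisStmt N hN

/-- **Conjugation on `Γ₁(N)`, unbundled, any integer weight.** -/
theorem cuspForm_conj_G1_unbundled (N : ℕ) [NeZero N] (k : ℤ) (σ : ℂ →+* ℂ)
    {f : ℍ → ℂ} (hf : IsCF (G1 N) k f) :
    ∃ g : ℍ → ℂ, IsCF (G1 N) k g ∧ qExpansion 1 g = (qExpansion 1 f).map σ :=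
  cuspForm_conj_G1_int eisAll N k σ hf

/-- **Conjugation on `Γ₁(N)`, bundled, any integer weight.** -/
theorem cuspForm_conj_Gamma1 (N : ℕ) [NeZero N] (k : ℤ) (σ : ℂ →+* ℂ)
    (f : CuspForm (Gamma1 N) k) :
    ∃ g : CuspForm (Gamma1 N) k, ∀ n, qCoeff g n = σ (qCoeff f n) :=
  cuspForm_conj_Gamma1_qCoeff eisAll N k σ f

/-- **Conjugation on `Γ₁(N)` in weight one** (the case of S48). -/
theorem cuspForm_conj_Gamma1_weight_one (N : ℕ) [NeZero N] (σ : ℂ →+* ℂ)
    (f : CuspForm (Gamma1 N) 1) :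
    ∃ g : CuspForm (Gamma1 N) 1, ∀ n, qCoeff g n = σ (qCoeff f n) :=
  cuspForm_conj_Gamma1 N 1 σ f

end Fermat.Agent.DS.N2
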