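/-
S48 (Deligne–Serre), node (N2), piece CONJ: stability of the spaces of modular / cusp forms on an
arbitrary arithmetic subgroup `Γ ≤ SL(2, ℤ)` (with `1` a strict period) under ring endomorphisms
of `ℂ` acting on `q`-expansion coefficients, *relative to a separating form `T` whose conjugate
`T'` is known*.

This is the proof of S23 (`Fermat/Agent/S23/*`: Lagrange interpolation + symmetric functions +
the analytic division lemma + conjugation of level one forms), which is generic in the group and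
in the weight; only the final assembly was written for `Γ₀(N)` and a rational `T`.
-/
import Fermat.Agent.S23.Assembly
import Fermat.Agent.S23.LevelOneConj
import Fermat.Agent.S23.Analytic
import Fermat.Agent.S23.Lagrange

set_option autoImplicit false

open UpperHalfPlane ModularForm
open scoped MatrixGroups ModularForm Manifold

namespace Fermat.Agent.DS.N2.ViaT

open Fermat.Agent.S23

variable {Γ : Subgroup (GL (Fin 2) ℝ)}

/-- A modular form on a group having `1` as a strict period has an analytic cusp function. -/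
theorem nice_of_isMF {k : ℤ} {F : ℍ → ℂ} [Γ.IsArithmetic]
    (h1 : (1 : ℝ) ∈ Γ.strictPeriods) (hF : IsMF Γ k F) : Nice F := by
  obtain ⟨F', rfl⟩ := hF
  exact ModularFormClass.analyticAt_cuspFunction_zero F' one_pos h1

/-- A modular form on a group having `1` as a strict period is determined by its
`q`-expansion. -/
theorem eq_zero_of_qExpansion_eq_zero {k : ℤ} {F : ℍ → ℂ} [Γ.IsArithmetic]
    (h1 : (1 : ℝ) ∈ Γ.strictPeriods) (hF : IsMF Γ k F) (h : qExpansion 1 F = 0) : F = 0 := by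
  obtain ⟨F', rfl⟩ := hF
  have := (ModularForm.qExpansion_eq_zero_iff one_pos h1 F').1 h
  rw [this]
  rfl

section Main

variable [Γ.IsArithmetic] [Γ.HasDetOne] {k : ℤ} (σ : ℂ →+* ℂ)

/-- **Conjugation of modular forms, relative to a separating form.**  The common core of the
modular form and the cusp form statements. -/
theorem conj_core (hΓ : Γ ≤ 𝒮ℒ) (h1 : (1 : ℝ) ∈ Γ.strictPeriods)
    {f : ℍ → ℂ} (hf : IsMF Γ k f)
    {w₀ : ℤ} {T T' : ℍ → ℂ} (hT : IsMF Γ w₀ T) (hT' : IsMF Γ w₀ T')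
    (hTσ : qExpansion 1 T' = (qExpansion 1 T).map σ)
    (hdist : ∀ γ ∈ 𝒮ℒ, γ ∉ Γ → T ∣[w₀] γ ≠ T) :
    ∃ g : ℍ → ℂ, IsMF Γ k g ∧ qExpansion 1 g = (qExpansion 1 f).map σ ∧
      (IsCF Γ k f → IsCF Γ k g) := by
  classical
  have hL1 : L1Statement σ := fun hg => levelOne_conj σ hg
  obtain ⟨m, b, hb, hb0, hlag⟩ := exists_lagrange (Γ := Γ) hT hdist
  obtain ⟨a, ha, hfa⟩ := hlag hf
  obtain ⟨μ, c, hc0, hc, hrel, hcz⟩ := exists_monic_relation (Γ := Γ) hf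
  -- conjugates of the level-one coefficients
  choose! b' hb'MF hb'q using fun i (hi : i ≤ m) => hL1 (hb i hi)
  choose! a' ha'MF ha'q using fun i (hi : i ≤ m) => hL1 (ha i hi)
  choose c₁ hc₁MF hc₁q using fun j => hL1 (hc j)
  set c' : ℕ → ℍ → ℂ := fun j => if j = 0 then 1 else c₁ j with hc'
  have hc'0 : c' 0 = 1 := by simp [hc']
  have hc'MF : ∀ j : ℕ, IsMF 𝒮ℒ ((j : ℤ) * k) (c' j) := by
    intro j
    by_cases hj : j = 0
    · subst hj
      simp only [hc', if_true]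
      simpa using (IsMF.one (Γ := 𝒮ℒ))
    · simp only [hc', if_neg hj]
      exact hc₁MF j
  have hc'q : ∀ j : ℕ, qExpansion 1 (c' j) = (qExpansion 1 (c j)).map σ := by
    intro j
    by_cases hj : j = 0
    · subst hj
      simp only [hc', if_true, hc0]
      rw [qExp_one, map_one]
    · simp only [hc', if_neg hj]
      exact hc₁q j
  -- Nice-ness
  have nT : Nice T := nice_of_isMF h1 hT
  have nT' : Nice T' := nice_of_isMF h1 hT'
  have nf : Nice f := nice_of_isMF h1 hf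
  have nb : ∀ i ∈ Finset.range (m + 1), Nice (b i * T ^ i) := fun i hi =>
    (hb i (by simpa [Nat.lt_succ_iff] using hi)).nice_levelOne.mul (nT.pow i)
  have nb' : ∀ i ∈ Finset.range (m + 1), Nice (b' i * T' ^ i) := fun i hi =>
    (hb'MF i (by simpa [Nat.lt_succ_iff] using hi)).nice_levelOne.mul (nT'.pow i)
  have na : ∀ i ∈ Finset.range (m + 1), Nice (a i * T ^ i) := fun i hi =>
    (ha i (by simpa [Nat.lt_succ_iff] using hi)).nice_levelOne.mul (nT.pow i)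
  have na' : ∀ i ∈ Finset.range (m + 1), Nice (a' i * T' ^ i) := fun i hi =>
    (ha'MF i (by simpa [Nat.lt_succ_iff] using hi)).nice_levelOne.mul (nT'.pow i)
  set B : ℍ → ℂ := ∑ i ∈ Finset.range (m + 1), b i * T ^ i with hB
  set A : ℍ → ℂ := ∑ i ∈ Finset.range (m + 1), a i * T ^ i with hA
  set 𝒟 : ℍ → ℂ := ∑ i ∈ Finset.range (m + 1), b' i * T' ^ i with h𝒟
  set 𝒩 : ℍ → ℂ := ∑ i ∈ Finset.range (m + 1), a' i * T' ^ i with h𝒩
  -- weights
  have hBMF : IsMF Γ ((m : ℤ) * w₀) B := by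
    refine IsMF.sum _ fun i hi => ?_
    have hi' : i ≤ m := by simpa [Nat.lt_succ_iff] using hi
    refine ((hb i hi').mono hΓ).mul_cast (hT.pow_cast i rfl) ?_
    rw [Nat.cast_sub hi']; ring
  have h𝒟MF : IsMF Γ ((m : ℤ) * w₀) 𝒟 := by
    refine IsMF.sum _ fun i hi => ?_
    have hi' : i ≤ m := by simpa [Nat.lt_succ_iff] using hi
    refine ((hb'MF i hi').mono hΓ).mul_cast (hT'.pow_cast i rfl) ?_
    rw [Nat.cast_sub hi']; ring
  have h𝒩MF : IsMF Γ (k + (m : ℤ) * w₀) 𝒩 := by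
    refine IsMF.sum _ fun i hi => ?_
    have hi' : i ≤ m := by simpa [Nat.lt_succ_iff] using hi
    refine ((ha'MF i hi').mono hΓ).mul_cast (hT'.pow_cast i rfl) ?_
    rw [Nat.cast_sub hi']; ring
  -- q-expansions
  have hq𝒟 : qExpansion 1 𝒟 = (qExpansion 1 B).map σ := by
    rw [h𝒟, hB, qExp_sum _ nb', qExp_sum _ nb, map_sum]
    refine Finset.sum_congr rfl fun i hi => ?_
    have hi' : i ≤ m := by simpa [Nat.lt_succ_iff] using hi
    rw [qExp_mul (hb'MF i hi').nice_levelOne (nT'.pow i), qExp_mul (hb i hi').nice_levelOne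
      (nT.pow i), qExp_pow nT, qExp_pow nT', map_mul, map_pow, hTσ, hb'q i hi']
  have hq𝒩 : qExpansion 1 𝒩 = (qExpansion 1 A).map σ := by
    rw [h𝒩, hA, qExp_sum _ na', qExp_sum _ na, map_sum]
    refine Finset.sum_congr rfl fun i hi => ?_
    have hi' : i ≤ m := by simpa [Nat.lt_succ_iff] using hi
    rw [qExp_mul (ha'MF i hi').nice_levelOne (nT'.pow i), qExp_mul (ha i hi').nice_levelOne
      (nT.pow i), qExp_pow nT, qExp_pow nT', map_mul, map_pow, hTσ, ha'q i hi']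
  have nB : Nice B := nice_of_isMF h1 hBMF
  have hqA : qExpansion 1 A = qExpansion 1 f * qExpansion 1 B := by
    rw [← hfa, qExp_mul nf nB]
  have hq𝒩' : qExpansion 1 𝒩 = (qExpansion 1 f).map σ * qExpansion 1 𝒟 := by
    rw [hq𝒩, hqA, map_mul, hq𝒟]
  -- nonvanishing
  have hqB0 : qExpansion 1 B ≠ 0 := fun h0 => hb0 (eq_zero_of_qExpansion_eq_zero h1 hBMF h0)
  have hq𝒟0 : qExpansion 1 𝒟 ≠ 0 := by
    rw [hq𝒟]
    intro h0
    exact hqB0 (map_injective σ (by rw [h0, map_zero]))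
  have h𝒟0 : 𝒟 ≠ 0 := by
    intro h0
    apply hq𝒟0
    rw [h0, qExp_zero]
  -- the relation
  have n𝒟 : Nice 𝒟 := nice_of_isMF h1 h𝒟MF
  have n𝒩 : Nice 𝒩 := nice_of_isMF h1 h𝒩MF
  have nrel : ∀ j ∈ Finset.range (μ + 1), Nice (c' j * 𝒩 ^ (μ - j) * 𝒟 ^ j) := fun j _ =>
    ((hc'MF j).nice_levelOne.mul (n𝒩.pow _)).mul (n𝒟.pow _)
  have nrel₀ : ∀ j ∈ Finset.range (μ + 1), Nice (c j * f ^ (μ - j)) := fun j _ =>
    (hc j).nice_levelOne.mul (nf.pow _)
  have hrelMF : IsMF Γ ((μ : ℤ) * (k + (m : ℤ) * w₀))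
      (∑ j ∈ Finset.range (μ + 1), c' j * 𝒩 ^ (μ - j) * 𝒟 ^ j) := by
    refine IsMF.sum _ fun j hj => ?_
    have hj' : j ≤ μ := by simpa [Nat.lt_succ_iff] using hj
    refine ((((hc'MF j).mono hΓ).mul_cast (h𝒩MF.pow_cast (μ - j) rfl) rfl).mul_cast
      (h𝒟MF.pow_cast j rfl) ?_)
    rw [Nat.cast_sub hj']; ring
  have hrelq : qExpansion 1 (∑ j ∈ Finset.range (μ + 1), c' j * 𝒩 ^ (μ - j) * 𝒟 ^ j) = 0 := by
    have h2 : qExpansion 1 (∑ j ∈ Finset.range (μ + 1), c' j * 𝒩 ^ (μ - j) * 𝒟 ^ j) =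
        qExpansion 1 𝒟 ^ μ *
          (qExpansion 1 (∑ j ∈ Finset.range (μ + 1), c j * f ^ (μ - j))).map σ := by
      rw [qExp_sum _ nrel, qExp_sum _ nrel₀, map_sum, Finset.mul_sum]
      refine Finset.sum_congr rfl fun j hj => ?_
      have hj' : j ≤ μ := by simpa [Nat.lt_succ_iff] using hj
      rw [qExp_mul ((hc'MF j).nice_levelOne.mul (n𝒩.pow _)) (n𝒟.pow _),
        qExp_mul (hc'MF j).nice_levelOne (n𝒩.pow _), qExp_pow n𝒩, qExp_pow n𝒟,
        qExp_mul (hc j).nice_levelOne (nf.pow _), qExp_pow nf, map_mul, map_pow, hc'q j, hq𝒩']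
      have hμ : qExpansion 1 𝒟 ^ μ = qExpansion 1 𝒟 ^ (μ - j) * qExpansion 1 𝒟 ^ j := by
        rw [← pow_add, Nat.sub_add_cancel hj']
      rw [hμ, mul_pow]
      ring
    rw [h2, hrel, qExp_zero, map_zero, mul_zero]
  have hrel' : ∑ j ∈ Finset.range (μ + 1), c' j * 𝒩 ^ (μ - j) * 𝒟 ^ j = 0 :=
    eq_zero_of_qExpansion_eq_zero h1 hrelMF hrelq
  -- apply the analytic division lemma
  obtain ⟨G, hGMF, hG𝒟, hGCF⟩ :=
    exists_div_of_integral (Γ := Γ) h𝒩MF h𝒟MF h𝒟0 c' hc'0 hc'MF hrel'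
  have hqG : qExpansion 1 G = (qExpansion 1 f).map σ := by
    have h2 : qExpansion 1 G * qExpansion 1 𝒟 = (qExpansion 1 f).map σ * qExpansion 1 𝒟 := by
      rw [← qExp_mul (nice_of_isMF h1 hGMF) n𝒟, hG𝒟, hq𝒩']
    exact mul_right_cancel₀ hq𝒟0 h2
  refine ⟨G, hGMF, hqG, fun hfCF => hGCF ?_⟩
  intro j hj
  refine isZeroAtImInfty_of_coeff_zero_levelOne (hc'MF j) ?_
  rw [hc'q j]
  simp [coeff_zero_of_isZeroAtImInfty (hcz hfCF j hj)]

/-- **Conjugation of modular forms on `Γ`**, relative to a separating form `T` with known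
conjugate `T'`. -/
theorem modularForm_conj_of_T (hΓ : Γ ≤ 𝒮ℒ) (h1 : (1 : ℝ) ∈ Γ.strictPeriods)
    {w₀ : ℤ} {T T' : ℍ → ℂ} (hT : IsMF Γ w₀ T) (hT' : IsMF Γ w₀ T')
    (hTσ : qExpansion 1 T' = (qExpansion 1 T).map σ)
    (hdist : ∀ γ ∈ 𝒮ℒ, γ ∉ Γ → T ∣[w₀] γ ≠ T)
    {f : ℍ → ℂ} (hf : IsMF Γ k f) :
    ∃ g : ℍ → ℂ, IsMF Γ k g ∧ qExpansion 1 g = (qExpansion 1 f).map σ := by
  obtain ⟨g, hg, hq, -⟩ := conj_core σ hΓ h1 hf hT hT' hTσ hdist
  exact ⟨g, hg, hq⟩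

/-- **Conjugation of cusp forms on `Γ`**, relative to a separating form `T` with known
conjugate `T'`. -/
theorem cuspForm_conj_of_T (hΓ : Γ ≤ 𝒮ℒ) (h1 : (1 : ℝ) ∈ Γ.strictPeriods)
    {w₀ : ℤ} {T T' : ℍ → ℂ} (hT : IsMF Γ w₀ T) (hT' : IsMF Γ w₀ T')
    (hTσ : qExpansion 1 T' = (qExpansion 1 T).map σ)
    (hdist : ∀ γ ∈ 𝒮ℒ, γ ∉ Γ → T ∣[w₀] γ ≠ T)
    {f : ℍ → ℂ} (hf : IsCF Γ k f) :
    ∃ g : ℍ → ℂ, IsCF Γ k g ∧ qExpansion 1 g = (qExpansion 1 f).map σ := by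
  obtain ⟨g, -, hq, hcf⟩ := conj_core σ hΓ h1 hf.isMF hT hT' hTσ hdist
  exact ⟨g, hcf hf, hq⟩

end Main

end Fermat.Agent.DS.N2.ViaT
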