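/-
S48 (Deligne–Serre), node (N2), piece CONJ at level `Γ₁(N)`.

* `cuspForm_conj_Gamma1_of_T`, `modularForm_conj_Gamma1_of_T`: conjugation of cusp / modular forms
  of ANY weight on `Γ₁(N)` relative to a separating form `T` with known conjugate `T'`.
* `HeckeE1Data N`: the interface to node (N5) (Hecke's weight one Eisenstein series of level `N`
  attached to the `N`-division points): slash law, periodicity, limits at `i∞`, and the
  `q`-expansion of the members `E_{(0,t)}` which are modular forms on `Γ₁(N)`.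
* `cuspForm_conj_Gamma1`, `modularForm_conj_Gamma1`: for `3 ≤ N`, given `HeckeE1Data N`, the spaces
  `S_k(Γ₁(N))`, `M_k(Γ₁(N))` are stable under every ring endomorphism of `ℂ` acting on
  `q`-expansion coefficients, for every weight `k`.
-/
import Fermat.Agent.DS.N2.ConjGen
import Fermat.Agent.DS.N2.Gamma1Group
import Fermat.Prelude.Def_FLTPrelim_Modularity

set_option autoImplicit false

open UpperHalfPlane hiding I
open ModularForm CongruenceSubgroup ModularFormClass Complex Filter Topology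
open scoped MatrixGroups ModularForm Manifold Real

namespace Fermat.Agent.DS.N2.ViaT

open Fermat.Agent.S23

/-- **Conjugation of cusp forms on `Γ₁(N)`** (any weight) relative to a separating form. -/
theorem cuspForm_conj_Gamma1_of_T {N : ℕ} [NeZero N] {k : ℤ} (σ : ℂ →+* ℂ)
    {w₀ : ℤ} (T T' : ModularForm (Gamma1 N) w₀)
    (hTσ : qExpansion 1 T' = (qExpansion 1 T).map σ)
    (hsep : ∀ γ : SL(2, ℤ), γ ∉ CongruenceSubgroup.Gamma1 N → (T : ℍ → ℂ) ∣[w₀] γ ≠ T)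
    (f : CuspForm (Gamma1 N) k) :
    ∃ g : CuspForm (Gamma1 N) k, ∀ n, qCoeff g n = σ (qCoeff f n) := by
  obtain ⟨g, ⟨G, rfl⟩, hg⟩ := cuspForm_conj_of_T (Γ := G1 N) (k := k) σ (G1_le_SL N)
    (one_mem_strictPeriods_G1 N) (T := T) (T' := T') ⟨T, rfl⟩ ⟨T', rfl⟩ hTσ
    (hdist_of_SL_G1 hsep) (f := (f : ℍ → ℂ)) ⟨f, rfl⟩
  refine ⟨G, fun n => ?_⟩
  have := congrArg (PowerSeries.coeff n) hg
  simpa [qCoeff] using this

/-- **Conjugation of modular forms on `Γ₁(N)`** (any weight) relative to a separating form. -/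
theorem modularForm_conj_Gamma1_of_T {N : ℕ} [NeZero N] {k : ℤ} (σ : ℂ →+* ℂ)
    {w₀ : ℤ} (T T' : ModularForm (Gamma1 N) w₀)
    (hTσ : qExpansion 1 T' = (qExpansion 1 T).map σ)
    (hsep : ∀ γ : SL(2, ℤ), γ ∉ CongruenceSubgroup.Gamma1 N → (T : ℍ → ℂ) ∣[w₀] γ ≠ T)
    (f : ModularForm (Gamma1 N) k) :
    ∃ g : ModularForm (Gamma1 N) k, ∀ n, qCoeff g n = σ (qCoeff f n) := by
  obtain ⟨g, ⟨G, rfl⟩, hg⟩ := modularForm_conj_of_T (Γ := G1 N) (k := k) σ (G1_le_SL N)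
    (one_mem_strictPeriods_G1 N) (T := T) (T' := T') ⟨T, rfl⟩ ⟨T', rfl⟩ hTσ
    (hdist_of_SL_G1 hsep) (f := (f : ℍ → ℂ)) ⟨f, rfl⟩
  refine ⟨G, fun n => ?_⟩
  have := congrArg (PowerSeries.coeff n) hg
  simpa [qCoeff] using this

/-! ### The interface to node (N5) -/

/-- The primitive `N`-th root of unity `e^{2πi/N}`. -/
noncomputable def zetaN (N : ℕ) : ℂ := cexp (2 * π * I / N)

theorem isPrimitiveRoot_zetaN (N : ℕ) [NeZero N] : IsPrimitiveRoot (zetaN N) N :=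
  Complex.isPrimitiveRoot_exp N (NeZero.ne N)

/-- What (N2)-CONJ needs from (N5): Hecke's weight one Eisenstein series `E a = E_{a/N}` attached
to `a ∈ ℤ²`, `a ≢ 0 mod N`. -/
structure HeckeE1Data (N : ℕ) [NeZero N] where
  /-- the functions `E_{a/N}` -/
  E : (Fin 2 → ℤ) → ℍ → ℂ
  /-- `E_a ∣[1] γ = E_{aγ}` for all `γ ∈ SL(2, ℤ)` -/
  slash : ∀ (a : Fin 2 → ℤ) (γ : SL(2, ℤ)), ¬ ((N : ℤ) ∣ a 0 ∧ (N : ℤ) ∣ a 1) →
    E a ∣[(1 : ℤ)] γ = E (Matrix.vecMul a (γ : Matrix (Fin 2) (Fin 2) ℤ))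
  /-- `E_a` only depends on `a mod N` -/
  periodic : ∀ a b : Fin 2 → ℤ, E (a + (N : ℤ) • b) = E a
  /-- the limit at `i∞` when `0 < a₀ < N` -/
  tendsto_pos : ∀ a : Fin 2 → ℤ, 0 < a 0 → a 0 < N →
    Tendsto (E a) atImInfty (𝓝 (-(π * I) + 2 * π * I * a 0 / N))
  /-- `E_{(0,t)}` as a modular form on `Γ₁(N)` (junk value when `N ∣ t`) -/
  mf : ℤ → ModularForm (Gamma1 N) 1
  coe_mf : ∀ t : ℤ, ¬ (N : ℤ) ∣ t → ⇑(mf t) = E ![0, t]
  /-- constant term of `E_{(0,t)}`: `π cot(π t / N) = π i (ζᵗ + 1)/(ζᵗ - 1)` -/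
  coeff_zero : ∀ t : ℤ, ¬ (N : ℤ) ∣ t →
    (qExpansion 1 (mf t)).coeff 0 = π * I * ((zetaN N ^ t + 1) / (zetaN N ^ t - 1))
  /-- higher terms of `E_{(0,t)}` -/
  coeff_pos : ∀ t : ℤ, ¬ (N : ℤ) ∣ t → ∀ n : ℕ, 0 < n →
    (qExpansion 1 (mf t)).coeff n =
      -(2 * π * I) * ∑ d ∈ n.divisors, (zetaN N ^ (t * d) - zetaN N ^ (-(t * d)))

/-- A modular form on `Γ₁(N)` tends to the constant term of its `q`-expansion at `i∞`. -/
theorem tendsto_coeff_zero {N : ℕ} [NeZero N] {k : ℤ} (F : ModularForm (Gamma1 N) k) :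
    Tendsto (F : ℍ → ℂ) atImInfty (𝓝 ((qExpansion 1 F).coeff 0)) := by
  have h1 := one_mem_strictPeriods_G1 N
  have han : AnalyticAt ℂ (cuspFunction 1 F) 0 :=
    ModularFormClass.analyticAt_cuspFunction_zero F one_pos h1
  have hF : (cuspFunction 1 F ∘ fun τ : ℍ ↦ Function.Periodic.qParam 1 τ : ℍ → ℂ) = F := by
    funext τ
    simpa using SlashInvariantFormClass.eq_cuspFunction F τ h1 one_ne_zero
  have h0 : (qExpansion 1 F).coeff 0 = cuspFunction 1 F 0 := by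
    simp [qExpansion_coeff]
  rw [h0]
  have := han.continuousAt.tendsto.comp (qParam_tendsto_atImInfty one_pos)
  rwa [hF] at this

section Instance

variable {N : ℕ} [NeZero N] (D : HeckeE1Data N)

private lemma pi_I_ne_zero : (π : ℂ) * I ≠ 0 :=
  mul_ne_zero (by exact_mod_cast Real.pi_ne_zero) I_ne_zero

private lemma zetaN_zpow_ne_one {t : ℤ} (ht : ¬ (N : ℤ) ∣ t) : zetaN N ^ t ≠ 1 := fun h =>
  ht (((isPrimitiveRoot_zetaN N).zpow_eq_one_iff_dvd t).1 h)

omit [NeZero N] in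
private lemma conj_zetaN : (starRingEnd ℂ) (zetaN N) = (zetaN N)⁻¹ := by
  rw [zetaN, ← Complex.exp_conj, ← Complex.exp_neg]
  congr 1
  simp only [map_div₀, map_mul, map_ofNat, conj_I, map_natCast, Complex.conj_ofReal]
  ring

/-- The normalised form `T_t = E_{(0,t)}/(π i)`, with `q`-coefficients in `ℚ(ζ_N)`. -/
noncomputable def TForm (t : ℤ) : ModularForm (Gamma1 N) 1 := ((π : ℂ) * I)⁻¹ • D.mf t

lemma coe_TForm (t : ℤ) : (TForm D t : ℍ → ℂ) = ((π : ℂ) * I)⁻¹ • (D.mf t : ℍ → ℂ) := rfl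

lemma qExpansion_TForm (t : ℤ) :
    qExpansion 1 (TForm D t) = ((π : ℂ) * I)⁻¹ • qExpansion 1 (D.mf t) := by
  rw [coe_TForm]
  exact qExpansion_smul
    (ModularFormClass.analyticAt_cuspFunction_zero (D.mf t) one_pos (one_mem_strictPeriods_G1 N)) _

lemma coeff_zero_TForm {t : ℤ} (ht : ¬ (N : ℤ) ∣ t) :
    (qExpansion 1 (TForm D t)).coeff 0 = (zetaN N ^ t + 1) / (zetaN N ^ t - 1) := by
  rw [qExpansion_TForm, PowerSeries.coeff_smul, D.coeff_zero t ht, smul_eq_mul, ← mul_assoc,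
    inv_mul_cancel₀ pi_I_ne_zero, one_mul]

lemma coeff_pos_TForm {t : ℤ} (ht : ¬ (N : ℤ) ∣ t) {n : ℕ} (hn : 0 < n) :
    (qExpansion 1 (TForm D t)).coeff n =
      -2 * ∑ d ∈ n.divisors, (zetaN N ^ (t * d) - zetaN N ^ (-(t * d))) := by
  rw [qExpansion_TForm, PowerSeries.coeff_smul, D.coeff_pos t ht n hn, smul_eq_mul]
  have := pi_I_ne_zero
  field_simp

/-- The conjugate of `T_1` under `σ` is `T_t`, where `σ ζ = ζ ^ t`. -/
theorem qExpansion_TForm_map (σ : ℂ →+* ℂ) {t : ℕ} (ht : zetaN N ^ t = σ (zetaN N))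
    (h1 : ¬ (N : ℤ) ∣ 1) (htN : ¬ (N : ℤ) ∣ (t : ℤ)) :
    qExpansion 1 (TForm D (t : ℤ)) = (qExpansion 1 (TForm D 1)).map σ := by
  have hσ : σ (zetaN N) = zetaN N ^ (t : ℤ) := by rw [zpow_natCast, ht]
  ext n
  rw [PowerSeries.coeff_map]
  rcases Nat.eq_zero_or_pos n with rfl | hn
  · rw [coeff_zero_TForm D htN, coeff_zero_TForm D h1]
    simp only [zpow_one, map_div₀, map_add, map_sub, map_one, hσ]
  · rw [coeff_pos_TForm D htN hn, coeff_pos_TForm D h1 hn]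
    simp only [map_mul, map_neg, map_ofNat, map_sum, map_sub, map_zpow₀, hσ, one_mul]
    congr 1
    refine Finset.sum_congr rfl fun d _ => ?_
    rw [← zpow_mul, ← zpow_mul, mul_neg]

/-- The constant term of `T_1` is not real when `3 ≤ N`. -/
private lemma constTerm_not_real (hN : 3 ≤ N) (r : ℝ) :
    (zetaN N + 1) / (zetaN N - 1) ≠ (r : ℂ) := by
  intro h
  have hζ := isPrimitiveRoot_zetaN N
  have hζ0 : zetaN N ≠ 0 := hζ.ne_zero (NeZero.ne N)
  have hζ1 : zetaN N ≠ 1 := hζ.ne_one (by omega)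
  have hsub : zetaN N - 1 ≠ 0 := sub_ne_zero.2 hζ1
  -- conjugating the left side changes its sign
  have hconj : (starRingEnd ℂ) ((zetaN N + 1) / (zetaN N - 1)) =
      -((zetaN N + 1) / (zetaN N - 1)) := by
    rw [map_div₀, map_add, map_sub, map_one, conj_zetaN]
    have : 1 - zetaN N ≠ 0 := sub_ne_zero.2 (Ne.symm hζ1)
    field_simp
    ring
  rw [h, Complex.conj_ofReal] at hconj
  have hr : (r : ℂ) = 0 := by linear_combination hconj / 2
  rw [hr, div_eq_zero_iff] at h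
  rcases h with h | h
  · -- ζ = -1, so ζ² = 1, so N ∣ 2
    have h2 : zetaN N ^ 2 = 1 := by
      have : zetaN N = -1 := by linear_combination h
      rw [this]; norm_num
    have := (hζ.pow_eq_one_iff_dvd 2).1 h2
    have := Nat.le_of_dvd (by norm_num) this
    omega
  · exact hsub h

/-- Separation: `T_1 ∣[1] γ ≠ T_1` for `γ ∉ Γ₁(N)`, when `3 ≤ N`. -/
theorem TForm_slash_ne (hN : 3 ≤ N) (γ : SL(2, ℤ)) (hγ : γ ∉ CongruenceSubgroup.Gamma1 N) :
    (TForm D 1 : ℍ → ℂ) ∣[(1 : ℤ)] γ ≠ TForm D 1 := by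
  intro heq
  have hζ := isPrimitiveRoot_zetaN N
  have hN1 : ¬ (N : ℤ) ∣ 1 := by
    intro h
    have := Int.le_of_dvd one_pos h
    omega
  have hN0 : ¬ ((N : ℤ) ∣ (![0, 1] : Fin 2 → ℤ) 0 ∧ (N : ℤ) ∣ (![0, 1] : Fin 2 → ℤ) 1) := by
    simp [hN1]
  -- unfold to a statement about `E`
  rw [coe_TForm, D.coe_mf 1 hN1, ModularForm.SL_smul_slash, D.slash _ γ hN0] at heq
  have hE : D.E (Matrix.vecMul ![0, 1] (γ : Matrix (Fin 2) (Fin 2) ℤ)) = D.E ![0, 1] := by
    have := congrArg (fun F : ℍ → ℂ => ((π : ℂ) * I) • F) heq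
    simpa [smul_smul, mul_inv_cancel₀ pi_I_ne_zero] using this
  have hrow : Matrix.vecMul ![0, 1] (γ : Matrix (Fin 2) (Fin 2) ℤ) = ![γ 1 0, γ 1 1] := by
    ext i; fin_cases i <;> simp [Matrix.vecMul, dotProduct, Fin.sum_univ_two]
  rw [hrow] at hE
  -- the limit of the right hand side
  have hlimR : Tendsto (D.E ![0, 1]) atImInfty
      (𝓝 (π * I * ((zetaN N + 1) / (zetaN N - 1)))) := by
    have := tendsto_coeff_zero (D.mf 1)
    rw [D.coeff_zero 1 hN1, zpow_one, D.coe_mf 1 hN1] at this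
    exact this
  have hdet : γ 0 0 * γ 1 1 - γ 0 1 * γ 1 0 = 1 := by
    have := γ.det_coe
    rwa [Matrix.det_fin_two] at this
  by_cases hc : (N : ℤ) ∣ γ 1 0
  · -- `c ≡ 0`: compare constant terms of `E_{(0,d)}` and `E_{(0,1)}`
    have hd : ¬ (N : ℤ) ∣ γ 1 1 := by
      intro hd
      have : (N : ℤ) ∣ 1 := by
        rw [← hdet]
        exact dvd_sub (Dvd.dvd.mul_left hd _) (Dvd.dvd.mul_left hc _)
      exact hN1 this
    obtain ⟨q, hq⟩ := hc
    have hper : D.E ![γ 1 0, γ 1 1] = D.E ![0, γ 1 1] := by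
      have := D.periodic ![0, γ 1 1] ![q, 0]
      rw [← this]
      congr 1
      ext i; fin_cases i <;> simp [hq]
    rw [hper] at hE
    have hlimL : Tendsto (D.E ![0, γ 1 1]) atImInfty
        (𝓝 (π * I * ((zetaN N ^ (γ 1 1) + 1) / (zetaN N ^ (γ 1 1) - 1)))) := by
      have := tendsto_coeff_zero (D.mf (γ 1 1))
      rw [D.coeff_zero _ hd, D.coe_mf _ hd] at this
      exact this
    rw [hE] at hlimL
    have hval := tendsto_nhds_unique hlimL hlimR
    have hval' : (zetaN N ^ (γ 1 1) + 1) / (zetaN N ^ (γ 1 1) - 1) =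
        (zetaN N + 1) / (zetaN N - 1) := mul_left_cancel₀ pi_I_ne_zero hval
    have h1 : zetaN N ^ (γ 1 1) - 1 ≠ 0 := sub_ne_zero.2 (zetaN_zpow_ne_one hd)
    have h2 : zetaN N - 1 ≠ 0 := sub_ne_zero.2 (hζ.ne_one (by omega))
    rw [div_eq_div_iff h1 h2] at hval'
    have hpow : zetaN N ^ (γ 1 1) = zetaN N := by linear_combination (-1 / 2 : ℂ) * hval'
    have hζ0 : zetaN N ≠ 0 := hζ.ne_zero (NeZero.ne N)
    have hpow' : zetaN N ^ (γ 1 1 - 1) = 1 := by
      rw [zpow_sub₀ hζ0, zpow_one, hpow, div_self hζ0]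
    have hd1 : (N : ℤ) ∣ γ 1 1 - 1 := (hζ.zpow_eq_one_iff_dvd _).1 hpow'
    -- conclude `γ ∈ Γ₁(N)`
    apply hγ
    rw [CongruenceSubgroup.Gamma1_mem]
    have e10 : ((γ 1 0 : ℤ) : ZMod N) = 0 := by
      rw [ZMod.intCast_zmod_eq_zero_iff_dvd]; exact ⟨q, hq⟩
    have e11 : ((γ 1 1 : ℤ) : ZMod N) = 1 := by
      have := (ZMod.intCast_zmod_eq_zero_iff_dvd (γ 1 1 - 1) N).2 hd1
      push_cast at this
      exact sub_eq_zero.1 this
    refine ⟨?_, e11, e10⟩
    have := congrArg (fun z : ℤ => (z : ZMod N)) hdet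
    simp only [Int.cast_sub, Int.cast_mul, Int.cast_one, e10, e11, mul_one, mul_zero,
      sub_zero] at this
    exact this
  · -- `c ≢ 0`: the limit of `E_{(c,d)}` is `π i` times a real number
    set c' : ℤ := γ 1 0 % N with hc'
    have hNpos : (0 : ℤ) < N := by exact_mod_cast NeZero.pos N
    have hc'0 : 0 < c' := by
      rcases (Int.emod_nonneg (γ 1 0) hNpos.ne').lt_or_eq with h | h
      · exact h
      · exact absurd (Int.dvd_of_emod_eq_zero h.symm) hc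
    have hc'N : c' < N := Int.emod_lt_of_pos _ hNpos
    have hper : D.E ![γ 1 0, γ 1 1] = D.E ![c', γ 1 1] := by
      have := D.periodic ![c', γ 1 1] ![γ 1 0 / N, 0]
      rw [← this]
      congr 1
      ext i; fin_cases i
      · simp [hc', Int.emod_add_mul_ediv]
      · simp
    rw [hper] at hE
    have hlimL := D.tendsto_pos ![c', γ 1 1] (by simpa using hc'0) (by simpa using hc'N)
    rw [hE] at hlimL
    have hval := tendsto_nhds_unique hlimL hlimR
    simp only [Matrix.cons_val_zero] at hval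
    have : (zetaN N + 1) / (zetaN N - 1) = ((2 * (c' : ℝ) / N - 1 : ℝ) : ℂ) := by
      have h3 : (π : ℂ) * I * ((zetaN N + 1) / (zetaN N - 1)) =
          (π : ℂ) * I * ((2 * (c' : ℝ) / N - 1 : ℝ) : ℂ) := by
        rw [← hval]; push_cast; ring
      exact mul_left_cancel₀ pi_I_ne_zero h3
    exact constTerm_not_real hN _ this

/-- **(N2)-CONJ for cusp forms**: for `3 ≤ N`, given the Hecke Eisenstein family of level `N`, the
space `S_k(Γ₁(N))` is stable under every ring endomorphism of `ℂ` acting on `q`-expansion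
coefficients, for every weight `k`. -/
theorem cuspForm_conj_Gamma1 (D : HeckeE1Data N) (hN : 3 ≤ N) {k : ℤ} (σ : ℂ →+* ℂ) (f : CuspForm (Gamma1 N) k) :
    ∃ g : CuspForm (Gamma1 N) k, ∀ n, qCoeff g n = σ (qCoeff f n) := by
  have hζ := isPrimitiveRoot_zetaN N
  have hσζ : IsPrimitiveRoot (σ (zetaN N)) N := hζ.map_of_injective σ.injective
  obtain ⟨t, -, htcop, ht⟩ := (hζ.isPrimitiveRoot_iff).1 hσζ
  have hN1 : ¬ (N : ℤ) ∣ 1 := by
    intro h
    have := Int.le_of_dvd one_pos h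
    omega
  have htN : ¬ (N : ℤ) ∣ (t : ℤ) := by
    intro h
    have h' : N ∣ t := by exact_mod_cast h
    have := Nat.eq_one_of_dvd_coprimes htcop h' dvd_rfl
    omega
  exact cuspForm_conj_Gamma1_of_T σ (TForm D 1) (TForm D (t : ℤ))
    (qExpansion_TForm_map D σ ht hN1 htN) (TForm_slash_ne D hN) f

/-- **(N2)-CONJ for modular forms**: same statement for `M_k(Γ₁(N))`. -/
theorem modularForm_conj_Gamma1 (D : HeckeE1Data N) (hN : 3 ≤ N) {k : ℤ} (σ : ℂ →+* ℂ)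
    (f : ModularForm (Gamma1 N) k) :
    ∃ g : ModularForm (Gamma1 N) k, ∀ n, qCoeff g n = σ (qCoeff f n) := by
  have hζ := isPrimitiveRoot_zetaN N
  have hσζ : IsPrimitiveRoot (σ (zetaN N)) N := hζ.map_of_injective σ.injective
  obtain ⟨t, -, htcop, ht⟩ := (hζ.isPrimitiveRoot_iff).1 hσζ
  have hN1 : ¬ (N : ℤ) ∣ 1 := by
    intro h
    have := Int.le_of_dvd one_pos h
    omega
  have htN : ¬ (N : ℤ) ∣ (t : ℤ) := by
    intro h
    have h' : N ∣ t := by exact_mod_cast h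
    have := Nat.eq_one_of_dvd_coprimes htcop h' dvd_rfl
    omega
  exact modularForm_conj_Gamma1_of_T σ (TForm D 1) (TForm D (t : ℤ))
    (qExpansion_TForm_map D σ ht hN1 htN) (TForm_slash_ne D hN) f

end Instance

end Fermat.Agent.DS.N2.ViaT
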