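import Fermat.Agent.DS.N2.GatesFinal
import Fermat.Agent.DS.N8.LogDensity

/-!
# S48 (N2): `GateSparse` in the logarithmic density language of `DS/N8/LogDensity`

`gateSparse_upperLogDensity`: for every `η > 0` there are a finite set `Y ⊆ ℂ` and a set `X ⊆ ℕ` with
`UpperLogDensityLE X η` such that `a_p ∈ Y` for all primes `p ∤ N` outside `X`.
-/

set_option autoImplicit false

open UpperHalfPlane ModularForm CongruenceSubgroup ModularFormClass
open scoped MatrixGroups ModularForm Manifold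

namespace Fermat.Agent.DS.N2

open Fermat.Agent.DS.N8

/-- **GateSparse** (frozen-S48 binders), with the density notion of `DS/N8/LogDensity`. -/
theorem gateSparse_upperLogDensity {N : ℕ} [NeZero N] (ε : DirichletCharacter ℂ N)
    (f : CuspForm (Gamma1 N) 1) (hf₁ : qCoeff f 1 = 1)
    (hT : ∀ p : ℕ, p.Prime → ¬ p ∣ N → ∀ n : ℕ,
      qCoeff f (p * n) + ε (p : ZMod N) * (if p ∣ n then qCoeff f (n / p) else 0) =
        qCoeff f p * qCoeff f n)
    (eta : ℝ) (heta : 0 < eta) :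
    ∃ (Y : Finset ℂ) (X : Set ℕ), UpperLogDensityLE X eta ∧
      ∀ p : ℕ, p.Prime → ¬ p ∣ N → p ∉ X → qCoeff f p ∈ Y := by
  obtain ⟨Y, X, ⟨C, hC1, C', hsum⟩, hY⟩ := gateSparse ε f hf₁ hT eta heta
  refine ⟨Y, X, UpperLogDensityLE.of_O1 ⟨eta * Real.log (2 * C) + C', 1, one_pos,
    fun s hs1 hs2 T hTX => ?_⟩, hY⟩
  have hC0 : 0 < C := lt_of_lt_of_le zero_lt_one hC1
  have h1 := hsum s hs1 T hTX
  have h2 := log_mul_inv_add_one_le hC0 hs1 (by linarith : s < 2)
  have h3 : ∑ p ∈ T, 1 / (p : ℝ) ^ s = ∑ p ∈ T, (p : ℝ) ^ (-s) :=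
    Finset.sum_congr rfl fun p _ => one_div_rpow_eq p s
  rw [h3] at h1
  have h4 : eta * Real.log (C * (1 / (s - 1) + 1)) ≤
      eta * (Real.log (1 / (s - 1)) + Real.log (2 * C)) :=
    mul_le_mul_of_nonneg_left h2 heta.le
  linarith

end Fermat.Agent.DS.N2
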