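import Mathlib

/-!
# S48 (Deligne–Serre), node (N2): the square trick

Replacement for Deligne–Serre Lemma 2.7 (conjugates of weight-one forms are weight-one forms).

## Part (i): analytic division

`exists_analytic_div` : `E H H₂` analytic on a preconnected open `U ⊆ ℂ`, `E` not identically zero
on `U`, `H² = H₂ · E²` on `U`.  Then there is `G` analytic on `U` with `G · E = H` and `G² = H₂`
on `U`.  (Orders: `2 ord H = ord H₂ + 2 ord E ≥ 2 ord E`.)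

Mathlib only.
-/

namespace Fermat.Agent.DS.N2.SquareTrick

open Filter Topology

/-- isolated zeros: an analytic function on a preconnected set which is nonzero somewhere is
nonzero on a punctured neighbourhood of every point. -/
theorem eventually_ne_zero_of_preconnected {E : ℂ → ℂ} {U : Set ℂ}
    (hE : AnalyticOnNhd ℂ E U) (hU : IsPreconnected U) {x : ℂ} (hx : x ∈ U) (hEx : E x ≠ 0)
    {z₀ : ℂ} (hz₀ : z₀ ∈ U) : ∀ᶠ z in 𝓝[≠] z₀, E z ≠ 0 := by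
  rcases (hE z₀ hz₀).eventually_eq_zero_or_eventually_ne_zero with h | h
  · exact absurd (hE.eqOn_zero_of_preconnected_of_eventuallyEq_zero hU hz₀ h hx) hEx
  · exact h

/-- finite order of `E` at every point. -/
theorem analyticOrderAt_ne_top_of_ne_zero {E : ℂ → ℂ} {U : Set ℂ}
    (hE : AnalyticOnNhd ℂ E U) (hU : IsPreconnected U) {x : ℂ} (hx : x ∈ U) (hEx : E x ≠ 0)
    {z₀ : ℂ} (hz₀ : z₀ ∈ U) : analyticOrderAt E z₀ ≠ ⊤ := by
  refine hE.analyticOrderAt_ne_top_of_isPreconnected hU hx hz₀ ?_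
  intro h
  rw [analyticOrderAt_eq_top] at h
  exact hEx h.self_of_nhds

/-- local division: if `H² = H₂ E²` near `z₀` and `E` has finite order at `z₀`, then
`H = g · E` near `z₀` with `g` analytic at `z₀`. -/
theorem exists_local_div {E H H₂ : ℂ → ℂ} {z₀ : ℂ}
    (hE : AnalyticAt ℂ E z₀) (hH : AnalyticAt ℂ H z₀) (hH₂ : AnalyticAt ℂ H₂ z₀)
    (hfin : analyticOrderAt E z₀ ≠ ⊤)
    (hsq : ∀ᶠ z in 𝓝 z₀, H z ^ 2 = H₂ z * E z ^ 2) :
    ∃ g : ℂ → ℂ, AnalyticAt ℂ g z₀ ∧ ∀ᶠ z in 𝓝 z₀, H z = g z * E z := by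
  obtain ⟨n, hn⟩ := ENat.ne_top_iff_exists.mp hfin
  -- order inequality
  have hord : (n : ℕ∞) ≤ analyticOrderAt H z₀ := by
    have h1 : analyticOrderAt (H ^ 2) z₀ = analyticOrderAt (H₂ * E ^ 2) z₀ :=
      analyticOrderAt_congr hsq
    rw [analyticOrderAt_pow hH, analyticOrderAt_mul hH₂ (hE.pow 2), analyticOrderAt_pow hE,
      ← hn] at h1
    by_cases htop : analyticOrderAt H z₀ = ⊤
    · rw [htop]; exact le_top
    obtain ⟨m, hm⟩ := ENat.ne_top_iff_exists.mp htop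
    rw [← hm] at h1 ⊢
    by_cases htop2 : analyticOrderAt H₂ z₀ = ⊤
    · rw [htop2] at h1
      exfalso
      have h2 : ((2 * m : ℕ) : ℕ∞) = ⊤ := by
        push_cast
        rw [two_mul, ← two_nsmul, h1]
        simp
      exact ENat.natCast_ne_top _ h2
    obtain ⟨l, hl⟩ := ENat.ne_top_iff_exists.mp htop2
    rw [← hl] at h1
    have h2 : ((2 * m : ℕ) : ℕ∞) = ((l + 2 * n : ℕ) : ℕ∞) := by
      push_cast
      simpa [two_mul, two_nsmul] using h1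
    have h3 : 2 * m = l + 2 * n := by exact_mod_cast h2
    exact_mod_cast (by omega : n ≤ m)
  obtain ⟨h1, hh1, hHeq⟩ := (natCast_le_analyticOrderAt hH).mp hord
  obtain ⟨e1, he1, he1ne, hEeq⟩ := (hE.analyticOrderAt_eq_natCast).mp hn.symm
  refine ⟨fun z => h1 z / e1 z, hh1.div he1 he1ne, ?_⟩
  have hne : ∀ᶠ z in 𝓝 z₀, e1 z ≠ 0 := he1.continuousAt.eventually_ne he1ne
  filter_upwards [hHeq, hEeq, hne] with z hz1 hz2 hz3
  rw [hz1, hz2]
  simp only [smul_eq_mul]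
  field_simp

/-- **Analytic division (square trick, local-to-global).** -/
theorem exists_analytic_div {E H H₂ : ℂ → ℂ} {U : Set ℂ} (hUo : IsOpen U)
    (hU : IsPreconnected U)
    (hE : AnalyticOnNhd ℂ E U) (hH : AnalyticOnNhd ℂ H U) (hH₂ : AnalyticOnNhd ℂ H₂ U)
    (hne : ∃ x ∈ U, E x ≠ 0)
    (hsq : ∀ z ∈ U, H z ^ 2 = H₂ z * E z ^ 2) :
    ∃ G : ℂ → ℂ, AnalyticOnNhd ℂ G U ∧ (∀ z ∈ U, G z * E z = H z) ∧
      (∀ z ∈ U, G z ^ 2 = H₂ z) := by
  classical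
  obtain ⟨x, hx, hEx⟩ := hne
  have hloc : ∀ z₀ : U, ∃ g : ℂ → ℂ, AnalyticAt ℂ g z₀ ∧ ∀ᶠ z in 𝓝 (z₀ : ℂ), H z = g z * E z := by
    intro z₀
    refine exists_local_div (hE z₀ z₀.2) (hH z₀ z₀.2) (hH₂ z₀ z₀.2)
      (analyticOrderAt_ne_top_of_ne_zero hE hU hx hEx z₀.2) ?_
    filter_upwards [hUo.mem_nhds z₀.2] with z hz using hsq z hz
  choose g hg hgeq using hloc
  let G : ℂ → ℂ := fun z => if h : z ∈ U then g ⟨z, h⟩ z else 0
  have hGev : ∀ z₀ : U, ∀ᶠ z in 𝓝 (z₀ : ℂ), G z = g z₀ z := by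
    intro z₀
    have hiso := eventually_ne_zero_of_preconnected hE hU hx hEx z₀.2
    rw [eventually_nhdsWithin_iff] at hiso
    filter_upwards [hiso, hgeq z₀, hUo.mem_nhds z₀.2] with z hz1 hz2 hz3
    by_cases hzz : z = z₀
    · subst hzz
      simp only [G, dif_pos hz3]
    · have hEz : E z ≠ 0 := hz1 hzz
      have h3 : H z = g ⟨z, hz3⟩ z * E z := (hgeq ⟨z, hz3⟩).self_of_nhds
      simp only [G, dif_pos hz3]
      exact mul_right_cancel₀ hEz (h3.symm.trans hz2)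
  have hGan : AnalyticOnNhd ℂ G U := fun z₀ hz₀ =>
    (hg ⟨z₀, hz₀⟩).congr ((hGev ⟨z₀, hz₀⟩).mono fun z hz => hz.symm)
  have hGE : ∀ z ∈ U, G z * E z = H z := by
    intro z hz
    have h1 : G z = g ⟨z, hz⟩ z := (hGev ⟨z, hz⟩).self_of_nhds
    rw [h1]
    exact ((hgeq ⟨z, hz⟩).self_of_nhds).symm
  refine ⟨G, hGan, hGE, ?_⟩
  intro z₀ hz₀
  -- `G² - H₂` vanishes off the zeros of `E`, hence everywhere by continuity
  have hiso := eventually_ne_zero_of_preconnected hE hU hx hEx hz₀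
  have hev : ∀ᶠ z in 𝓝[≠] z₀, G z ^ 2 = H₂ z := by
    filter_upwards [hiso, mem_nhdsWithin_of_mem_nhds (hUo.mem_nhds hz₀)] with z hz1 hz2
    have h1 := hsq z hz2
    rw [← hGE z hz2, mul_pow] at h1
    exact mul_right_cancel₀ (pow_ne_zero 2 hz1) h1
  have hc1 : ContinuousAt (fun z => G z ^ 2) z₀ := ((hGan z₀ hz₀).pow 2).continuousAt
  have hc2 : ContinuousAt H₂ z₀ := (hH₂ z₀ hz₀).continuousAt
  exact tendsto_nhds_unique_of_eventuallyEq (l := 𝓝[≠] z₀)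
    hc1.continuousWithinAt hc2.continuousWithinAt hev


/-! ## Part (ii): modular forms -/

section Forms

open UpperHalfPlane ModularForm
open scoped Manifold MatrixGroups ModularForm

/-- transfer of holomorphy to the open upper half plane in `ℂ`. -/
theorem analyticOnNhd_comp_ofComplex {f : ℍ → ℂ} (hf : MDifferentiable 𝓘(ℂ) 𝓘(ℂ) f) :
    AnalyticOnNhd ℂ (f ∘ ofComplex) {z : ℂ | 0 < z.im} :=
  (UpperHalfPlane.mdifferentiable_iff.mp hf).analyticOnNhd isOpen_upperHalfPlaneSet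

/-- a tendsto-zero lemma: `c • f² → 0`, `c ≠ 0` implies `f → 0`. -/
theorem tendsto_zero_of_smul_sq {α : Type*} {l : Filter α} {f : α → ℂ} {c : ℝ} (hc : c ≠ 0)
    (h : Tendsto (fun x => c • (f x * f x)) l (𝓝 0)) : Tendsto f l (𝓝 0) := by
  rw [tendsto_zero_iff_norm_tendsto_zero] at h ⊢
  have h1 : Tendsto (fun x => ‖f x‖ ^ 2) l (𝓝 0) := by
    have h2 : Tendsto (fun x => |c|⁻¹ * ‖c • (f x * f x)‖) l (𝓝 (|c|⁻¹ * 0)) :=
      h.const_mul _
    rw [mul_zero] at h2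
    refine h2.congr fun x => ?_
    rw [norm_smul, norm_mul, Real.norm_eq_abs, ← mul_assoc,
      inv_mul_cancel₀ (abs_ne_zero.mpr hc), one_mul, sq]
  have h3 : Tendsto (fun x => Real.sqrt (‖f x‖ ^ 2)) l (𝓝 (Real.sqrt 0)) :=
    (Real.continuous_sqrt.tendsto 0).comp h1
  rw [Real.sqrt_zero] at h3
  refine h3.congr fun x => ?_
  rw [Real.sqrt_sq (norm_nonneg _)]

/-- On `ℍ`: `D * E = 0` with `D, E` holomorphic and `E ≢ 0` forces `D = 0`. -/
theorem eq_zero_of_mul_eq_zero_of_mdiff {D E : ℍ → ℂ} (hD : MDifferentiable 𝓘(ℂ) 𝓘(ℂ) D)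
    (hE : MDifferentiable 𝓘(ℂ) 𝓘(ℂ) E) (hne : ∃ τ, E τ ≠ 0) (h : ∀ τ, D τ * E τ = 0) :
    ∀ τ, D τ = 0 := by
  obtain ⟨τ₀, hτ₀⟩ := hne
  have hUo : IsOpen {z : ℂ | 0 < z.im} := isOpen_upperHalfPlaneSet
  have hUc : IsPreconnected {z : ℂ | 0 < z.im} := (convex_halfSpace_im_gt 0).isPreconnected
  have hE' := analyticOnNhd_comp_ofComplex hE
  have hD' := analyticOnNhd_comp_ofComplex hD
  intro τ
  have hτ : (τ : ℂ) ∈ {z : ℂ | 0 < z.im} := τ.2
  have hx : (τ₀ : ℂ) ∈ {z : ℂ | 0 < z.im} := τ₀.2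
  have hEx : (E ∘ ofComplex) (τ₀ : ℂ) ≠ 0 := by simpa [ofComplex_apply] using hτ₀
  have hiso := eventually_ne_zero_of_preconnected hE' hUc hx hEx hτ
  have hev : ∀ᶠ z in 𝓝[≠] (τ : ℂ), (D ∘ ofComplex) z = (fun _ => (0 : ℂ)) z := by
    filter_upwards [hiso] with z hz
    have := h (ofComplex z)
    exact (mul_eq_zero.mp this).resolve_right hz
  have hc : ContinuousAt (D ∘ ofComplex) (τ : ℂ) := (hD' τ hτ).continuousAt
  have := tendsto_nhds_unique_of_eventuallyEq (l := 𝓝[≠] (τ : ℂ))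
    hc.continuousWithinAt (continuousAt_const (y := (0 : ℂ))).continuousWithinAt hev
  simpa [ofComplex_apply] using this

variable {Γ : Subgroup (GL (Fin 2) ℝ)} [Γ.HasDetPlusMinusOne]

/-- **The square trick for forms.**  `E ∈ M₁(Γ)` nonzero, `H, H₂ ∈ S₂(Γ)` with `H² = H₂ E²`
on `ℍ`.  Then `H / E` is a weight-one cusp form on `Γ`. -/
theorem exists_cuspForm_div (E : ModularForm Γ 1) (hE : ∃ τ, E τ ≠ 0) (H H₂ : CuspForm Γ 2)
    (hsq : ∀ τ : ℍ, H τ ^ 2 = H₂ τ * E τ ^ 2) :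
    ∃ G : CuspForm Γ 1, (∀ τ, G τ * E τ = H τ) ∧ ∀ τ, G τ ^ 2 = H₂ τ := by
  obtain ⟨τ₀, hτ₀⟩ := hE
  have hUo : IsOpen {z : ℂ | 0 < z.im} := isOpen_upperHalfPlaneSet
  have hUc : IsPreconnected {z : ℂ | 0 < z.im} := (convex_halfSpace_im_gt 0).isPreconnected
  have hEm : MDifferentiable 𝓘(ℂ) 𝓘(ℂ) (E : ℍ → ℂ) := ModularFormClass.holo E
  have hHm : MDifferentiable 𝓘(ℂ) 𝓘(ℂ) (H : ℍ → ℂ) := CuspFormClass.holo H
  have hH₂m : MDifferentiable 𝓘(ℂ) 𝓘(ℂ) (H₂ : ℍ → ℂ) := CuspFormClass.holo H₂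
  obtain ⟨G', hG'an, hG'E, hG'sq⟩ := exists_analytic_div hUo hUc
    (analyticOnNhd_comp_ofComplex hEm) (analyticOnNhd_comp_ofComplex hHm)
    (analyticOnNhd_comp_ofComplex hH₂m)
    ⟨(τ₀ : ℂ), τ₀.2, by simpa [ofComplex_apply] using hτ₀⟩
    (fun z _ => by simpa using hsq (ofComplex z))
  let G : ℍ → ℂ := fun τ => G' (τ : ℂ)
  have hGE : ∀ τ : ℍ, G τ * E τ = H τ := by
    intro τ
    simpa [ofComplex_apply] using hG'E (τ : ℂ) τ.2
  have hGsq : ∀ τ : ℍ, G τ ^ 2 = H₂ τ := by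
    intro τ
    simpa [ofComplex_apply] using hG'sq (τ : ℂ) τ.2
  have hGm : MDifferentiable 𝓘(ℂ) 𝓘(ℂ) G := by
    rw [UpperHalfPlane.mdifferentiable_iff]
    refine (hG'an.differentiableOn).congr fun z hz => ?_
    simp only [G, Function.comp_apply, ofComplex_apply_of_im_pos hz, UpperHalfPlane.coe_mk]
  have hGEf : G * (E : ℍ → ℂ) = (H : ℍ → ℂ) := funext hGE
  have hGGf : G * G = (H₂ : ℍ → ℂ) := funext fun τ => by
    rw [← hGsq τ, sq]; rfl
  -- slash invariance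
  have hinv : ∀ γ ∈ Γ, G ∣[(1 : ℤ)] γ = G := by
    intro γ hγ
    have h1 : (H : ℍ → ℂ) ∣[(2 : ℤ)] γ = H := SlashInvariantFormClass.slash_action_eq H γ hγ
    have h2 : (E : ℍ → ℂ) ∣[(1 : ℤ)] γ = E := SlashInvariantFormClass.slash_action_eq E γ hγ
    have h3 : (G * (E : ℍ → ℂ)) ∣[(1 : ℤ) + 1] γ =
        |(γ.det : ℝ)| • (G ∣[(1 : ℤ)] γ * (E : ℍ → ℂ) ∣[(1 : ℤ)] γ) := mul_slash 1 1 γ G E
    rw [hGEf, h2, Subgroup.HasDetPlusMinusOne.abs_det hγ, one_smul] at h3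
    have h4 : (H : ℍ → ℂ) = G ∣[(1 : ℤ)] γ * (E : ℍ → ℂ) := by
      rw [← h3]; exact h1.symm
    have h5 : ∀ τ, (G ∣[(1 : ℤ)] γ - G) τ * E τ = 0 := by
      intro τ
      have := congrFun h4 τ
      simp only [Pi.mul_apply] at this
      simp only [Pi.sub_apply, sub_mul, ← this, hGE τ, sub_self]
    have h6 := eq_zero_of_mul_eq_zero_of_mdiff ((hGm.slash 1 γ).sub hGm) hEm ⟨τ₀, hτ₀⟩ h5
    funext τ
    have := h6 τ
    simpa [sub_eq_zero] using this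
  -- cusps
  have hcusp : ∀ {c : OnePoint ℝ}, IsCusp c Γ → c.IsZeroAt G 1 := by
    intro c hc g hg
    have h1 : IsZeroAtImInfty ((H₂ : ℍ → ℂ) ∣[(2 : ℤ)] g) := CuspFormClass.zero_at_cusps H₂ hc g hg
    have h3 : (G * G) ∣[(1 : ℤ) + 1] g =
        |(g.det : ℝ)| • (G ∣[(1 : ℤ)] g * G ∣[(1 : ℤ)] g) := mul_slash 1 1 g G G
    rw [hGGf] at h3
    have h4 : (H₂ : ℍ → ℂ) ∣[(2 : ℤ)] g = |(g.det : ℝ)| • (G ∣[(1 : ℤ)] g * G ∣[(1 : ℤ)] g) := h3
    rw [h4] at h1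
    have hdet : |(g.det : ℝ)| ≠ 0 := abs_ne_zero.mpr (by
      have := g.det.ne_zero
      exact this)
    exact tendsto_zero_of_smul_sq hdet h1
  exact ⟨{ toFun := G, slash_action_eq' := hinv, holo' := hGm, zero_at_cusps' := hcusp },
    hGE, hGsq⟩

/-- **The square trick, `q`-expansion form.**  `E ∈ M₁(Γ)` with nonzero `q`-expansion `e`,
`g ∈ ℂ⟦q⟧` with `g · e ∈ qExp(S₂(Γ))` and `g² ∈ qExp(S₂(Γ))`.  Then `g` is the `q`-expansion
of a weight-one cusp form on `Γ`. -/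
theorem exists_cuspForm_qExpansion_eq {h : ℝ} (hh : 0 < h) (hΓ : h ∈ Γ.strictPeriods)
    (E : ModularForm Γ 1) (hE : qExpansion h E ≠ 0) (H H₂ : CuspForm Γ 2) (g : PowerSeries ℂ)
    (hgE : g * qExpansion h E = qExpansion h H) (hg2 : g ^ 2 = qExpansion h H₂) :
    ∃ G : CuspForm Γ 1, qExpansion h G = g := by
  have : Fact (IsCusp OnePoint.infty Γ) := ⟨Γ.isCusp_of_mem_strictPeriods hh hΓ⟩
  -- `E ≢ 0`
  have hE0 : ∃ τ, E τ ≠ 0 := by
    by_contra hcon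
    simp only [not_exists, not_not] at hcon
    apply hE
    rw [ModularForm.qExpansion_eq_zero_iff hh hΓ]
    exact ModularForm.ext hcon
  -- the weight-four forms `H²` and `H₂ E²` have the same `q`-expansion
  let Hm : ModularForm Γ 2 := ModularFormClass.modularForm H
  let H₂m : ModularForm Γ 2 := ModularFormClass.modularForm H₂
  have hq1 : qExpansion h (Hm.mul Hm) = qExpansion h H * qExpansion h H :=
    ModularForm.qExpansion_mul hh hΓ Hm Hm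
  have hq2 : qExpansion h (H₂m.mul (E.mul E)) =
      qExpansion h H₂ * (qExpansion h E * qExpansion h E) := by
    rw [ModularForm.qExpansion_mul hh hΓ H₂m (E.mul E), ModularForm.qExpansion_mul hh hΓ E E]
    rfl
  have hq : qExpansion h (Hm.mul Hm) = qExpansion h (H₂m.mul (E.mul E)) := by
    rw [hq1, hq2, ← hgE, ← hg2]; ring
  have hsq : ∀ τ : ℍ, H τ ^ 2 = H₂ τ * E τ ^ 2 := by
    intro τ
    have s1 := ModularForm.hasSum_qExpansion (Hm.mul Hm) hh hΓ τ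
    have s2 := ModularForm.hasSum_qExpansion (H₂m.mul (E.mul E)) hh hΓ τ
    rw [hq] at s1
    have h3 : (Hm.mul Hm) τ = (H₂m.mul (E.mul E)) τ := s1.unique s2
    have h4 : (Hm.mul Hm) τ = H τ * H τ := rfl
    have h5 : (H₂m.mul (E.mul E)) τ = H₂ τ * (E τ * E τ) := rfl
    rw [sq, sq, ← h4, ← h5, h3]
  obtain ⟨G, hGE, -⟩ := exists_cuspForm_div E hE0 H H₂ hsq
  refine ⟨G, ?_⟩
  have h1 : qExpansion h ((G : ℍ → ℂ) * (E : ℍ → ℂ)) = qExpansion h G * qExpansion h E :=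
    ModularForm.qExpansion_mul_coe hh hΓ G E
  have h2 : (G : ℍ → ℂ) * (E : ℍ → ℂ) = (H : ℍ → ℂ) := funext hGE
  rw [h2, ← hgE] at h1
  exact (mul_right_cancel₀ hE h1).symm

/-- **Conjugates of weight-one cusp forms are weight-one cusp forms.**  Let `σ` be a ring
endomorphism of `ℂ` such that the set of `q`-expansions of `S₂(Γ)` is stable under `σ` (this is
what a `ℤ`-structure on `S₂(Γ)` gives), and let `E, E' ∈ M₁(Γ)` with `σ(qExp E) = qExp E' ≠ 0`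
(e.g. `E = E'` with rational coefficients).  Then for every `f ∈ S₁(Γ)` the series `σ(qExp f)` is
again the `q`-expansion of an element of `S₁(Γ)`. -/
theorem exists_cuspForm_qExpansion_map {h : ℝ} (hh : 0 < h) (hΓ : h ∈ Γ.strictPeriods)
    (σ : ℂ →+* ℂ)
    (hS₂ : ∀ F : CuspForm Γ 2, ∃ F' : CuspForm Γ 2,
      qExpansion h F' = (qExpansion h F).map σ)
    (E E' : ModularForm Γ 1) (hEσ : (qExpansion h E).map σ = qExpansion h E')
    (hE' : qExpansion h E' ≠ 0) (f : CuspForm Γ 1) :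
    ∃ f' : CuspForm Γ 1, qExpansion h f' = (qExpansion h f).map σ := by
  let fm : ModularForm Γ 1 := ModularFormClass.modularForm f
  obtain ⟨F1, hF1⟩ := hS₂ (f.mulModularForm E)
  obtain ⟨F2, hF2⟩ := hS₂ (f.mulModularForm fm)
  have h1 : qExpansion h (f.mulModularForm E) = qExpansion h f * qExpansion h E :=
    ModularForm.qExpansion_mul_coe hh hΓ f E
  have h2 : qExpansion h (f.mulModularForm fm) = qExpansion h f * qExpansion h f :=
    ModularForm.qExpansion_mul_coe hh hΓ f fm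
  refine exists_cuspForm_qExpansion_eq hh hΓ E' hE' F1 F2 ((qExpansion h f).map σ) ?_ ?_
  · rw [hF1, h1, map_mul, hEσ]
  · rw [hF2, h2, map_mul, sq]

end Forms

end Fermat.Agent.DS.N2.SquareTrick
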